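import Fermat.Agent.TW.Defs

set_option autoImplicit false

/-!
# Elementary Selmer groups (1): cochains over `G_ℚ` with values in `ZMod 2`
-/

namespace Fermat.Agent.LTF.Sel

open Fermat.Agent.S53norm (GQ M2)

/-- The level subgroup of a field. -/
def Fixes (L : IntermediateField ℚ (AlgebraicClosure ℚ)) (u : GQ) : Prop := ∀ x ∈ L, u x = x

/-- `s` only depends on the class modulo the automorphisms fixing some finite extension. -/
def SmoothFn {X : Type} (s : GQ → X) : Prop :=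
  ∃ L : IntermediateField ℚ (AlgebraicClosure ℚ), FiniteDimensional ℚ L ∧
    ∀ g u : GQ, Fixes L u → s (g * u) = s g

/-- The action on a square root, as an element of `ZMod 2`. -/
noncomputable def kum (x : AlgebraicClosure ℚ) (g : GQ) : ZMod 2 :=
  open Classical in if g x = x then 0 else 1

/-- The `2`-cochain `c` is, on the subgroup `D`, the coboundary of a smooth `1`-cochain. -/
def Spl (D : Subgroup GQ) (c : GQ → GQ → ZMod 2) : Prop :=
  ∃ s : GQ → ZMod 2, SmoothFn s ∧ ∀ g ∈ D, ∀ h ∈ D, c g h = s g + s h + s (g * h)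

/-- `x` is a non zero square root of a rational number. -/
def RatSq (x : AlgebraicClosure ℚ) : Prop :=
  x ≠ 0 ∧ ∃ a : ℚ, x ^ 2 = algebraMap ℚ (AlgebraicClosure ℚ) a

lemma Fixes.mono {L L' : IntermediateField ℚ (AlgebraicClosure ℚ)} (h : L ≤ L') {u : GQ}
    (hu : Fixes L' u) : Fixes L u := fun x hx => hu x (h hx)

lemma smoothFn_comp2 {X Y Z : Type} {s : GQ → X} {t : GQ → Y} (hs : SmoothFn s)
    (ht : SmoothFn t) (F : X → Y → Z) : SmoothFn (fun g => F (s g) (t g)) := by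
  obtain ⟨L, hL, h1⟩ := hs
  obtain ⟨L', hL', h2⟩ := ht
  refine ⟨L ⊔ L', IntermediateField.finiteDimensional_sup L L', fun g u hu => ?_⟩
  show F (s (g * u)) (t (g * u)) = _
  rw [h1 g u (hu.mono le_sup_left), h2 g u (hu.mono le_sup_right)]

lemma smoothFn_const {X : Type} (a : X) : SmoothFn (fun _ => a) :=
  ⟨⊥, inferInstance, fun _ _ _ => rfl⟩

/-- The split cochains form a group. -/
def splSub (D : Subgroup GQ) : AddSubgroup (GQ → GQ → ZMod 2) where
  carrier := {c | Spl D c}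
  add_mem' := by
    rintro c c' ⟨s, hs, h⟩ ⟨s', hs', h'⟩
    refine ⟨fun g => s g + s' g, smoothFn_comp2 hs hs' (· + ·), fun g hg k hk => ?_⟩
    rw [Pi.add_apply, Pi.add_apply, h g hg k hk, h' g hg k hk]
    ring
  zero_mem' := ⟨fun _ => 0, smoothFn_const 0, fun _ _ _ _ => by simp⟩
  neg_mem' := by
    rintro c ⟨s, hs, h⟩
    refine ⟨s, hs, fun g hg k hk => ?_⟩
    rw [Pi.neg_apply, Pi.neg_apply, h g hg k hk, CharTwo.neg_eq]

lemma mem_splSub {D : Subgroup GQ} {c : GQ → GQ → ZMod 2} : c ∈ splSub D ↔ Spl D c := Iff.rfl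

lemma Spl.mono {D D' : Subgroup GQ} (hD : D ≤ D') {c : GQ → GQ → ZMod 2} (h : Spl D' c) :
    Spl D c := by
  obtain ⟨s, hs, h⟩ := h
  exact ⟨s, hs, fun g hg k hk => h g (hD hg) k (hD hk)⟩

lemma splSub_mono {D D' : Subgroup GQ} (hD : D ≤ D') : splSub D' ≤ splSub D :=
  fun _ h => Spl.mono hD h

/-- The group generated by the split cochains and the rational symbols. -/
noncomputable def ratSub : AddSubgroup (GQ → GQ → ZMod 2) :=
  splSub ⊤ ⊔ AddSubgroup.closure
    {c | ∃ x y : AlgebraicClosure ℚ, RatSq x ∧ RatSq y ∧ c = fun g h => kum x g * kum y h}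

lemma splSub_le_ratSub : splSub ⊤ ≤ ratSub := le_sup_left

lemma symb_mem_ratSub {x y : AlgebraicClosure ℚ} (hx : RatSq x) (hy : RatSq y) :
    (fun g h => kum x g * kum y h) ∈ ratSub :=
  (le_sup_right : _ ≤ ratSub) (AddSubgroup.subset_closure ⟨x, y, hx, hy, rfl⟩)

lemma exists_of_mem_ratSub {c : GQ → GQ → ZMod 2} (hc : c ∈ ratSub) :
    ∃ (n : ℕ) (α β : Fin n → AlgebraicClosure ℚ), (∀ i, RatSq (α i)) ∧ (∀ i, RatSq (β i)) ∧
      Spl ⊤ (fun g h => c g h + ∑ i, kum (α i) g * kum (β i) h) := by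
  obtain ⟨a, ha, b, hb, rfl⟩ := AddSubgroup.mem_sup.1 hc
  obtain ⟨n, α, β, h1, h2, h3⟩ : ∃ (n : ℕ) (α β : Fin n → AlgebraicClosure ℚ),
      (∀ i, RatSq (α i)) ∧ (∀ i, RatSq (β i)) ∧
        b = fun g h => ∑ i, kum (α i) g * kum (β i) h := by
    refine AddSubgroup.closure_induction ?_ ?_ ?_ ?_ hb
    · rintro _ ⟨x, y, hx, hy, rfl⟩
      exact ⟨1, fun _ => x, fun _ => y, fun _ => hx, fun _ => hy, by simp⟩
    · exact ⟨0, Fin.elim0, Fin.elim0, fun i => i.elim0, fun i => i.elim0, by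
        funext g h
        simp⟩
    · rintro _ _ _ _ ⟨n, α, β, h1, h2, rfl⟩ ⟨n', α', β', h1', h2', rfl⟩
      refine ⟨n + n', Fin.append α α', Fin.append β β', fun i => ?_, fun i => ?_, ?_⟩
      · refine Fin.addCases (fun i => ?_) (fun i => ?_) i
        · rw [Fin.append_left]; exact h1 i
        · rw [Fin.append_right]; exact h1' i
      · refine Fin.addCases (fun i => ?_) (fun i => ?_) i
        · rw [Fin.append_left]; exact h2 i
        · rw [Fin.append_right]; exact h2' i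
      · funext g h
        rw [Fin.sum_univ_add]
        simp
    · rintro _ _ ⟨n, α, β, h1, h2, rfl⟩
      refine ⟨n, α, β, h1, h2, ?_⟩
      funext g h
      rw [Pi.neg_apply, Pi.neg_apply, CharTwo.neg_eq]
  refine ⟨n, α, β, h1, h2, ?_⟩
  obtain ⟨s, hs, h4⟩ := ha
  refine ⟨s, hs, fun g hg k hk => ?_⟩
  rw [← h4 g hg k hk, h3]
  show a g k + (∑ i, kum (α i) g * kum (β i) k) + ∑ i, kum (α i) g * kum (β i) k = a g k
  rw [add_assoc, CharTwo.add_self_eq_zero, add_zero]

/-- The sign attached to an element of `ZMod 2`. -/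
noncomputable def sg (a : ZMod 2) : AlgebraicClosure ℚ := if a = 0 then 1 else -1

@[simp] lemma sg_zero : sg 0 = 1 := if_pos rfl

@[simp] lemma sg_one : sg 1 = -1 := if_neg (by decide)

lemma zmod2_cases (a : ZMod 2) : a = 0 ∨ a = 1 := by
  revert a
  decide

lemma sg_add (a b : ZMod 2) : sg (a + b) = sg a * sg b := by
  rcases zmod2_cases a with rfl | rfl <;> rcases zmod2_cases b with rfl | rfl
  · simp
  · simp
  · simp
  · rw [show (1 : ZMod 2) + 1 = 0 from rfl]
    simp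

lemma sg_mul_self (a : ZMod 2) : sg a * sg a = 1 := by
  rw [← sg_add, CharTwo.add_self_eq_zero, sg_zero]

lemma sg_ne_zero (a : ZMod 2) : sg a ≠ 0 := left_ne_zero_of_mul_eq_one (sg_mul_self a)

lemma sg_sq (a : ZMod 2) : sg a ^ 2 = 1 := by rw [sq, sg_mul_self]

lemma sg_inv (a : ZMod 2) : (sg a)⁻¹ = sg a := inv_eq_of_mul_eq_one_left (sg_mul_self a)

lemma sg_injective : Function.Injective sg := by
  intro a b h
  rcases zmod2_cases a with rfl | rfl <;> rcases zmod2_cases b with rfl | rfl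
  · rfl
  · rw [sg_zero, sg_one] at h
    norm_num at h
  · rw [sg_zero, sg_one] at h
    norm_num at h
  · rfl

@[simp] lemma map_sg (g : GQ) (a : ZMod 2) : g (sg a) = sg a := by
  rcases zmod2_cases a with rfl | rfl <;> simp

lemma sg_sum {ι : Type} (s : Finset ι) (a : ι → ZMod 2) : sg (∑ i ∈ s, a i) = ∏ i ∈ s, sg (a i) := by
  classical
  induction s using Finset.induction_on with
  | empty => simp
  | insert i s hi ih => rw [Finset.sum_insert hi, Finset.prod_insert hi, sg_add, ih]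

lemma eq_of_sg_mul_eq {a b : ZMod 2} {x : AlgebraicClosure ℚ} (hx : x ≠ 0)
    (h : sg a * x = sg b * x) : a = b := sg_injective (mul_right_cancel₀ hx h)

lemma exists_sg_of_sq_eq {x y : AlgebraicClosure ℚ} (h : x ^ 2 = y ^ 2) :
    ∃ a : ZMod 2, x = sg a * y := by
  rcases sq_eq_sq_iff_eq_or_eq_neg.1 h with h | h
  · exact ⟨0, by simp [h]⟩
  · exact ⟨1, by simp [h]⟩

lemma kum_spec {x : AlgebraicClosure ℚ} {g : GQ} (h : (g x) ^ 2 = x ^ 2) :
    g x = sg (kum x g) * x := by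
  classical
  unfold kum
  split_ifs with h1
  · rw [h1, sg_zero, one_mul]
  · rw [sg_one]
    rcases sq_eq_sq_iff_eq_or_eq_neg.1 h with h | h
    · exact absurd h h1
    · rw [h]; ring

lemma RatSq.map_sq {x : AlgebraicClosure ℚ} (hx : RatSq x) (g : GQ) : (g x) ^ 2 = x ^ 2 := by
  obtain ⟨-, a, ha⟩ := hx
  rw [← map_pow, ha, AlgEquiv.commutes]

lemma kum_unique {x : AlgebraicClosure ℚ} (hx : x ≠ 0) {g : GQ} {a : ZMod 2}
    (h : g x = sg a * x) : kum x g = a := by
  have h1 : (g x) ^ 2 = x ^ 2 := by rw [h, mul_pow, sg_sq, one_mul]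
  exact eq_of_sg_mul_eq hx ((kum_spec h1).symm.trans h)

end Fermat.Agent.LTF.Sel
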