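import Mathlib.NumberTheory.Padics.Hensel
import Mathlib.NumberTheory.LegendreSymbol.QuadraticReciprocity
import Mathlib.NumberTheory.Padics.RingHoms

/-!
# Quadratic Hilbert symbols on `ℚ_[v]`, axiomatically, and their values

`HSym v` : a nondegenerate symmetric bimultiplicative pairing on `ℚ_[v]ˣ` with values in `ℤ/2`, for
which norms from `ℚ_v(√a)` pair trivially with `a`.
-/

set_option autoImplicit false

namespace Fermat.Agent.LTF.Sel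

open Polynomial

/-- A quadratic Hilbert symbol on `ℚ_[v]`. -/
structure HSym (v : ℕ) [Fact v.Prime] where
  /-- the symbol -/
  sym : ℚ_[v]ˣ →* ℚ_[v]ˣ →* Multiplicative (ZMod 2)
  /-- nondegeneracy -/
  nondeg : ∀ a, (∀ x, sym a x = 1) → ∃ b, b ^ 2 = a
  /-- symmetry -/
  comm : ∀ a b, sym a b = sym b a
  /-- norms pair trivially -/
  norm : ∀ (a x : ℚ_[v]ˣ) (s t : ℚ_[v]), (x : ℚ_[v]) = s ^ 2 - a * t ^ 2 → sym a x = 1
  /-- units pair trivially at odd places -/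
  unit : v ≠ 2 → ∀ a x : ℚ_[v]ˣ, ‖(a : ℚ_[v])‖ = 1 → ‖(x : ℚ_[v])‖ = 1 → sym a x = 1

lemma sq_eq_one (x : Multiplicative (ZMod 2)) : x ^ 2 = 1 := by
  revert x
  decide

lemma eq_of_ne_one {x y : Multiplicative (ZMod 2)} (hx : x ≠ 1) (hy : y ≠ 1) : x = y := by
  revert x y
  decide

lemma mul_eq_one_iff_iff {x y : Multiplicative (ZMod 2)} : x * y = 1 ↔ (x = 1 ↔ y = 1) := by
  revert x y
  decide

lemma mul_ne_one_iff {x y : Multiplicative (ZMod 2)} (hx : x ≠ 1) : x * y = 1 ↔ y ≠ 1 := by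
  revert x y
  decide

section hensel

variable {v : ℕ} [hv : Fact v.Prime]

/-- Squares by Hensel's lemma. -/
lemma exists_sq_of_norm_lt (z a : ℤ_[v]) (h : ‖a ^ 2 - z‖ < ‖2 * a‖ ^ 2) :
    ∃ b : ℤ_[v], b ^ 2 = z := by
  have h1 : (X ^ 2 - C z : ℤ_[v][X]).aeval a = a ^ 2 - z := by simp
  have h2 : (X ^ 2 - C z : ℤ_[v][X]).derivative.aeval a = 2 * a := by
    rw [derivative_sub, derivative_C, sub_zero, derivative_X_pow]
    simp
  obtain ⟨b, hb, -⟩ := hensels_lemma (F := (X ^ 2 - C z : ℤ_[v][X])) (a := a)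
    (by rw [h1, h2]; exact h)
  refine ⟨b, ?_⟩
  have h3 : (X ^ 2 - C z : ℤ_[v][X]).aeval b = b ^ 2 - z := by simp
  rw [h3, sub_eq_zero] at hb
  exact hb

lemma norm_two_eq_one (hv2 : v ≠ 2) : ‖(2 : ℤ_[v])‖ = 1 := by
  have h := PadicInt.norm_natCast_eq_one_iff (p := v) (n := 2)
  rw [Nat.cast_ofNat] at h
  rw [h]
  exact (Nat.coprime_primes hv.out Nat.prime_two).mpr hv2

lemma toZMod_eq_intCast (n : ℤ) : PadicInt.toZMod (n : ℤ_[v]) = (n : ZMod v) := map_intCast _ n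

lemma norm_intCast_eq_one {n : ℤ} (hn : ¬ (v : ℤ) ∣ n) : ‖(n : ℤ_[v])‖ = 1 := by
  refine le_antisymm (PadicInt.norm_le_one _) (not_lt.mp ?_)
  rwa [PadicInt.norm_int_lt_one_iff_dvd]

/-- Integers which are squares modulo an odd prime `v` are squares in `ℤ_[v]`. -/
lemma exists_sq_of_isSquare (hv2 : v ≠ 2) {n : ℤ} (hn : ¬ (v : ℤ) ∣ n)
    (h : IsSquare (n : ZMod v)) : ∃ b : ℤ_[v], b ^ 2 = (n : ℤ_[v]) := by
  obtain ⟨m, hm⟩ := h
  obtain ⟨k, rfl⟩ := ZMod.intCast_surjective m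
  have hk : ¬ (v : ℤ) ∣ k := by
    intro hk
    apply hn
    rw [← ZMod.intCast_zmod_eq_zero_iff_dvd] at hk ⊢
    rw [hm, hk, mul_zero]
  refine exists_sq_of_norm_lt _ (k : ℤ_[v]) ?_
  rw [norm_mul, norm_two_eq_one hv2, one_mul, norm_intCast_eq_one hk, one_pow]
  have h1 : (k : ℤ_[v]) ^ 2 - (n : ℤ_[v]) = ((k ^ 2 - n : ℤ) : ℤ_[v]) := by push_cast; rfl
  rw [h1, PadicInt.norm_int_lt_one_iff_dvd, ← ZMod.intCast_zmod_eq_zero_iff_dvd]
  push_cast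
  rw [hm]
  ring

/-- Square roots of units of `ℚ_[v]` are integral. -/
lemma exists_padicInt_of_sq {b : ℚ_[v]} {n : ℤ_[v]} (h : b ^ 2 = (n : ℚ_[v])) :
    ∃ c : ℤ_[v], (c : ℚ_[v]) = b ∧ c ^ 2 = n := by
  have h1 : ‖b‖ ≤ 1 := by
    have h2 : ‖b‖ ^ 2 ≤ 1 := by
      rw [← norm_pow, h]
      exact n.2
    by_contra hcon
    push Not at hcon
    have := one_lt_pow₀ hcon two_ne_zero
    linarith
  refine ⟨⟨b, h1⟩, rfl, ?_⟩
  apply PadicInt.ext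
  exact h

/-- Every element of `ℚ_[v]ˣ` is a power of `v` times a unit. -/
lemma exists_eq_zpow_mul (x : ℚ_[v]ˣ) (π : ℚ_[v]ˣ) (hπ : (π : ℚ_[v]) = v) :
    ∃ (k : ℤ) (u : ℚ_[v]ˣ), ‖(u : ℚ_[v])‖ = 1 ∧ x = π ^ k * u := by
  refine ⟨(x : ℚ_[v]).valuation, (π ^ (x : ℚ_[v]).valuation)⁻¹ * x, ?_, by group⟩
  have h1 := Padic.norm_eq_zpow_neg_valuation (Units.ne_zero x)
  have hv0 : (v : ℝ) ≠ 0 := Nat.cast_ne_zero.mpr hv.out.ne_zero
  rw [Units.val_mul, norm_mul, h1, Units.val_inv_eq_inv_val, norm_inv, Units.val_zpow_eq_zpow_val,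
    norm_zpow, hπ, Padic.norm_p, inv_zpow, inv_inv, ← zpow_add₀ hv0, add_neg_cancel, zpow_zero]

end hensel

section odd

variable {v : ℕ} [hv : Fact v.Prime] (S : HSym v)

namespace HSym

/-- `(b², x) = 1`. -/
lemma sym_sq_left (b x : ℚ_[v]ˣ) : S.sym (b ^ 2) x = 1 := by
  rw [map_pow, MonoidHom.pow_apply, sq_eq_one]

lemma sym_sq_right (b x : ℚ_[v]ˣ) : S.sym x (b ^ 2) = 1 := by
  rw [map_pow, sq_eq_one]

lemma sym_neg_self (a : ℚ_[v]ˣ) : S.sym a (-a) = 1 :=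
  S.norm a (-a) 0 1 (by push_cast; ring)

/-- `(a, a) = (a, -1)`. -/
lemma sym_self (a : ℚ_[v]ˣ) : S.sym a a = S.sym a (-1) := by
  have h1 := S.sym_neg_self a
  rw [← neg_one_mul, map_mul, mul_eq_one_iff_iff] at h1
  by_cases h : S.sym a a = 1
  · rw [h, h1.mpr h]
  · exact eq_of_ne_one h (fun h' => h (h1.mp h'))

/-- At an odd prime: `(v, n)` is the Legendre symbol. -/
lemma sym_prime_int (hv2 : v ≠ 2) {n : ℤ} (hn : ¬ (v : ℤ) ∣ n) (π u : ℚ_[v]ˣ)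
    (hπ : (π : ℚ_[v]) = v) (hu : (u : ℚ_[v]) = n) : S.sym π u = 1 ↔ IsSquare (n : ZMod v) := by
  have hun : ‖(u : ℚ_[v])‖ = 1 := by
    rw [hu]
    have := norm_intCast_eq_one (v := v) hn
    rwa [PadicInt.norm_def, PadicInt.coe_intCast] at this
  constructor
  · intro h
    have h1 : ∀ x, S.sym u x = 1 := by
      intro x
      obtain ⟨k, w, hw, rfl⟩ := exists_eq_zpow_mul x π hπ
      rw [map_mul, map_zpow, S.comm u π, h, one_zpow, one_mul, S.unit hv2 u w hun hw]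
    obtain ⟨b, hb⟩ := S.nondeg u h1
    have hb' : (b : ℚ_[v]) ^ 2 = ((n : ℤ_[v]) : ℚ_[v]) := by
      rw [← Units.val_pow_eq_pow_val, hb, hu, PadicInt.coe_intCast]
    obtain ⟨c, -, hc⟩ := exists_padicInt_of_sq hb'
    refine ⟨PadicInt.toZMod c, ?_⟩
    rw [← sq, ← map_pow, hc, map_intCast]
  · intro h
    obtain ⟨b, hb⟩ := exists_sq_of_isSquare hv2 hn h
    have hb0 : (b : ℚ_[v]) ≠ 0 := by
      intro h0
      have : (u : ℚ_[v]) = 0 := by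
        rw [hu, ← PadicInt.coe_intCast, ← hb]
        push_cast
        rw [h0]
        ring
      exact u.ne_zero this
    have h1 : u = (Units.mk0 (b : ℚ_[v]) hb0) ^ 2 := by
      apply Units.ext
      rw [hu, Units.val_pow_eq_pow_val, Units.val_mk0, ← PadicInt.coe_intCast, ← hb]
      push_cast
      rfl
    rw [h1, S.sym_sq_right]

end HSym

end odd

section two

/-- `2`-adic integers which are `1` modulo `8` are squares. -/
lemma exists_sq_of_toZModPow {z : ℤ_[2]} (h : PadicInt.toZModPow 3 z = 1) :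
    ∃ b : ℤ_[2], b ^ 2 = z := by
  refine exists_sq_of_norm_lt z 1 ?_
  have h1 : PadicInt.toZModPow 3 (1 - z) = 0 := by rw [map_sub, h, map_one, sub_self]
  have h2 : (1 - z) ∈ RingHom.ker (PadicInt.toZModPow (p := 2) 3) := h1
  rw [PadicInt.ker_toZModPow, ← PadicInt.norm_le_pow_iff_mem_span_pow] at h2
  have h3 : ‖(2 : ℤ_[2])‖ = 2⁻¹ := by
    have h := PadicInt.norm_p (p := 2)
    exact_mod_cast h
  rw [one_pow, mul_one, h3]
  refine h2.trans_lt ?_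
  norm_num

/-- `(-1)^i 5^j` as an element of `ℚ_[2]ˣ`. -/
noncomputable def five : ℚ_[2]ˣ := Units.mk0 5 (by norm_num)

/-- `2` as an element of `ℚ_[2]ˣ`. -/
noncomputable def two₂ : ℚ_[2]ˣ := Units.mk0 2 (by norm_num)

@[simp] lemma coe_five : (five : ℚ_[2]) = 5 := rfl
@[simp] lemma coe_two₂ : (two₂ : ℚ_[2]) = 2 := rfl

lemma zmod8_cases (x : ZMod (2 ^ 3)) (hx : IsUnit x) :
    ∃ i j : Fin 2, x * ((-1) ^ (i : ℕ) * 5 ^ (j : ℕ)) = 1 := by
  revert x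
  decide

/-- An element of norm `≤ 1` as a `2`-adic integer. -/
def mkZ (x : ℚ_[2]) (h : ‖x‖ ≤ 1) : ℤ_[2] := ⟨x, h⟩

@[simp] lemma coe_mkZ (x : ℚ_[2]) (h : ‖x‖ ≤ 1) : (mkZ x h : ℚ_[2]) = x := rfl

/-- Units with prescribed residue modulo `8`. -/
lemma eq_of_unit (u : ℚ_[2]ˣ) (hu : ‖(u : ℚ_[2])‖ ≤ 1) (i j : ℕ)
    (h : PadicInt.toZModPow 3 (mkZ (u : ℚ_[2]) hu) * ((-1) ^ i * 5 ^ j) = 1) :
    ∃ y : ℚ_[2]ˣ, u = (-1) ^ i * five ^ j * y ^ 2 := by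
  obtain ⟨b, hb⟩ := exists_sq_of_toZModPow (z := (mkZ (u : ℚ_[2]) hu) * ((-1) ^ i * 5 ^ j)) (by
    rw [map_mul, map_mul, map_pow, map_pow, map_neg, map_one, map_ofNat]
    exact h)
  have hb' : (b : ℚ_[2]) ^ 2 = (u : ℚ_[2]) * ((-1) ^ i * 5 ^ j) := by
    have h := congrArg (fun t : ℤ_[2] => (t : ℚ_[2])) hb
    push_cast at h
    rw [h]
    rfl
  have h5 : ((-1 : ℚ_[2]) ^ i * 5 ^ j) ≠ 0 := by simp
  have hb0 : (b : ℚ_[2]) ≠ 0 := by
    intro h0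
    rw [h0, zero_pow two_ne_zero] at hb'
    exact mul_ne_zero u.ne_zero h5 hb'.symm
  refine ⟨Units.mk0 (b : ℚ_[2]) hb0 * ((-1) ^ i * five ^ j)⁻¹, ?_⟩
  have h6 : Units.mk0 (b : ℚ_[2]) hb0 ^ 2 = u * ((-1) ^ i * five ^ j) := by
    apply Units.ext
    push_cast
    rw [Units.val_mk0, coe_five]
    exact hb'
  rw [mul_pow, h6, inv_pow, sq ((-1 : ℚ_[2]ˣ) ^ i * five ^ j), mul_inv]
  set w : ℚ_[2]ˣ := (-1) ^ i * five ^ j
  calc u = u * (w * w⁻¹) * (w * w⁻¹) := by rw [mul_inv_cancel, mul_one, mul_one]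
    _ = w * (u * w * (w⁻¹ * w⁻¹)) := by
      simp only [mul_assoc, mul_left_comm, mul_comm]

/-- Every unit is `(-1)^i 5^j` up to squares. -/
lemma exists_eq_of_unit (u : ℚ_[2]ˣ) (hu : ‖(u : ℚ_[2])‖ = 1) :
    ∃ (i j : ℕ) (y : ℚ_[2]ˣ), u = (-1) ^ i * five ^ j * y ^ 2 := by
  have hzu : IsUnit (mkZ (u : ℚ_[2]) hu.le) := by rw [PadicInt.isUnit_iff]; exact hu
  obtain ⟨i, j, hij⟩ := zmod8_cases (PadicInt.toZModPow 3 (mkZ (u : ℚ_[2]) hu.le)) (hzu.map _)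
  exact ⟨i, j, eq_of_unit u hu.le i j hij⟩

lemma norm_int_le_one (n : ℤ) (u : ℚ_[2]ˣ) (hu : (u : ℚ_[2]) = n) : ‖(u : ℚ_[2])‖ ≤ 1 := by
  rw [hu]
  exact Padic.norm_int_le_one n

lemma eq_of_int (n : ℤ) (u : ℚ_[2]ˣ) (hu : (u : ℚ_[2]) = n) (i j : ℕ)
    (h : (n : ZMod (2 ^ 3)) * ((-1) ^ i * 5 ^ j) = 1) :
    ∃ y : ℚ_[2]ˣ, u = (-1) ^ i * five ^ j * y ^ 2 := by
  refine eq_of_unit u (norm_int_le_one n u hu) i j ?_
  have h1 : mkZ (u : ℚ_[2]) (norm_int_le_one n u hu) = (n : ℤ_[2]) := by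
    apply PadicInt.ext
    rw [PadicInt.coe_intCast]
    exact hu
  rw [h1, map_intCast]
  exact h

lemma not_sq_neg_one (b : ℚ_[2]ˣ) : b ^ 2 ≠ -1 := by
  intro h
  have h1 : (b : ℚ_[2]) ^ 2 = ((-1 : ℤ_[2]) : ℚ_[2]) := by
    rw [← Units.val_pow_eq_pow_val, h]
    push_cast
    rfl
  obtain ⟨c, -, hc⟩ := exists_padicInt_of_sq h1
  have h2 := congrArg (PadicInt.toZModPow (p := 2) 3) hc
  rw [map_pow, map_neg, map_one] at h2
  revert h2
  generalize PadicInt.toZModPow (p := 2) 3 c = x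
  revert x
  decide

lemma not_sq_five (b : ℚ_[2]ˣ) : b ^ 2 ≠ five := by
  intro h
  have h1 : (b : ℚ_[2]) ^ 2 = ((5 : ℤ_[2]) : ℚ_[2]) := by
    rw [← Units.val_pow_eq_pow_val, h]
    rfl
  obtain ⟨c, -, hc⟩ := exists_padicInt_of_sq h1
  have h2 := congrArg (PadicInt.toZModPow (p := 2) 3) hc
  rw [map_pow, map_ofNat] at h2
  revert h2
  generalize PadicInt.toZModPow (p := 2) 3 c = x
  revert x
  decide

namespace HSym

variable (S : HSym 2)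

lemma neg_one_two : S.sym (-1) two₂ = 1 := S.norm _ _ 1 1 (by push_cast; norm_num)
lemma neg_one_five : S.sym (-1) five = 1 := S.norm _ _ 1 2 (by push_cast; norm_num)

lemma two_two : S.sym two₂ two₂ = 1 := by
  rw [S.sym_self, S.comm]
  exact S.neg_one_two

lemma five_five : S.sym five five = 1 := by
  rw [S.sym_self, S.comm]
  exact S.neg_one_five

lemma exists_eq (x : ℚ_[2]ˣ) :
    ∃ (k : ℤ) (i j : ℕ) (y : ℚ_[2]ˣ), x = two₂ ^ k * ((-1) ^ i * five ^ j * y ^ 2) := by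
  obtain ⟨k, u, hu, rfl⟩ := exists_eq_zpow_mul x two₂ (by rw [coe_two₂]; norm_num)
  obtain ⟨i, j, y, rfl⟩ := exists_eq_of_unit u hu
  exact ⟨k, i, j, y, rfl⟩

lemma neg_one_neg_one : S.sym (-1) (-1) ≠ 1 := by
  intro h
  obtain ⟨b, hb⟩ := S.nondeg (-1) (fun x => by
    obtain ⟨k, i, j, y, rfl⟩ := exists_eq x
    rw [map_mul, map_mul, map_mul, map_zpow, map_pow, map_pow, S.sym_sq_right, S.neg_one_two, h,
      S.neg_one_five, one_zpow, one_pow, one_pow, mul_one, mul_one, mul_one])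
  exact not_sq_neg_one b hb

lemma five_two : S.sym five two₂ ≠ 1 := by
  intro h
  obtain ⟨b, hb⟩ := S.nondeg five (fun x => by
    obtain ⟨k, i, j, y, rfl⟩ := exists_eq x
    rw [map_mul, map_mul, map_mul, map_zpow, map_pow, map_pow, S.sym_sq_right, h, S.five_five,
      S.comm five (-1), S.neg_one_five, one_zpow, one_pow, one_pow, mul_one, mul_one, mul_one])
  exact not_sq_five b hb

lemma neg_one_apply (i j : ℕ) (y : ℚ_[2]ˣ) :
    S.sym (-1) ((-1) ^ i * five ^ j * y ^ 2) = S.sym (-1) (-1) ^ i := by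
  rw [map_mul, map_mul, map_pow, map_pow, S.sym_sq_right, S.neg_one_five, one_pow, mul_one,
    mul_one]

lemma two_apply (i j : ℕ) (y : ℚ_[2]ˣ) :
    S.sym two₂ ((-1) ^ i * five ^ j * y ^ 2) = S.sym five two₂ ^ j := by
  rw [map_mul, map_mul, map_pow, map_pow, S.sym_sq_right, S.comm two₂ (-1), S.neg_one_two,
    one_pow, one_mul, mul_one, S.comm]

lemma five_apply (i j : ℕ) (y : ℚ_[2]ˣ) :
    S.sym five ((-1) ^ i * five ^ j * y ^ 2) = 1 := by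
  rw [map_mul, map_mul, map_pow, map_pow, S.sym_sq_right, S.comm five (-1), S.neg_one_five,
    S.five_five, one_pow, one_pow, mul_one, mul_one]

lemma unit_unit (i j i' j' : ℕ) (y y' : ℚ_[2]ˣ) :
    S.sym ((-1) ^ i * five ^ j * y ^ 2) ((-1) ^ i' * five ^ j' * y' ^ 2) =
      S.sym (-1) (-1) ^ (i * i') := by
  set U : ℚ_[2]ˣ := (-1) ^ i * five ^ j * y ^ 2 with hU
  have h1 : S.sym U (-1) = S.sym (-1) (-1) ^ i := (S.comm U (-1)).trans (S.neg_one_apply i j y)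
  have h2 : S.sym U five = 1 := (S.comm U five).trans (S.five_apply i j y)
  rw [map_mul, map_mul, S.sym_sq_right, mul_one, map_pow, map_pow, h1, h2, one_pow, mul_one,
    ← pow_mul]

end HSym

end two

end Fermat.Agent.LTF.Sel
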