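import Fermat.Agent.LTF.Sel.WRSpl
import Fermat.Prelude.Def_GaloisRep_ComplexConjugation

/-!
# Weak reciprocity over `ℚ`

`weak_reciprocity` : a sum of symbols of rational square roots which is split at all places except
perhaps `q` is split at `q`.
`weak_reciprocity_ratSub` : the same for elements of `ratSub`.
-/

set_option autoImplicit false

open Fermat.Agent.PT Fermat.Agent.CFT Fermat.Agent.CFT.Kum Fermat.Agent.CFT.Kum.KumSet
open Fermat.Agent.CFT.Bridge Fermat.Agent.CFT.Global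
open scoped Pointwise

namespace Fermat.Agent.LTF.Sel

open Fermat.Agent.S53norm (GQ M2)

attribute [local instance] factP

/-- The cochain of a family of symbols. -/
noncomputable def symCo {ι : Type*} [Fintype ι] (α β : ι → AlgebraicClosure ℚ) :
    GQ → GQ → ZMod 2 := fun g h => ∑ i, kum (α i) g * kum (β i) h

/-- The symbols of `ℚ`. -/
noncomputable def hsymP (v : Nat.Primes) : HSym (v : ℕ) := hsym (v : ℕ)

section local'

variable {ι : Type*} [Fintype ι] {α β : ι → AlgebraicClosure ℚ} {a b : ι → ℚˣ}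

lemma padicEmbedding_sq (v : Nat.Primes) {x : AlgebraicClosure ℚ} {r : ℚˣ}
    (hx : x ^ 2 = algebraMap ℚ (AlgebraicClosure ℚ) r) :
    (padicEmbedding (v : ℕ) x) ^ 2 = algebraMap ℚ_[(v : ℕ)] (PadicAlgCl v) (iv v r : ℚ_[(v : ℕ)]ˣ) := by
  rw [← map_pow, hx, AlgHom.commutes, coe_iv, map_ratCast, eq_ratCast]

lemma ne_zero_of_sq {x : AlgebraicClosure ℚ} {r : ℚˣ}
    (hx : x ^ 2 = algebraMap ℚ (AlgebraicClosure ℚ) r) : x ≠ 0 := by
  rintro rfl
  rw [zero_pow two_ne_zero] at hx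
  exact r.ne_zero ((map_eq_zero _).mp hx.symm)

lemma ratSq_of_sq {x : AlgebraicClosure ℚ} {r : ℚˣ}
    (hx : x ^ 2 = algebraMap ℚ (AlgebraicClosure ℚ) r) : RatSq x := ⟨ne_zero_of_sq hx, _, hx⟩

lemma RatSq.exists_unit {x : AlgebraicClosure ℚ} (hx : RatSq x) :
    ∃ r : ℚˣ, x ^ 2 = algebraMap ℚ (AlgebraicClosure ℚ) r := by
  obtain ⟨h0, r, hr⟩ := hx
  have hr0 : r ≠ 0 := by
    rintro rfl
    rw [map_zero] at hr
    exact h0 (pow_eq_zero_iff two_ne_zero |>.mp hr)
  exact ⟨Units.mk0 r hr0, hr⟩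

lemma spl_padicPlace_symCo_iff (v : Nat.Primes)
    (hα : ∀ i, α i ^ 2 = algebraMap ℚ (AlgebraicClosure ℚ) (a i))
    (hβ : ∀ i, β i ^ 2 = algebraMap ℚ (AlgebraicClosure ℚ) (b i)) :
    Spl ((padicPlace (v : ℕ)).decompositionSubgroup ℚ) (symCo α β) ↔
      ∏ i, symQ hsymP v (a i) (b i) = 1 := by
  have h1 : (fun q : (bl (v : ℕ)).fixingSubgroup × (bl (v : ℕ)).fixingSubgroup =>
      symCo α β (localGaloisToGlobal (v : ℕ) q.1.1) (localGaloisToGlobal (v : ℕ) q.2.1)) =
      (fun q => ∑ i, (bkum (v : ℕ) (iv v (a i))).1 q.1 * (bkum (v : ℕ) (iv v (b i))).1 q.2) := by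
    funext q
    refine Finset.sum_congr rfl fun i _ => ?_
    rw [kum_localGaloisToGlobal (v : ℕ) (ne_zero_of_sq (hα i)) (padicEmbedding_sq v (hα i)) q.1.1,
      kum_localGaloisToGlobal (v : ℕ) (ne_zero_of_sq (hβ i)) (padicEmbedding_sq v (hβ i)) q.2.1]
    rfl
  rw [spl_padicPlace_iff, h1, ← prod_hsym_eq_one_iff]
  rfl

lemma symCo_conj (hα : ∀ i, RatSq (α i)) (hβ : ∀ i, RatSq (β i)) (τ g h : GQ) :
    symCo α β (τ * g * τ⁻¹) (τ * h * τ⁻¹) = symCo α β g h :=
  Finset.sum_congr rfl fun i _ => by rw [kum_conj (hα i), kum_conj (hβ i)]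

lemma conj_mem_decompositionSubgroup {A B : ValuationSubring (AlgebraicClosure ℚ)} {τ : GQ}
    (hτ : τ • A = B) {g : GQ} (hg : g ∈ A.decompositionSubgroup ℚ) :
    τ * g * τ⁻¹ ∈ B.decompositionSubgroup ℚ := by
  rw [MulAction.mem_stabilizer_iff] at hg ⊢
  rw [← hτ, smul_smul, inv_mul_cancel_right, mul_smul, hg]

theorem spl_symCo_iff (v : Nat.Primes) {A : ValuationSubring (AlgebraicClosure ℚ)}
    (hA : A.LiesOverPrime (v : ℕ))
    (hα : ∀ i, α i ^ 2 = algebraMap ℚ (AlgebraicClosure ℚ) (a i))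
    (hβ : ∀ i, β i ^ 2 = algebraMap ℚ (AlgebraicClosure ℚ) (b i)) :
    Spl (A.decompositionSubgroup ℚ) (symCo α β) ↔ ∏ i, symQ hsymP v (a i) (b i) = 1 := by
  obtain ⟨τ, hτ⟩ := exists_smul_padicPlace (v : ℕ) hA
  have hτ' : τ⁻¹ • A = padicPlace (v : ℕ) := by rw [← hτ, inv_smul_smul]
  rw [← spl_padicPlace_symCo_iff v hα hβ]
  have h1 := symCo_conj (fun i => ratSq_of_sq (hα i)) (fun i => ratSq_of_sq (hβ i))
  exact ⟨spl_conj τ (h1 τ) (fun g hg => conj_mem_decompositionSubgroup hτ hg),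
    spl_conj τ⁻¹ (h1 τ⁻¹) (fun g hg => conj_mem_decompositionSubgroup hτ' hg)⟩

lemma kum_complexConjugation {x : AlgebraicClosure ℚ} {r : ℚˣ}
    (hx : x ^ 2 = algebraMap ℚ (AlgebraicClosure ℚ) r) : kum x complexConjugation = ng r := by
  classical
  have h1 : (complexEmbedding x) ^ 2 = (((r : ℚ) : ℝ) : ℂ) := by
    rw [← map_pow, hx, AlgHom.commutes, eq_ratCast]
    norm_cast
  have h2 : complexConjugation x = x ↔ ¬ ((r : ℚ) < 0) := by
    have h3 : complexConjugation x = x ↔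
        (starRingEnd ℂ) (complexEmbedding x) = complexEmbedding x := by
      rw [← complexEmbedding_complexConjugation]
      exact ((complexEmbedding).toRingHom.injective.eq_iff).symm
    rw [h3, not_lt]
    constructor
    · intro h
      obtain ⟨y, hy⟩ := Complex.conj_eq_iff_real.mp h
      rw [hy] at h1
      have h4 : y ^ 2 = ((r : ℚ) : ℝ) := by exact_mod_cast h1
      have h5 : (0 : ℝ) ≤ ((r : ℚ) : ℝ) := by rw [← h4]; positivity
      exact_mod_cast h5
    · intro h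
      have h4 : (0 : ℝ) ≤ ((r : ℚ) : ℝ) := by exact_mod_cast h
      have h5 : (complexEmbedding x) ^ 2 = ((Real.sqrt ((r : ℚ) : ℝ) : ℝ) : ℂ) ^ 2 := by
        rw [h1, ← Complex.ofReal_pow, Real.sq_sqrt h4]
      rcases sq_eq_sq_iff_eq_or_eq_neg.mp h5 with h6 | h6
      · rw [h6, Complex.conj_ofReal]
      · rw [h6, map_neg, Complex.conj_ofReal]
  unfold kum ng
  by_cases hr : (r : ℚ) < 0
  · rw [if_neg (fun h => h2.mp h hr), if_pos hr]
  · rw [if_pos (h2.mpr hr), if_neg hr]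

lemma prod_symInf_eq_one
    (hα : ∀ i, α i ^ 2 = algebraMap ℚ (AlgebraicClosure ℚ) (a i))
    (hβ : ∀ i, β i ^ 2 = algebraMap ℚ (AlgebraicClosure ℚ) (b i))
    (h : Spl (Subgroup.zpowers complexConjugation) (symCo α β)) :
    ∏ i, symInf (a i) (b i) = 1 := by
  obtain ⟨s, -, hs⟩ := h
  have hc := Subgroup.mem_zpowers (complexConjugation)
  have h1 := hs 1 (one_mem _) 1 (one_mem _)
  have h2 := hs _ hc _ hc
  rw [complexConjugation_mul_self, CharTwo.add_self_eq_zero, zero_add] at h2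
  rw [mul_one, CharTwo.add_self_eq_zero, zero_add] at h1
  have h3 : symCo α β 1 1 = 0 := Finset.sum_eq_zero fun i _ => by rw [kum_one, zero_mul]
  rw [← h1, h3] at h2
  have h4 : ∏ i, symInf (a i) (b i) = Multiplicative.ofAdd (symCo α β complexConjugation
      complexConjugation) := by
    unfold symCo
    rw [ofAdd_sum]
    refine Finset.prod_congr rfl fun i _ => ?_
    rw [symInf_apply, kum_complexConjugation (hα i), kum_complexConjugation (hβ i)]
  rw [h4, h2, ofAdd_zero]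

end local'

section main

variable {ι : Type*} [Fintype ι]

/-- The product formula for families. -/
lemma finprod_prod_symQ (a b : ι → ℚˣ) :
    ∏ᶠ v, ∏ i, symQ hsymP v (a i) (b i) = ∏ i, symInf (a i) (b i) := by
  rw [finprod_prod_comm Finset.univ (fun v i => symQ hsymP v (a i) (b i))
    (fun i _ => (product_formula hsymP (a i) (b i)).1)]
  refine Finset.prod_congr rfl fun i _ => ?_
  exact eq_of_mul_eq_one_two (product_formula hsymP (a i) (b i)).2

/-- **Weak reciprocity over `ℚ`.** -/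
theorem weak_reciprocity {α β : ι → AlgebraicClosure ℚ} (hα : ∀ i, RatSq (α i))
    (hβ : ∀ i, RatSq (β i)) {q : ℕ} (hq : q.Prime)
    (hv : ∀ v : ℕ, v.Prime → v ≠ q → ∃ A : ValuationSubring (AlgebraicClosure ℚ),
      A.LiesOverPrime v ∧
        Spl (A.decompositionSubgroup ℚ) (fun g h => ∑ i, kum (α i) g * kum (β i) h))
    (hinf : Spl (Subgroup.zpowers complexConjugation)
      (fun g h => ∑ i, kum (α i) g * kum (β i) h))
    {A : ValuationSubring (AlgebraicClosure ℚ)} (hA : A.LiesOverPrime q) :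
    Spl (A.decompositionSubgroup ℚ) (fun g h => ∑ i, kum (α i) g * kum (β i) h) := by
  choose a ha using fun i => (hα i).exists_unit
  choose b hb using fun i => (hβ i).exists_unit
  change Spl (A.decompositionSubgroup ℚ) (symCo α β)
  rw [spl_symCo_iff ⟨q, hq⟩ hA ha hb]
  have h1 := finprod_prod_symQ a b
  have h2 : ∏ᶠ v, ∏ i, symQ hsymP v (a i) (b i) = ∏ i, symQ hsymP ⟨q, hq⟩ (a i) (b i) := by
    refine finprod_eq_single (fun v => ∏ i, symQ hsymP v (a i) (b i)) ⟨q, hq⟩ fun v hvq => ?_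
    obtain ⟨B, hB, hB'⟩ := hv v v.2 (fun h => hvq (Subtype.ext h))
    exact (spl_symCo_iff v hB ha hb).mp hB'
  rw [← h2, h1, prod_symInf_eq_one ha hb hinf]

/-- **Weak reciprocity over `ℚ`** for the elements of `ratSub`. -/
theorem weak_reciprocity_ratSub {c : GQ → GQ → ZMod 2} (hc : c ∈ ratSub) {q : ℕ} (hq : q.Prime)
    (hv : ∀ v : ℕ, v.Prime → v ≠ q → ∃ A : ValuationSubring (AlgebraicClosure ℚ),
      A.LiesOverPrime v ∧ Spl (A.decompositionSubgroup ℚ) c)
    (hinf : Spl (Subgroup.zpowers complexConjugation) c)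
    {A : ValuationSubring (AlgebraicClosure ℚ)} (hA : A.LiesOverPrime q) :
    Spl (A.decompositionSubgroup ℚ) c := by
  obtain ⟨n, α, β, hα, hβ, h⟩ := exists_of_mem_ratSub hc
  have h1 : ∀ D : Subgroup GQ, Spl D (fun g h => ∑ i, kum (α i) g * kum (β i) h) ↔ Spl D c := by
    intro D
    have h2 : (fun g h => c g h + ∑ i, kum (α i) g * kum (β i) h) ∈ splSub D :=
      Spl.mono le_top h
    rw [← mem_splSub, ← mem_splSub]
    constructor
    · intro h3
      have h4 := sub_mem h2 h3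
      have h5 : (fun g h => c g h + ∑ i, kum (α i) g * kum (β i) h) -
          (fun g h => ∑ i, kum (α i) g * kum (β i) h) = c := by
        funext g h
        exact add_sub_cancel_right _ _
      rwa [h5] at h4
    · intro h3
      have h4 := sub_mem h2 h3
      have h5 : (fun g h => c g h + ∑ i, kum (α i) g * kum (β i) h) - c =
          (fun g h => ∑ i, kum (α i) g * kum (β i) h) := by
        funext g h
        exact add_sub_cancel_left _ _
      rwa [h5] at h4
  rw [← h1]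
  refine weak_reciprocity hα hβ hq (fun v hv1 hv2 => ?_) ((h1 _).mpr hinf) hA
  obtain ⟨B, hB, hB'⟩ := hv v hv1 hv2
  exact ⟨B, hB, (h1 _).mpr hB'⟩

end main

end Fermat.Agent.LTF.Sel
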