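import Fermat.Agent.LTF.Sel.Kill
import Fermat.Agent.LTF.Sel.WR

set_option autoImplicit false

/-!
# Elementary Selmer groups (8): killing the Selmer group, unconditionally
-/

namespace Fermat.Agent.LTF.Sel

open Matrix
open Fermat.Agent.S53norm (GQ M2)

/-- Weak reciprocity holds. -/
theorem wr : WR := fun _ _ _ hα hβ _ hq _ hv hoo _ hA => weak_reciprocity hα hβ hq hv hoo hA

/-- **Killing the Selmer group.** -/
theorem exists_kill_main {rbar : GQ →* M2 (ZMod 2)} {S : Finset ℕ} (h : Gal.ResData S rbar) :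
    ∃ R : ℕ, ∀ P : ℕ → Prop,
      (∀ T : Finset ℕ, S ⊆ T → (∀ q ∈ T, q ∉ S → P q) → ∀ e, SelCoc T rbar e →
        (¬ ∃ x, ∀ g, e g = rbar g *ᵥ x - x) →
        ∃ q : ℕ, q.Prime ∧ q ∉ T ∧ P q ∧ ∃ A : ValuationSubring (AlgebraicClosure ℚ),
          A.LiesOverPrime q ∧ ∃ φ, A.IsFrobeniusAt φ q ∧ rbar φ ≠ 1 ∧ rbar φ * rbar φ = 1 ∧
            rbar φ *ᵥ e φ ≠ e φ) →
      ∃ Q : Finset ℕ, Q.card ≤ R ∧
        (∀ q ∈ Q, q.Prime ∧ q ∉ S ∧ P q ∧ ∀ A : ValuationSubring (AlgebraicClosure ℚ),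
          A.LiesOverPrime q → ∀ φ, A.IsFrobeniusAt φ q → rbar φ ≠ 1 ∧ rbar φ * rbar φ = 1) ∧
        ∀ e, SelCoc (S ∪ Q) rbar e → ∃ x, ∀ g, e g = rbar g *ᵥ x - x :=
  exists_kill wr h

end Fermat.Agent.LTF.Sel
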