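import Fermat.Agent.LTF.Sel.Recip
import Fermat.Agent.TW.Finite
import Fermat.Agent.TW.HomFin
import Fermat.Agent.TW.Select

set_option autoImplicit false

/-!
# Elementary Selmer groups (7): killing the Selmer group
-/

namespace Fermat.Agent.LTF.Sel

open Matrix
open scoped Pointwise
open Fermat.Agent.S53norm (GQ M2)

variable {rbar : GQ →* M2 (ZMod 2)}

/-- `V` as a representation. -/
noncomputable def repV (rbar : GQ →* M2 (ZMod 2)) :
    Representation (ZMod 2) GQ (Fin 2 → ZMod 2) where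
  toFun g := Matrix.mulVecLin (rbar g)
  map_one' := by
    rw [map_one, Matrix.mulVecLin_one]
    rfl
  map_mul' g h := by
    rw [map_mul, Matrix.mulVecLin_mul]
    rfl

open Fermat.Agent.TW in
/-- The set of Selmer cocycles is finite. -/
theorem finite_selCoc {T : Finset ℕ} (h : ResT T rbar) :
    {e : GQ → Fin 2 → ZMod 2 | SelCoc T rbar e}.Finite := by
  have hp2 : Fact (Nat.Prime 2) := ⟨Nat.prime_two⟩
  have h0 : MonoidHom.ker rbar ∈ levelsS (toPrimes T) := by
    obtain ⟨L, hL, h1⟩ := h.lev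
    refine mem_levelsS_of (mem_galLevels_of hL fun σ hσ => h1 σ hσ) ?_
    intro q hq A hA σ hσ
    have hq' : (q : ℕ) ∉ T := fun h => hq (mem_toPrimes.2 h)
    exact MonoidHom.mem_ker.2 (h.unr q q.2 hq' A hA σ hσ)
  obtain ⟨U, hU, hUr, hfin⟩ := homFin 2 (toPrimes T) (mem_toPrimes.2 h.two) _ h0
  have hUf : U.FiniteIndex := Fermat.Agent.PT.LevelSys.finiteIndex hU
  have hfin2 : Finite (PT.Z1 (levelsS (toPrimes T)) (repV rbar)) :=
    finite_Z1_of_restrict (repV rbar) hUf (fun u hu => LinearMap.ext fun x => by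
      show rbar u *ᵥ x = x
      rw [show rbar u = 1 from MonoidHom.mem_ker.1 (hUr hu), Matrix.one_mulVec]) hfin
  have key : ∀ e : GQ → Fin 2 → ZMod 2, SelCoc T rbar e →
      e ∈ PT.Z1 (levelsS (toPrimes T)) (repV rbar) := by
    intro e he
    let W : Subgroup GQ :=
      { carrier := {g | rbar g = 1 ∧ e g = 0}
        mul_mem' := fun {a b} ha hb => ⟨by rw [map_mul, ha.1, hb.1, mul_one], by
          rw [he.coc, ha.2, hb.2, ha.1, Matrix.mulVec_zero, add_zero]⟩
        one_mem' := ⟨map_one _, IsVCoc.one he.coc⟩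
        inv_mem' := fun {a} ha => by
          have h1 : rbar a⁻¹ = 1 := by
            have h2 : rbar a⁻¹ * rbar a = 1 := by rw [← map_mul, inv_mul_cancel, map_one]
            rwa [ha.1, mul_one] at h2
          refine ⟨h1, ?_⟩
          have h2 := he.coc a⁻¹ a
          rw [inv_mul_cancel, IsVCoc.one he.coc, ha.2, Matrix.mulVec_zero, add_zero] at h2
          exact h2.symm }
    have hW : W ∈ levelsS (toPrimes T) := by
      obtain ⟨L, hL, h1⟩ := h.lev
      obtain ⟨L', hL', h2⟩ := he.lev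
      refine mem_levelsS_of (mem_galLevels_of (IntermediateField.finiteDimensional_sup L L')
        fun σ hσ => ⟨h1 σ fun x hx => hσ x ((le_sup_left : L ≤ L ⊔ L') hx),
          h2 σ fun x hx => hσ x ((le_sup_right : L' ≤ L ⊔ L') hx)⟩) ?_
      intro q hq A hA σ hσ
      have hq' : (q : ℕ) ∉ T := fun h => hq (mem_toPrimes.2 h)
      exact ⟨h.unr q q.2 hq' A hA σ hσ, he.unr q q.2 hq' A hA σ hσ⟩
    refine ⟨⟨W, hW, fun g s hs => ?_⟩, fun g k => ?_⟩
    · rw [he.coc, hs.2, Matrix.mulVec_zero, add_zero]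
    · rw [he.coc, add_comm]
      rfl
  rw [← Set.finite_coe_iff]
  refine Finite.of_injective (fun e : {e : GQ → Fin 2 → ZMod 2 | SelCoc T rbar e} =>
    (⟨e.1, key e.1 e.2⟩ : PT.Z1 (levelsS (toPrimes T)) (repV rbar))) fun e e' hee => ?_
  have h1 := congrArg (fun c : PT.Z1 (levelsS (toPrimes T)) (repV rbar) => c.1) hee
  exact Subtype.ext h1

/-- The property of a Frobenius element at `q ∉ T`. -/
lemma frob_conj {T : Finset ℕ} (h : ResT T rbar) {q : ℕ} (hq : q.Prime) (hqT : q ∉ T)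
    {A : ValuationSubring (AlgebraicClosure ℚ)} (hA : A.LiesOverPrime q) {φ : GQ}
    (hφ : A.IsFrobeniusAt φ q) (h1 : rbar φ ≠ 1) (h2 : rbar φ * rbar φ = 1)
    {B : ValuationSubring (AlgebraicClosure ℚ)} (hB : B.LiesOverPrime q) {ψ : GQ}
    (hψ : B.IsFrobeniusAt ψ q) : rbar ψ ≠ 1 ∧ rbar ψ * rbar ψ = 1 := by
  obtain ⟨g, hg⟩ := Fermat.Agent.Frob.exists_smul_eq hq hA hB
  have h3 : (g⁻¹ • B).IsFrobeniusAt (g⁻¹ * ψ * g) q := by
    have := FrobDensity.isFrobeniusAt_conj (g := g⁻¹) hψ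
    rwa [inv_inv] at this
  rw [← hg, inv_smul_smul] at h3
  have h4 := h.unr q hq hqT A hA _ (Fermat.Agent.TW.inv_mul_mem_inertia hφ h3)
  have h5 : rbar (g⁻¹ * ψ * g) = rbar φ := by
    have h6 : rbar (g⁻¹ * ψ * g) = rbar φ * rbar (φ⁻¹ * (g⁻¹ * ψ * g)) := by
      rw [← map_mul, mul_inv_cancel_left]
    rw [h6, h4, mul_one]
  have hgg : rbar g * rbar g⁻¹ = 1 := by rw [← map_mul, mul_inv_cancel, map_one]
  have hgg' : rbar g⁻¹ * rbar g = 1 := by rw [← map_mul, inv_mul_cancel, map_one]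
  rw [map_mul, map_mul] at h5
  constructor
  · intro h6
    apply h1
    rw [← h5, h6, mul_one, hgg']
  · have h6 : rbar ψ = rbar g * rbar φ * rbar g⁻¹ := by
      rw [← h5]
      calc rbar ψ = (rbar g * rbar g⁻¹) * rbar ψ * (rbar g * rbar g⁻¹) := by
            rw [hgg, one_mul, mul_one]
        _ = rbar g * (rbar g⁻¹ * rbar ψ * rbar g) * rbar g⁻¹ := by simp only [mul_assoc]
    rw [h6]
    calc rbar g * rbar φ * rbar g⁻¹ * (rbar g * rbar φ * rbar g⁻¹)
        = rbar g * (rbar φ * (rbar g⁻¹ * rbar g) * rbar φ) * rbar g⁻¹ := by simp only [mul_assoc]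
      _ = 1 := by rw [hgg', mul_one, h2, mul_one, hgg]

lemma ResT.insert {T : Finset ℕ} (h : ResT T rbar) {q : ℕ}
    (hfrob : ∀ A : ValuationSubring (AlgebraicClosure ℚ), A.LiesOverPrime q → ∀ φ,
      A.IsFrobeniusAt φ q → rbar φ ≠ 1) (hq : q.Prime) : ResT (insert q T) rbar where
  two := Finset.mem_insert_of_mem h.two
  lev := h.lev
  surj := h.surj
  unr v hv hvT A hA σ hσ := h.unr v hv (fun h' => hvT (Finset.mem_insert_of_mem h')) A hA σ hσ
  ne v hv A hA := by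
    rcases Finset.mem_insert.1 hv with rfl | hv
    · obtain ⟨φ, hφ⟩ := Fermat.Agent.Frob.exists_isFrobeniusAt hq hA
      exact ⟨φ, hφ.mem_decompositionSubgroup, hfrob A hA φ hφ⟩
    · exact h.ne v hv A hA
  cc := h.cc

/-- Adding the prime `q` makes the Selmer group strictly smaller. -/
theorem selCoc_insert_ssubset (hWR : WR) {T : Finset ℕ} (h : ResT T rbar)
    {e : GQ → Fin 2 → ZMod 2} (he : SelCoc T rbar e) {q : ℕ} (hq : q.Prime) (hqT : q ∉ T)
    {A : ValuationSubring (AlgebraicClosure ℚ)} (hA : A.LiesOverPrime q) {φ : GQ}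
    (hφ : A.IsFrobeniusAt φ q) (hφ1 : rbar φ ≠ 1) (hφe : rbar φ *ᵥ e φ ≠ e φ) :
    {e : GQ → Fin 2 → ZMod 2 | SelCoc (insert q T) rbar e} ⊂
      {e : GQ → Fin 2 → ZMod 2 | SelCoc T rbar e} := by
  rw [Set.ssubset_iff_subset_ne]
  constructor
  · intro e' he'
    refine ⟨he'.coc, he'.smooth, fun v hv hvT B hB σ hσ => ?_, fun v hv =>
      he'.loc v (Finset.mem_insert_of_mem hv)⟩
    by_cases hvq : v = q
    · subst hvq
      obtain ⟨g, hg⟩ := Fermat.Agent.Frob.exists_smul_eq hq hA hB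
      have h1 : g⁻¹ * σ * g ∈ A.inertiaSubgroupIn ℚ := by
        apply Fermat.Agent.CFT.SKummer.conj_mem_inertia
        rwa [hg]
      have h2 := SelCoc.unr_of_insert hWR h he hq hqT he' hA hφ.mem_decompositionSubgroup hφe hφ1
        _ h1
      have h3 : rbar (g⁻¹ * σ * g) = 1 := h.unr v hq hqT A hA _ h1
      have h4 : σ = g * (g⁻¹ * σ * g) * g⁻¹ := by group
      rw [h4, he'.coc, he'.coc g, h2, Matrix.mulVec_zero, add_zero, map_mul, h3, mul_one,
        ← he'.coc, mul_inv_cancel, IsVCoc.one he'.coc]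
    · exact he'.unr v hv (by rw [Finset.mem_insert, not_or]; exact ⟨hvq, hvT⟩) B hB σ hσ
  · intro heq
    have h1 : e ∈ {e : GQ → Fin 2 → ZMod 2 | SelCoc (insert q T) rbar e} := by
      rw [heq]
      exact he
    exact hφe (SelCoc.loc h1 q (Finset.mem_insert_self q T) A hA φ hφ.mem_decompositionSubgroup φ
      hφ.mem_decompositionSubgroup)

lemma resT_of_resData {S : Finset ℕ} (h : Gal.ResData S rbar) : ResT S rbar where
  two := h.two
  lev := h.lev
  surj := h.surj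
  unr := h.unr
  ne v hv A hA := by
    obtain ⟨σ, hσ, h1⟩ := h.ram v hv A hA
    exact ⟨σ, Fermat.Agent.TW.inertia_le_decomp hσ, h1⟩
  cc := h.cc

/-- **Killing the Selmer group.** -/
theorem exists_kill (hWR : WR) {S : Finset ℕ} (h : Gal.ResData S rbar) :
    ∃ R : ℕ, ∀ P : ℕ → Prop,
      (∀ T : Finset ℕ, S ⊆ T → (∀ q ∈ T, q ∉ S → P q) → ∀ e, SelCoc T rbar e →
        (¬ ∃ x, ∀ g, e g = rbar g *ᵥ x - x) →
        ∃ q : ℕ, q.Prime ∧ q ∉ T ∧ P q ∧ ∃ A : ValuationSubring (AlgebraicClosure ℚ),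
          A.LiesOverPrime q ∧ ∃ φ, A.IsFrobeniusAt φ q ∧ rbar φ ≠ 1 ∧ rbar φ * rbar φ = 1 ∧
            rbar φ *ᵥ e φ ≠ e φ) →
      ∃ Q : Finset ℕ, Q.card ≤ R ∧
        (∀ q ∈ Q, q.Prime ∧ q ∉ S ∧ P q ∧ ∀ A : ValuationSubring (AlgebraicClosure ℚ),
          A.LiesOverPrime q → ∀ φ, A.IsFrobeniusAt φ q → rbar φ ≠ 1 ∧ rbar φ * rbar φ = 1) ∧
        ∀ e, SelCoc (S ∪ Q) rbar e → ∃ x, ∀ g, e g = rbar g *ᵥ x - x := by
  refine ⟨{e : GQ → Fin 2 → ZMod 2 | SelCoc S rbar e}.ncard, fun P hP => ?_⟩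
  have claim : ∀ (m : ℕ) (T : Finset ℕ), S ⊆ T → ResT T rbar →
      (∀ q ∈ T, q ∉ S → P q) →
      {e : GQ → Fin 2 → ZMod 2 | SelCoc T rbar e}.ncard ≤ m →
      ∃ Q : Finset ℕ, Q.card ≤ m ∧
        (∀ q ∈ Q, q.Prime ∧ q ∉ T ∧ P q ∧ ∀ A : ValuationSubring (AlgebraicClosure ℚ),
          A.LiesOverPrime q → ∀ φ, A.IsFrobeniusAt φ q → rbar φ ≠ 1 ∧ rbar φ * rbar φ = 1) ∧
        ∀ e, SelCoc (T ∪ Q) rbar e → ∃ x, ∀ g, e g = rbar g *ᵥ x - x := by
    intro m
    induction m with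
    | zero =>
      intro T hST hT hTP hcard
      have hfin := finite_selCoc hT
      have h1 : {e : GQ → Fin 2 → ZMod 2 | SelCoc T rbar e} = ∅ := by
        rw [← Set.ncard_eq_zero hfin]
        omega
      refine ⟨∅, le_rfl, by simp, fun e he => ?_⟩
      rw [Finset.union_empty] at he
      have h2 : e ∈ {e : GQ → Fin 2 → ZMod 2 | SelCoc T rbar e} := he
      rw [h1] at h2
      exact h2.elim
    | succ m ih =>
      intro T hST hT hTP hcard
      have hfin := finite_selCoc hT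
      by_cases hc : ∀ e, SelCoc T rbar e → ∃ x, ∀ g, e g = rbar g *ᵥ x - x
      · refine ⟨∅, Nat.zero_le _, by simp, fun e he => ?_⟩
        rw [Finset.union_empty] at he
        exact hc e he
      push Not at hc
      obtain ⟨e, he, hne⟩ := hc
      obtain ⟨q, hq, hqT, hPq, A, hA, φ, hφ, h1, h2, h3⟩ := hP T hST hTP e he (by
        rintro ⟨x, hx⟩
        obtain ⟨g, hg⟩ := hne x
        exact hg (hx g))
      have hss := selCoc_insert_ssubset hWR hT he hq hqT hA hφ h1 h3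
      have hlt := Set.ncard_lt_ncard hss hfin
      have hfrob : ∀ B : ValuationSubring (AlgebraicClosure ℚ), B.LiesOverPrime q → ∀ ψ,
          B.IsFrobeniusAt ψ q → rbar ψ ≠ 1 ∧ rbar ψ * rbar ψ = 1 := fun B hB ψ hψ =>
        frob_conj hT hq hqT hA hφ h1 h2 hB hψ
      obtain ⟨Q, hQc, hQ, hQS⟩ := ih (insert q T) (hST.trans (Finset.subset_insert _ _))
        (hT.insert (fun B hB ψ hψ => (hfrob B hB ψ hψ).1) hq) (fun v hv hvS => by
          rcases Finset.mem_insert.1 hv with rfl | hv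
          · exact hPq
          · exact hTP v hv hvS) (by omega)
      refine ⟨insert q Q, (Finset.card_insert_le _ _).trans (by omega), fun v hv => ?_,
        fun e he => hQS e ?_⟩
      · rcases Finset.mem_insert.1 hv with rfl | hv
        · exact ⟨hq, hqT, hPq, hfrob⟩
        · obtain ⟨k1, k2, k3, k4⟩ := hQ v hv
          exact ⟨k1, fun h' => k2 (Finset.mem_insert_of_mem h'), k3, k4⟩
      · have h4 : insert q T ∪ Q = T ∪ insert q Q := by
          ext v
          simp only [Finset.mem_union, Finset.mem_insert]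
          tauto
        rwa [h4]
  obtain ⟨Q, h1, h2, h3⟩ := claim _ S le_rfl (resT_of_resData h) (fun q hq hqS => absurd hq hqS)
    le_rfl
  exact ⟨Q, h1, h2, h3⟩

end Fermat.Agent.LTF.Sel
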