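import Fermat.Agent.LTF.Sel.Rosset2

set_option autoImplicit false

/-!
# Elementary Selmer groups (4): Kummer theory

Every smooth cocycle with values in `Maps(X, ℤ/2)`, `X` transitive, comes from a Kummer datum.
-/

namespace Fermat.Agent.LTF.Sel

open Fermat.Agent.S53norm (GQ M2)

/-- A quadratic character of a closed subgroup comes from a square root. -/
lemma exists_sqrt_of_char_closed {H : Subgroup GQ} (χ : GQ → ZMod 2)
    (hχ : ∀ g ∈ H, ∀ h ∈ H, χ (g * h) = χ g + χ h)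
    (hH : IsClosed {g : GQ | g ∈ H ∧ χ g = 0}) :
    ∃ α : AlgebraicClosure ℚ, α ≠ 0 ∧ ∀ h ∈ H, h α = sg (χ h) * α := by
  have h1 : χ 1 = 0 := by
    have := hχ 1 H.one_mem 1 H.one_mem
    rw [mul_one] at this
    exact left_eq_add.1 this
  by_cases htriv : ∀ h ∈ H, χ h = 0
  · exact ⟨1, one_ne_zero, fun h hh => by rw [htriv h hh, sg_zero, one_mul, map_one]⟩
  push Not at htriv
  obtain ⟨h₀, hh₀, hχ₀⟩ := htriv
  have hχ₀' : χ h₀ = 1 := (zmod2_cases _).resolve_left hχ₀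
  have hinv : ∀ g ∈ H, χ g⁻¹ = χ g := by
    intro g hg
    have h2 := hχ g hg g⁻¹ (H.inv_mem hg)
    rw [mul_inv_cancel, h1] at h2
    generalize χ g = a at *
    generalize χ g⁻¹ = b at *
    revert a b
    decide
  let D : Subgroup GQ :=
    { carrier := {g | g ∈ H ∧ χ g = 0}
      mul_mem' := fun {g h} hg hh => ⟨H.mul_mem hg.1 hh.1, by rw [hχ g hg.1 h hh.1, hg.2, hh.2,
        add_zero]⟩
      one_mem' := ⟨H.one_mem, h1⟩
      inv_mem' := fun {g} hg => ⟨H.inv_mem hg.1, by rw [hinv g hg.1, hg.2]⟩ }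
  have hD : (IntermediateField.fixedField D).fixingSubgroup = D :=
    InfiniteGalois.fixingSubgroup_fixedField (⟨D, hH⟩ : ClosedSubgroup GQ)
  have hh₀D : h₀ ∉ D := fun h => hχ₀ h.2
  rw [← hD, IntermediateField.mem_fixingSubgroup_iff] at hh₀D
  push Not at hh₀D
  obtain ⟨b, hb, hb0⟩ := hh₀D
  have hb' : ∀ d ∈ D, d b = b := fun d hd => hb ⟨d, hd⟩
  have hb0' : h₀ b ≠ b := hb0
  refine ⟨b - h₀ b, sub_ne_zero.2 hb0'.symm, fun h hh => ?_⟩
  have hD1 : ∀ d ∈ D, d (h₀ b) = h₀ b := by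
    intro d hd
    have h2 : h₀⁻¹ * d * h₀ ∈ D := by
      refine ⟨H.mul_mem (H.mul_mem (H.inv_mem hh₀) hd.1) hh₀, ?_⟩
      rw [hχ _ (H.mul_mem (H.inv_mem hh₀) hd.1) _ hh₀, hχ _ (H.inv_mem hh₀) _ hd.1, hinv _ hh₀,
        hd.2, add_zero, CharTwo.add_self_eq_zero]
    have h3 := hb' _ h2
    have h4 : d * h₀ = h₀ * (h₀⁻¹ * d * h₀) := by group
    have h5 : (d * h₀) b = (h₀ * (h₀⁻¹ * d * h₀)) b := by rw [← h4]
    rw [AlgEquiv.mul_apply, AlgEquiv.mul_apply, h3] at h5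
    exact h5
  have hh₀2 : h₀ (h₀ b) = b := by
    have h2 : h₀ * h₀ ∈ D := ⟨H.mul_mem hh₀ hh₀, by
      rw [hχ _ hh₀ _ hh₀, CharTwo.add_self_eq_zero]⟩
    exact hb' _ h2
  rcases zmod2_cases (χ h) with h2 | h2
  · rw [h2, sg_zero, one_mul, map_sub, hb' h ⟨hh, h2⟩, hD1 h ⟨hh, h2⟩]
  · have h3 : h₀⁻¹ * h ∈ D := ⟨H.mul_mem (H.inv_mem hh₀) hh, by
      rw [hχ _ (H.inv_mem hh₀) _ hh, hinv _ hh₀, h2, hχ₀', CharTwo.add_self_eq_zero]⟩
    have h4 : h = h₀ * (h₀⁻¹ * h) := by group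
    have h5 : h b = h₀ b := by
      rw [h4, AlgEquiv.mul_apply, hb' _ h3]
    have h6 : h (h₀ b) = b := by
      rw [h4, AlgEquiv.mul_apply, hD1 _ h3, hh₀2]
    rw [h2, sg_one, map_sub, h5, h6]
    ring

/-- A quadratic character of an open subgroup comes from a square root. -/
lemma exists_sqrt_of_char {H : Subgroup GQ} (χ : GQ → ZMod 2)
    (hχ : ∀ g ∈ H, ∀ h ∈ H, χ (g * h) = χ g + χ h)
    (hH : ∃ L : IntermediateField ℚ (AlgebraicClosure ℚ), FiniteDimensional ℚ L ∧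
      ∀ u : GQ, Fixes L u → u ∈ H ∧ χ u = 0) :
    ∃ α : AlgebraicClosure ℚ, α ≠ 0 ∧ ∀ h ∈ H, h α = sg (χ h) * α := by
  refine exists_sqrt_of_char_closed χ hχ ?_
  have h1 : χ 1 = 0 := by
    have := hχ 1 H.one_mem 1 H.one_mem
    rw [mul_one] at this
    exact left_eq_add.1 this
  let D : Subgroup GQ :=
    { carrier := {g | g ∈ H ∧ χ g = 0}
      mul_mem' := fun {g h} hg hh => ⟨H.mul_mem hg.1 hh.1, by rw [hχ g hg.1 h hh.1, hg.2, hh.2,
        add_zero]⟩
      one_mem' := ⟨H.one_mem, h1⟩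
      inv_mem' := fun {g} hg => ⟨H.inv_mem hg.1, by
        have h2 := hχ g hg.1 g⁻¹ (H.inv_mem hg.1)
        rw [mul_inv_cancel, h1, hg.2, zero_add] at h2
        exact h2.symm⟩ }
  exact Subgroup.isClosed_of_isOpen D (isOpen_of_level hH)

variable {X : Type} {π : GQ →* Equiv.Perm X}

/-- Every smooth cocycle comes from a Kummer datum. -/
theorem exists_datum_of_coc (hπ : PermSmooth π) (htr : ∀ x y : X, ∃ g, π g x = y)
    {f : GQ → X → ZMod 2} (hf : IsCoc π f)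
    (hlev : ∃ L : IntermediateField ℚ (AlgebraicClosure ℚ), FiniteDimensional ℚ L ∧
      ∀ u, Fixes L u → ∀ x, f u x = 0) :
    ∃ α : X → AlgebraicClosure ℚ, IsDatum π α ∧ kap π α = f := by
  by_cases hX : Nonempty X
  swap
  · have : IsEmpty X := not_nonempty_iff.1 hX
    exact ⟨fun _ => 1, ⟨fun x => this.elim x, fun g x => this.elim x⟩, by
      funext g x
      exact this.elim x⟩
  obtain ⟨x₀⟩ := hX
  obtain ⟨α₀, hα₀, h1⟩ := exists_sqrt_of_char (H := stab π x₀) (fun g => f g x₀)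
    (fun g hg h hh => by
      have h2 : (π g)⁻¹ x₀ = x₀ := by
        have : π g x₀ = x₀ := hg
        rw [Equiv.Perm.inv_eq_iff_eq, this]
      show f (g * h) x₀ = _
      rw [hf g h, h2]) (by
      obtain ⟨L, hL, h⟩ := hπ
      obtain ⟨L', hL', h'⟩ := hlev
      refine ⟨L ⊔ L', IntermediateField.finiteDimensional_sup L L', fun u hu => ⟨?_, ?_⟩⟩
      · rw [mem_stab, h u (hu.mono le_sup_left)]
        rfl
      · exact h' u (hu.mono le_sup_right) x₀)
  choose t ht using htr x₀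
  set α : X → AlgebraicClosure ℚ := fun x => sg (f (t x) x) * (t x) α₀ with hα
  have hne : ∀ x, α x ≠ 0 := fun x => mul_ne_zero (sg_ne_zero _)
    ((map_ne_zero_iff _ (t x).injective).2 hα₀)
  have key : ∀ g x, g (α ((π g)⁻¹ x)) = sg (f g x) * α x := by
    intro g x
    set y := (π g)⁻¹ x with hy
    have hgy : π g y = x := perm_inv _ _
    have hmem : (t x)⁻¹ * (g * t y) ∈ stab π x₀ := by
      rw [mem_stab, map_mul, map_mul, map_inv, Equiv.Perm.mul_apply, Equiv.Perm.mul_apply, ht y,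
        hgy, Equiv.Perm.inv_eq_iff_eq, ht x]
    set h := (t x)⁻¹ * (g * t y) with hh
    have h2 : g * t y = t x * h := by rw [hh]; group
    have h3 : f (g * t y) x = f g x + f (t y) y := hf g (t y) x
    have h4 : f (t x * h) x = f (t x) x + f h x₀ := by
      rw [hf (t x) h x]
      congr 2
      rw [Equiv.Perm.inv_eq_iff_eq, ht x]
    rw [← h2, h3] at h4
    have h5 : g (t y α₀) = t x (h α₀) := by
      rw [← AlgEquiv.mul_apply, h2, AlgEquiv.mul_apply]
    show g (sg (f (t y) y) * (t y) α₀) = sg (f g x) * (sg (f (t x) x) * (t x) α₀)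
    rw [map_mul, map_sg, h5, h1 h hmem, map_mul, map_sg, ← mul_assoc, ← mul_assoc, ← sg_add,
      ← sg_add]
    congr 2
    have h6 : ∀ a b c d : ZMod 2, b + a = c + d → a + d = b + c := by decide
    exact h6 _ _ _ _ h4
  have hdat : IsDatum π α := ⟨hne, fun g x => by
    have h2 := key g (π g x)
    have h3 : (π g)⁻¹ (π g x) = x := by simp
    rw [h3] at h2
    rw [map_pow, h2, mul_pow, sg_sq, one_mul]⟩
  refine ⟨α, hdat, ?_⟩
  funext g x
  exact kap_unique (hne x) (key g x)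

end Fermat.Agent.LTF.Sel
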