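import Fermat.Agent.LTF.Sel.Kummer
import Fermat.Agent.TW.KummerTame
import Fermat.Agent.LatticeFlat.Compact
import Fermat.Agent.CFT.Kum.Unram

set_option autoImplicit false

/-!
# Elementary Selmer groups (5): local computations
-/

namespace Fermat.Agent.LTF.Sel

open Fermat.Agent.S53norm (GQ M2)
open Fermat.Agent.TW (val_decomp_eq inertia_le_decomp exists_galois_ge
  exists_frob_pow_mul_inertia conj_mem_inertia_of_decomp)

section Topology

lemma isClosed_of_smoothFn {X : Type} {s : GQ → X} (hs : SmoothFn s) (P : X → Prop) :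
    IsClosed {g : GQ | P (s g)} := by
  obtain ⟨L, hL, h⟩ := hs
  have hopen : IsOpen (L.fixingSubgroup : Set GQ) := IntermediateField.fixingSubgroup_isOpen L
  rw [← isOpen_compl_iff, isOpen_iff_mem_nhds]
  intro g hg
  have h1 : (fun x : GQ => g⁻¹ * x) ⁻¹' (L.fixingSubgroup : Set GQ) ⊆ {g : GQ | P (s g)}ᶜ := by
    intro x hx hPx
    have hx' : g⁻¹ * x ∈ L.fixingSubgroup := hx
    apply hg
    have h2 := h g (g⁻¹ * x) (fun y hy => hx' ⟨y, hy⟩)
    rw [mul_inv_cancel_left] at h2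
    show P (s g)
    rw [← h2]
    exact hPx
  refine Filter.mem_of_superset ?_ h1
  apply (hopen.preimage (continuous_const_mul g⁻¹)).mem_nhds
  show g⁻¹ * g ∈ L.fixingSubgroup
  rw [inv_mul_cancel]
  exact one_mem _

/-- A function smooth relatively to a subgroup extends to a smooth function. -/
lemma exists_smoothFn {X : Type} [Inhabited X] {D : Subgroup GQ} {s : GQ → X}
    (hs : ∃ L : IntermediateField ℚ (AlgebraicClosure ℚ), FiniteDimensional ℚ L ∧
      ∀ g ∈ D, ∀ u ∈ D, Fixes L u → s (g * u) = s g) :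
    ∃ t : GQ → X, SmoothFn t ∧ ∀ g ∈ D, t g = s g := by
  classical
  obtain ⟨L, hL, h⟩ := hs
  refine ⟨fun g => if hg : ∃ d ∈ D, Fixes L (d⁻¹ * g) then s hg.choose else default,
    ⟨L, hL, fun g u hu => ?_⟩, fun g hg => ?_⟩
  · have hmul : ∀ d : GQ, Fixes L (d⁻¹ * (g * u)) ↔ Fixes L (d⁻¹ * g) := by
      intro d
      rw [← mul_assoc]
      constructor
      · intro h1 x hx
        have h2 := h1 x hx
        rw [AlgEquiv.mul_apply, hu x hx] at h2
        exact h2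
      · intro h1 x hx
        rw [AlgEquiv.mul_apply, hu x hx]
        exact h1 x hx
    simp only [hmul]
  · have hex : ∃ d ∈ D, Fixes L (d⁻¹ * g) := ⟨g, hg, fun x _ => by rw [inv_mul_cancel]; rfl⟩
    show (if hg : ∃ d ∈ D, Fixes L (d⁻¹ * g) then s hg.choose else default) = s g
    rw [dif_pos hex]
    obtain ⟨h1, h2⟩ := hex.choose_spec
    have h3 := h hex.choose h1 (hex.choose⁻¹ * g) (D.mul_mem (D.inv_mem h1) hg) h2
    rw [mul_inv_cancel_left] at h3
    exact h3.symm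

lemma Spl.of_rel {D : Subgroup GQ} {c : GQ → GQ → ZMod 2} {s : GQ → ZMod 2}
    (hs : ∃ L : IntermediateField ℚ (AlgebraicClosure ℚ), FiniteDimensional ℚ L ∧
      ∀ g ∈ D, ∀ u ∈ D, Fixes L u → s (g * u) = s g)
    (h : ∀ g ∈ D, ∀ k ∈ D, c g k = s g + s k + s (g * k)) : Spl D c := by
  obtain ⟨t, ht, h1⟩ := exists_smoothFn hs
  exact ⟨t, ht, fun g hg k hk => by rw [h g hg k hk, h1 g hg, h1 k hk, h1 _ (D.mul_mem hg hk)]⟩

end Topology

section Norm

variable {A : ValuationSubring (AlgebraicClosure ℚ)} {q : ℕ}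

/-- The kernel of a character of `D`. -/
def kerOn (D : Subgroup GQ) (n : GQ → ZMod 2) (hn : ∀ g ∈ D, ∀ h ∈ D, n (g * h) = n g + n h) :
    Subgroup GQ where
  carrier := {g | g ∈ D ∧ n g = 0}
  mul_mem' := fun {g h} hg hh => ⟨D.mul_mem hg.1 hh.1, by
    rw [hn g hg.1 h hh.1, hg.2, hh.2, add_zero]⟩
  one_mem' := ⟨D.one_mem, by
    have := hn 1 D.one_mem 1 D.one_mem
    rw [mul_one] at this
    exact left_eq_add.1 this⟩
  inv_mem' := fun {g} hg => ⟨D.inv_mem hg.1, by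
    have h1 : n 1 = 0 := by
      have := hn 1 D.one_mem 1 D.one_mem
      rw [mul_one] at this
      exact left_eq_add.1 this
    have h2 := hn g hg.1 g⁻¹ (D.inv_mem hg.1)
    rw [mul_inv_cancel, h1, hg.2, zero_add] at h2
    exact h2.symm⟩

/-- **Local reciprocity at an odd prime, in the form needed**: the cup product of the unramified
quadratic character and a ramified quadratic character is not split. -/
theorem unram_of_spl (hq : q.Prime) (hq2 : q ≠ 2) (hA : A.LiesOverPrime q) {n x' : GQ → ZMod 2}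
    (hn : ∀ g ∈ A.decompositionSubgroup ℚ, ∀ h ∈ A.decompositionSubgroup ℚ,
      n (g * h) = n g + n h) (hns : SmoothFn n) (hnI : ∀ σ ∈ A.inertiaSubgroupIn ℚ, n σ = 0)
    {φ : GQ} (hφ : φ ∈ A.decompositionSubgroup ℚ) (hnφ : n φ = 1)
    (hx : ∀ g ∈ A.decompositionSubgroup ℚ, ∀ h ∈ A.decompositionSubgroup ℚ,
      x' (g * h) = x' g + x' h)
    (hspl : Spl (A.decompositionSubgroup ℚ) (fun g h => n g * x' h)) :
    ∀ σ ∈ A.inertiaSubgroupIn ℚ, x' σ = 0 := by
  obtain ⟨s, hs, h⟩ := hspl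
  set D := A.decompositionSubgroup ℚ with hD
  set N := kerOn D n hn with hN
  have hNmem : ∀ g, g ∈ N ↔ g ∈ D ∧ n g = 0 := fun g => Iff.rfl
  obtain ⟨ω, hω0, hω⟩ := exists_sqrt_of_char_closed (H := N) s (fun g hg k hk => by
    have h1 : n g * x' k = s g + s k + s (g * k) := h g hg.1 k hk.1
    rw [show n g = 0 from hg.2, zero_mul] at h1
    have h2 : ∀ a b c : ZMod 2, 0 = a + b + c → c = a + b := by decide
    exact h2 _ _ _ h1) (by
      have h1 : {g : GQ | g ∈ N ∧ s g = 0} =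
          ((D : Set GQ) ∩ {g : GQ | n g = 0}) ∩ {g : GQ | s g = 0} := by
        ext g
        exact Iff.rfl
      rw [h1]
      exact (Fermat.Agent.LatticeFlat.isClosed_decomposition.inter
        (isClosed_of_smoothFn hns (fun a => a = 0))).inter (isClosed_of_smoothFn hs (fun a => a = 0)))
  -- conjugation by `φ`
  have hconjD : ∀ g ∈ N, φ⁻¹ * g * φ ∈ N := by
    intro g hg
    refine ⟨D.mul_mem (D.mul_mem (D.inv_mem hφ) hg.1) hφ, ?_⟩
    rw [hn _ (D.mul_mem (D.inv_mem hφ) hg.1) _ hφ, hn _ (D.inv_mem hφ) _ hg.1,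
      show n g = 0 from hg.2, add_zero, ← hn _ (D.inv_mem hφ) _ hφ, inv_mul_cancel]
    exact N.one_mem.2
  have hφφ : φ * φ ∈ N := ⟨D.mul_mem hφ hφ, by rw [hn _ hφ _ hφ, CharTwo.add_self_eq_zero]⟩
  have hx1 : ∀ g ∈ N, x' (φ⁻¹ * g * φ) = x' g := by
    intro g hg
    have h1 : x' 1 = 0 := by
      have := hx 1 D.one_mem 1 D.one_mem
      rw [mul_one] at this
      exact left_eq_add.1 this
    have h2 := hx φ⁻¹ (D.inv_mem hφ) φ hφ
    rw [inv_mul_cancel, h1] at h2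
    rw [hx _ (D.mul_mem (D.inv_mem hφ) hg.1) _ hφ, hx _ (D.inv_mem hφ) _ hg.1]
    have h3 : ∀ a b c : ZMod 2, 0 = a + c → a + b + c = b := by decide
    exact h3 _ _ _ h2
  have hs1 : ∀ g ∈ N, s (φ⁻¹ * g * φ) = s g + x' g := by
    intro g hg
    have h1 : n g * x' φ = s g + s φ + s (g * φ) := h g hg.1 φ hφ
    have h2 : n φ * x' (φ⁻¹ * g * φ) = s φ + s (φ⁻¹ * g * φ) + s (φ * (φ⁻¹ * g * φ)) :=
      h φ hφ _ (hconjD g hg).1
    have h3 : φ * (φ⁻¹ * g * φ) = g * φ := by group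
    rw [h3, hnφ, one_mul, hx1 g hg] at h2
    rw [show n g = 0 from hg.2, zero_mul] at h1
    have h4 : ∀ a b c d e : ZMod 2, 0 = a + b + c → d = b + e + c → e = a + d := by decide
    exact h4 _ _ _ _ _ h1 h2
  set η := ω * φ ω with hη
  have hη0 : η ≠ 0 := mul_ne_zero hω0 ((map_ne_zero_iff _ φ.injective).2 hω0)
  have hηN : ∀ g ∈ N, g η = sg (x' g) * η := by
    intro g hg
    have h1 : g (φ ω) = sg (s g + x' g) * φ ω := by
      have h2 : (g * φ) ω = (φ * (φ⁻¹ * g * φ)) ω := by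
        congr 1
        group
      rw [AlgEquiv.mul_apply, AlgEquiv.mul_apply, hω _ (hconjD g hg), map_mul, map_sg,
        hs1 g hg] at h2
      exact h2
    rw [hη, map_mul, hω g hg, h1, sg_add]
    have h2 := sg_mul_self (s g)
    linear_combination (sg (x' g) * ω * φ ω) * h2
  have hIN : ∀ σ ∈ A.inertiaSubgroupIn ℚ, σ ∈ N := fun σ hσ =>
    ⟨inertia_le_decomp hσ, hnI σ hσ⟩
  -- the valuation of `ω²` is a power of that of `q`
  have hω2 : ∀ σ ∈ A.inertiaSubgroupIn ℚ, σ (ω ^ 2) = ω ^ 2 := by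
    intro σ hσ
    rw [map_pow, hω σ (hIN σ hσ), mul_pow, sg_sq, one_mul]
  obtain ⟨m, hm⟩ := Fermat.Agent.TW.exists_valuation_eq_zpow_of_fixed hq hA hω2
    (pow_ne_zero 2 hω0)
  have hqQ : ((q : ℕ) : AlgebraicClosure ℚ) ≠ 0 := by exact_mod_cast hq.ne_zero
  have hqv : A.valuation ((q : ℕ) : AlgebraicClosure ℚ) ≠ 0 := by
    rw [Ne, Valuation.zero_iff]
    exact hqQ
  set ζ := η / (q : AlgebraicClosure ℚ) ^ m with hζ
  have hζv : A.valuation ζ = 1 := by
    have h1 : A.valuation ζ ^ 2 = 1 := by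
      rw [← map_pow, hζ, hη, div_pow, mul_pow, ← map_pow, map_div₀, map_mul, val_decomp_eq hφ,
        hm, map_pow, map_zpow₀, ← sq]
      exact div_self (pow_ne_zero _ (zpow_ne_zero _ hqv))
    exact (pow_eq_one_iff.mp h1).resolve_right two_ne_zero
  intro σ hσ
  have h1 : σ ζ = sg (x' σ) * ζ := by
    rw [hζ, map_div₀, hηN σ (hIN σ hσ), map_zpow₀, map_natCast, mul_div_assoc]
  have h2 : σ ζ = ζ := by
    refine Fermat.Agent.TW.fixed_of_pow_fixed hA ((Nat.coprime_primes hq Nat.prime_two).2 hq2)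
      two_ne_zero hζv hσ ?_
    rw [map_pow, h1, mul_pow, sg_sq, one_mul]
  have hζ0 : ζ ≠ 0 := div_ne_zero hη0 (zpow_ne_zero _ hqQ)
  rw [h2] at h1
  exact (eq_of_sg_mul_eq hζ0 (by rw [sg_zero, one_mul]; exact h1)).symm

end Norm

section Unramified

variable {X : Type} [Fintype X] {π : GQ →* Equiv.Perm X}

/-- The cup product of two unramified cocycles splits locally. -/
theorem spl_of_unram {q : ℕ} (hq : q.Prime) {A : ValuationSubring (AlgebraicClosure ℚ)}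
    (hA : A.LiesOverPrime q) {f f' : GQ → X → ZMod 2} (hf : IsCoc π f) (hf' : IsCoc π f')
    (hlev : ∃ L : IntermediateField ℚ (AlgebraicClosure ℚ), FiniteDimensional ℚ L ∧
      ∀ u, Fixes L u → π u = 1 ∧ ∀ x, f u x = 0 ∧ f' u x = 0)
    (hI : ∀ σ ∈ A.inertiaSubgroupIn ℚ, π σ = 1 ∧ ∀ x, f σ x = 0 ∧ f' σ x = 0) :
    Spl (A.decompositionSubgroup ℚ) (cup π f f') := by
  classical
  set D := A.decompositionSubgroup ℚ with hD
  have hone : ∀ {F : GQ → X → ZMod 2}, IsCoc π F → ∀ g h : GQ, π h = 1 → ∀ x,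
      F (g * h) x = F g x + F h ((π g)⁻¹ x) := fun hF g h _ x => hF g h x
  let W₀ : Subgroup GQ :=
    { carrier := {g | π g = 1 ∧ ∀ x, f g x = 0 ∧ f' g x = 0}
      mul_mem' := fun {g h} hg hh => ⟨by rw [map_mul, hg.1, hh.1, mul_one], fun x => ⟨by
        rw [hf, hg.1, (hg.2 _).1, (hh.2 _).1, add_zero], by
        rw [hf', hg.1, (hg.2 _).2, (hh.2 _).2, add_zero]⟩⟩
      one_mem' := ⟨map_one _, fun x => ⟨hf.one x, hf'.one x⟩⟩
      inv_mem' := fun {g} hg => by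
        have h1 : π g⁻¹ = 1 := by rw [map_inv, hg.1, inv_one]
        refine ⟨h1, fun x => ⟨?_, ?_⟩⟩
        · have h2 := hf g⁻¹ g x
          rw [inv_mul_cancel, hf.one, (hg.2 _).1, add_zero] at h2
          exact h2.symm
        · have h2 := hf' g⁻¹ g x
          rw [inv_mul_cancel, hf'.one, (hg.2 _).2, add_zero] at h2
          exact h2.symm }
  have hW₀mem : ∀ g, g ∈ W₀ ↔ π g = 1 ∧ ∀ x, f g x = 0 ∧ f' g x = 0 := fun g => Iff.rfl
  have hconj : ∀ {F : GQ → X → ZMod 2}, IsCoc π F → ∀ g h : GQ, π g = 1 → (∀ x, F g x = 0) →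
      ∀ x, F (h * g * h⁻¹) x = 0 := by
    intro F hF g h hg hFg x
    have h1 := hF (h * g) h⁻¹ x
    rw [hF h g, hFg, add_zero, map_mul, hg, mul_one] at h1
    rw [h1, ← hF h h⁻¹, mul_inv_cancel, hF.one]
  have hW₀n : W₀.Normal := ⟨fun g hg h => by
    refine ⟨by rw [map_mul, map_mul, hg.1, mul_one, ← map_mul, mul_inv_cancel, map_one],
      fun x => ⟨hconj hf g h hg.1 (fun x => (hg.2 x).1) x,
        hconj hf' g h hg.1 (fun x => (hg.2 x).2) x⟩⟩⟩
  have hW₀ : W₀ ∈ Fermat.Agent.CFT.Bridge.galLevels ℚ (AlgebraicClosure ℚ) := by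
    obtain ⟨L, hL, h⟩ := hlev
    exact ⟨L, hL, fun u hu => h u fun x hx => hu ⟨x, hx⟩⟩
  have hp2 : Fact (Nat.Prime 2) := ⟨Nat.prime_two⟩
  obtain ⟨e, ⟨U, ⟨E, ⟨L, hL, hLE⟩, hEU⟩, hU⟩, he⟩ := Fermat.Agent.CFT.Kum.isCob_of_unramified (p := 2)
    hq hA D.subtype
    (Fermat.Agent.PT.LevelSys.compat_comap (𝓛 := Fermat.Agent.CFT.Bridge.galLevels ℚ
      (AlgebraicClosure ℚ)) D.subtype) (fun d => d.2) (by
      rw [Subgroup.range_subtype, Subgroup.relIndex_self]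
      exact one_ne_zero) W₀ hW₀ (fun σ hσ => hI σ hσ)
    (c := fun p => cup π f f' p.1 p.2) (by
      intro g h u v hu hv
      show cup π f f' (g * u : D) (h * v : D) = cup π f f' g h
      have hu' : (u : GQ) ∈ W₀ := hu
      have hv' : (v : GQ) ∈ W₀ := hv
      simp only [cup, Subgroup.coe_mul]
      refine Finset.sum_congr rfl fun x _ => ?_
      rw [hf, hf' (h : GQ) (v : GQ), map_mul, hu'.1, (hu'.2 _).1, (hv'.2 _).2, add_zero, add_zero,
        mul_one]) (by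
      intro g h j
      show cup π f f' (g * h : D) j + cup π f f' g h = cup π f f' h j + cup π f f' g (h * j : D)
      simp only [cup, Subgroup.coe_mul]
      have h1 : ∑ x, f h x * f' j ((π h)⁻¹ x) =
          ∑ x, f h ((π g)⁻¹ x) * f' j ((π h)⁻¹ ((π g)⁻¹ x)) :=
        (sum_perm (π g) (fun x => f h x * f' j ((π h)⁻¹ x))).symm
      rw [h1, ← Finset.sum_add_distrib, ← Finset.sum_add_distrib]
      refine Finset.sum_congr rfl fun x _ => ?_
      rw [hf (g : GQ) (h : GQ), hf' (h : GQ) (j : GQ), map_mul, mul_inv_rev, Equiv.Perm.mul_apply]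
      ring)
  refine Spl.of_rel (s := fun g => if hg : g ∈ D then e ⟨g, hg⟩ else 0) ⟨L, hL, ?_⟩ ?_
  · intro g hg u hu hfix
    show (if hg : g * u ∈ D then e ⟨g * u, hg⟩ else 0) = if hg : g ∈ D then e ⟨g, hg⟩ else 0
    rw [dif_pos (D.mul_mem hg hu), dif_pos hg]
    exact hU ⟨g, hg⟩ ⟨u, hu⟩ (hEU (hLE (fun x => hfix x x.2)))
  · intro g hg k hk
    show _ = (if hg : g ∈ D then e ⟨g, hg⟩ else 0) + (if hg : k ∈ D then e ⟨k, hg⟩ else 0) +
      if hg : g * k ∈ D then e ⟨g * k, hg⟩ else 0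
    rw [dif_pos hg, dif_pos hk, dif_pos (D.mul_mem hg hk)]
    have h1 := he ⟨g, hg⟩ ⟨k, hk⟩
    have h2 : cup π f f' g k = e ⟨k, hk⟩ - e (⟨g, hg⟩ * ⟨k, hk⟩) + e ⟨g, hg⟩ := h1
    rw [h2, CharTwo.sub_eq_add]
    show _ = e ⟨g, hg⟩ + e ⟨k, hk⟩ + e (⟨g, hg⟩ * ⟨k, hk⟩)
    ring

end Unramified

end Fermat.Agent.LTF.Sel
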