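import Fermat.Agent.LTF.Sel.HSym
import Mathlib.Algebra.BigOperators.Finprod

/-!
# The product formula for quadratic Hilbert symbols over `ℚ`
-/

set_option autoImplicit false

namespace Fermat.Agent.LTF.Sel

local instance factP (v : Nat.Primes) : Fact ((v : ℕ).Prime) := ⟨v.2⟩

/-- The prime `2`. -/
def P2 : Nat.Primes := ⟨2, Nat.prime_two⟩

section

variable (S : ∀ v : Nat.Primes, HSym (v : ℕ))

/-- The inclusion `ℚˣ → ℚ_[v]ˣ`. -/
noncomputable def iv (v : Nat.Primes) : ℚˣ →* ℚ_[(v : ℕ)]ˣ :=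
  Units.map (algebraMap ℚ ℚ_[(v : ℕ)]).toMonoidHom

lemma coe_iv (v : Nat.Primes) (a : ℚˣ) : ((iv v a : ℚ_[(v : ℕ)]ˣ) : ℚ_[(v : ℕ)]) = ((a : ℚ) : ℚ_[(v : ℕ)]) := by
  exact eq_ratCast (algebraMap ℚ ℚ_[(v : ℕ)]) (a : ℚ)

/-- The symbol on `ℚˣ` at the prime `v`. -/
noncomputable def symQ (v : Nat.Primes) : ℚˣ →* ℚˣ →* Multiplicative (ZMod 2) :=
  ((S v).sym.compl₂ (iv v)).comp (iv v)

lemma symQ_apply (v : Nat.Primes) (a b : ℚˣ) : symQ S v a b = (S v).sym (iv v a) (iv v b) := rfl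

lemma symQ_comm (v : Nat.Primes) (a b : ℚˣ) : symQ S v a b = symQ S v b a := (S v).comm _ _

lemma symQ_self (v : Nat.Primes) (a : ℚˣ) : symQ S v a a = symQ S v a (-1) := by
  have h : iv v (-1) = -1 := by
    apply Units.ext
    rw [coe_iv]
    push_cast
    rfl
  rw [symQ_apply, symQ_apply, (S v).sym_self, h]

/-- The sign. -/
def ng (a : ℚˣ) : ZMod 2 := if (a : ℚ) < 0 then 1 else 0

lemma ng_mul (a b : ℚˣ) : ng (a * b) = ng a + ng b := by
  unfold ng
  rw [Units.val_mul]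
  have ha := a.ne_zero
  have hb := b.ne_zero
  rcases lt_or_gt_of_ne ha with h1 | h1 <;> rcases lt_or_gt_of_ne hb with h2 | h2
  · rw [if_neg (not_lt.mpr (mul_pos_of_neg_of_neg h1 h2).le), if_pos h1, if_pos h2]
    decide
  · rw [if_pos (mul_neg_of_neg_of_pos h1 h2), if_pos h1, if_neg (not_lt.mpr h2.le), add_zero]
  · rw [if_pos (mul_neg_of_pos_of_neg h1 h2), if_neg (not_lt.mpr h1.le), if_pos h2, zero_add]
  · rw [if_neg (not_lt.mpr (mul_pos h1 h2).le), if_neg (not_lt.mpr h1.le),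
      if_neg (not_lt.mpr h2.le), add_zero]

/-- The symbol at infinity. -/
def symInf : ℚˣ →* ℚˣ →* Multiplicative (ZMod 2) :=
  MonoidHom.mk' (fun a => MonoidHom.mk' (fun b => Multiplicative.ofAdd (ng a * ng b)) (by
    intro b b'
    rw [ng_mul, mul_add, ofAdd_add])) (by
    intro a a'
    ext b
    change Multiplicative.ofAdd (ng (a * a') * ng b) = _ * _
    rw [ng_mul, add_mul, ofAdd_add]
    rfl)

lemma symInf_apply (a b : ℚˣ) : symInf a b = Multiplicative.ofAdd (ng a * ng b) := rfl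

lemma symInf_comm (a b : ℚˣ) : symInf a b = symInf b a := by
  rw [symInf_apply, symInf_apply, mul_comm]

/-- The product formula for the pair `(a, b)`. -/
def PF (a b : ℚˣ) : Prop :=
  (Function.mulSupport (fun v => symQ S v a b)).Finite ∧
    (∏ᶠ v, symQ S v a b) * symInf a b = 1

variable {S}

lemma PF.comm {a b : ℚˣ} (h : PF S a b) : PF S b a := by
  unfold PF at h ⊢
  simp only [symQ_comm S _ b a, symInf_comm b a]
  exact h

lemma PF.mul {a a' b : ℚˣ} (h : PF S a b) (h' : PF S a' b) : PF S (a * a') b := by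
  have he : (fun v => symQ S v (a * a') b) = fun v => symQ S v a b * symQ S v a' b := by
    funext v
    rw [map_mul, MonoidHom.mul_apply]
  refine ⟨?_, ?_⟩
  · rw [he]
    exact (h.1.union h'.1).subset (Function.mulSupport_mul _ _)
  · rw [he, finprod_mul_distrib h.1 h'.1, map_mul, MonoidHom.mul_apply]
    calc _ = ((∏ᶠ v, symQ S v a b) * symInf a b) * ((∏ᶠ v, symQ S v a' b) * symInf a' b) :=
          mul_mul_mul_comm _ _ _ _
      _ = 1 := by rw [h.2, h'.2, mul_one]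

lemma PF.one (b : ℚˣ) : PF S 1 b := by
  have he : (fun v => symQ S v 1 b) = fun _ => 1 := by
    funext v
    rw [map_one, MonoidHom.one_apply]
  refine ⟨?_, ?_⟩
  · rw [he]
    have : Function.mulSupport (fun _ : Nat.Primes => (1 : Multiplicative (ZMod 2))) = ∅ :=
      Function.mulSupport_one
    rw [this]
    exact Set.finite_empty
  · rw [he, finprod_one, map_one, MonoidHom.one_apply, mul_one]

lemma symQ_inv (v : Nat.Primes) (a b : ℚˣ) : symQ S v a⁻¹ b = symQ S v a b := by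
  rw [map_inv, MonoidHom.inv_apply, inv_eq_iff_mul_eq_one, ← sq, sq_eq_one]

lemma PF.inv {a b : ℚˣ} (h : PF S a b) : PF S a⁻¹ b := by
  have h2 : symInf a⁻¹ b = symInf a b := by
    rw [map_inv, MonoidHom.inv_apply, inv_eq_iff_mul_eq_one, ← sq, sq_eq_one]
  unfold PF
  simp only [symQ_inv, h2]
  exact h

/-- The subgroup of all `a` with the product formula. -/
def pfSub (b : ℚˣ) : Subgroup ℚˣ where
  carrier := {a | PF S a b}
  mul_mem' := PF.mul
  one_mem' := PF.one b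
  inv_mem' := PF.inv

/-- A natural number as a unit. -/
def nu (n : ℕ) (hn : n ≠ 0) : ℚˣ := Units.mk0 (n : ℚ) (Nat.cast_ne_zero.mpr hn)

@[simp] lemma coe_nu (n : ℕ) (hn : n ≠ 0) : ((nu n hn : ℚˣ) : ℚ) = n := rfl

/-- A subgroup of `ℚˣ` containing `-1` and the primes is everything. -/
lemma eq_top_of_primes (H : Subgroup ℚˣ) (h1 : (-1 : ℚˣ) ∈ H)
    (hp : ∀ l : ℕ, ∀ hl : l.Prime, nu l hl.ne_zero ∈ H) (a : ℚˣ) : a ∈ H := by
  have hn : ∀ n : ℕ, ∀ hn : n ≠ 0, nu n hn ∈ H := by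
    intro n
    induction n using Nat.recOnMul with
    | zero => exact fun h => absurd rfl h
    | one =>
      intro hn
      have : nu 1 hn = 1 := Units.ext (by simp)
      rw [this]
      exact H.one_mem
    | prime l hl => exact fun _ => hp l hl
    | mul m n hm hn =>
      intro hmn
      have hm0 : m ≠ 0 := left_ne_zero_of_mul hmn
      have hn0 : n ≠ 0 := right_ne_zero_of_mul hmn
      have : nu (m * n) hmn = nu m hm0 * nu n hn0 := Units.ext (by simp)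
      rw [this]
      exact H.mul_mem (hm hm0) (hn hn0)
  have hnum0 : (a : ℚ).num.natAbs ≠ 0 := by
    rw [Int.natAbs_ne_zero]
    exact Rat.num_ne_zero.mpr a.ne_zero
  have hden : nu (a : ℚ).den (a : ℚ).den_nz ∈ H := hn _ _
  have hnum : nu (a : ℚ).num.natAbs hnum0 ∈ H := hn _ _
  have key : a = nu (a : ℚ).num.natAbs hnum0 * (nu (a : ℚ).den (a : ℚ).den_nz)⁻¹ ∨
      a = (-1) * nu (a : ℚ).num.natAbs hnum0 * (nu (a : ℚ).den (a : ℚ).den_nz)⁻¹ := by
    have h0 : (a : ℚ) = (a : ℚ).num / (a : ℚ).den := (Rat.num_div_den _).symm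
    rcases Int.natAbs_eq (a : ℚ).num with h | h
    · left
      apply Units.ext
      rw [Units.val_mul, Units.val_inv_eq_inv_val, coe_nu, coe_nu, ← div_eq_mul_inv]
      conv_lhs => rw [h0, h]
      rw [Int.cast_natCast]
    · right
      apply Units.ext
      rw [Units.val_mul, Units.val_mul, Units.val_inv_eq_inv_val, coe_nu, coe_nu,
        ← div_eq_mul_inv, Units.val_neg, Units.val_one]
      conv_lhs => rw [h0, h]
      rw [Int.cast_neg, Int.cast_natCast, neg_one_mul]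
  rcases key with h | h
  · rw [h]
    exact H.mul_mem hnum (H.inv_mem hden)
  · rw [h]
    exact H.mul_mem (H.mul_mem h1 hnum) (H.inv_mem hden)

lemma PF.of_finset {a b : ℚˣ} (s : Finset Nat.Primes) (hs : ∀ v ∉ s, symQ S v a b = 1)
    (h : (∏ v ∈ s, symQ S v a b) * symInf a b = 1) : PF S a b := by
  have hsub : Function.mulSupport (fun v => symQ S v a b) ⊆ s := by
    intro v hv
    by_contra hcon
    exact hv (hs v hcon)
  exact ⟨s.finite_toSet.subset hsub, by rw [finprod_eq_prod_of_mulSupport_subset _ hsub]; exact h⟩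

/-- Units at odd primes. -/
lemma symQ_unit {v : Nat.Primes} (hv : v ≠ P2) {a b : ℚˣ} {m n : ℤ} (ha : (a : ℚ) = m)
    (hb : (b : ℚ) = n) (hm : ¬ ((v : ℕ) : ℤ) ∣ m) (hn : ¬ ((v : ℕ) : ℤ) ∣ n) :
    symQ S v a b = 1 := by
  have hn' : ∀ k : ℤ, ¬ ((v : ℕ) : ℤ) ∣ k → ‖((k : ℚ) : ℚ_[(v : ℕ)])‖ = 1 := by
    intro k hk
    have := norm_intCast_eq_one (v := (v : ℕ)) hk
    rw [PadicInt.norm_def, PadicInt.coe_intCast] at this
    rwa [Rat.cast_intCast]
  refine (S v).unit (fun h => hv (Subtype.ext h)) _ _ ?_ ?_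
  · rw [coe_iv, ha]
    exact hn' m hm
  · rw [coe_iv, hb]
    exact hn' n hn

/-- Legendre symbols. -/
lemma symQ_prime {v : Nat.Primes} (hv : v ≠ P2) {a b : ℚˣ} {n : ℤ} (ha : (a : ℚ) = (v : ℕ))
    (hb : (b : ℚ) = n) (hn : ¬ ((v : ℕ) : ℤ) ∣ n) :
    symQ S v a b = 1 ↔ IsSquare (n : ZMod (v : ℕ)) := by
  refine (S v).sym_prime_int (fun h => hv (Subtype.ext h)) hn _ _ ?_ ?_
  · rw [coe_iv, ha]
    simp
  · rw [coe_iv, hb]
    simp

/-- The inclusion `ℚˣ → ℚ_[2]ˣ`. -/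
noncomputable def iv2 : ℚˣ →* ℚ_[2]ˣ := Units.map (algebraMap ℚ ℚ_[2]).toMonoidHom

lemma coe_iv2 (a : ℚˣ) : ((iv2 a : ℚ_[2]ˣ) : ℚ_[2]) = ((a : ℚ) : ℚ_[2]) :=
  eq_ratCast (algebraMap ℚ ℚ_[2]) (a : ℚ)

/-- The given symbol at `2`. -/
def atTwo (S : ∀ v : Nat.Primes, HSym (v : ℕ)) : HSym 2 := S P2

lemma symQ_P2 (a b : ℚˣ) : symQ S P2 a b = (atTwo S).sym (iv2 a) (iv2 b) := rfl

lemma iv2_neg_one : iv2 (-1) = -1 := by
  apply Units.ext
  rw [coe_iv2]
  push_cast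
  rfl

lemma iv2_two {a : ℚˣ} (ha : (a : ℚ) = 2) : iv2 a = two₂ := by
  apply Units.ext
  rw [coe_iv2, ha]
  exact Rat.cast_ofNat ..

/-- `(-1, n)₂` and `(2, n)₂` for odd integers `n`. -/
lemma exists_two_rep {a : ℚˣ} {n : ℤ} (ha : (a : ℚ) = n) (hn : n % 2 = 1) :
    ∃ (i j : ℕ) (y : ℚ_[2]ˣ), iv2 a = (-1) ^ i * five ^ j * y ^ 2 ∧
      (i % 2 = 0 ↔ n % 4 = 1) ∧ (j % 2 = 0 ↔ n % 8 = 1 ∨ n % 8 = 7) := by
  have ha' : ((iv2 a : ℚ_[2]ˣ) : ℚ_[2]) = (n : ℤ) := by
    rw [coe_iv2, ha]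
    exact Rat.cast_intCast n
  have h8 : (n : ZMod (2 ^ 3)) = ((n % 8 : ℤ) : ZMod (2 ^ 3)) := by
    conv_lhs => rw [← Int.emod_add_mul_ediv n 8]
    push_cast
    have h' : (8 : ZMod (2 ^ 3)) = 0 := by decide
    rw [h', zero_mul, add_zero]
  have hcases : n % 8 = 1 ∨ n % 8 = 3 ∨ n % 8 = 5 ∨ n % 8 = 7 := by omega
  rcases hcases with h | h | h | h
  · obtain ⟨y, hy⟩ := eq_of_int n _ ha' 0 0 (by rw [h8, h]; decide)
    exact ⟨0, 0, y, hy, by omega, by omega⟩
  · obtain ⟨y, hy⟩ := eq_of_int n _ ha' 1 1 (by rw [h8, h]; decide)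
    exact ⟨1, 1, y, hy, by omega, by omega⟩
  · obtain ⟨y, hy⟩ := eq_of_int n _ ha' 0 1 (by rw [h8, h]; decide)
    exact ⟨0, 1, y, hy, by omega, by omega⟩
  · obtain ⟨y, hy⟩ := eq_of_int n _ ha' 1 0 (by rw [h8, h]; decide)
    exact ⟨1, 0, y, hy, by omega, by omega⟩

lemma pow_eq_one_iff_even {x : Multiplicative (ZMod 2)} (hx : x ≠ 1) (i : ℕ) :
    x ^ i = 1 ↔ i % 2 = 0 := by
  have h2 : x ^ i = x ^ (i % 2) := by
    conv_lhs => rw [← Nat.div_add_mod i 2]
    rw [pow_add, pow_mul, sq_eq_one, one_pow, one_mul]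
  rw [h2]
  rcases Nat.mod_two_eq_zero_or_one i with h | h
  · rw [h, pow_zero]
    exact ⟨fun _ => rfl, fun _ => rfl⟩
  · rw [h, pow_one]
    exact ⟨fun h => absurd h hx, fun h => absurd h one_ne_zero⟩

/-- `(-1, n)₂`. -/
lemma symQ_two_neg_one {a : ℚˣ} {n : ℤ} (ha : (a : ℚ) = n) (hn : n % 2 = 1) :
    symQ S P2 (-1) a = 1 ↔ n % 4 = 1 := by
  obtain ⟨i, j, y, h, hi, -⟩ := exists_two_rep ha hn
  rw [symQ_P2, h, iv2_neg_one, HSym.neg_one_apply,
    pow_eq_one_iff_even (HSym.neg_one_neg_one _), hi]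

/-- `(2, n)₂`. -/
lemma symQ_two_two {a b : ℚˣ} {n : ℤ} (hb : (b : ℚ) = 2) (ha : (a : ℚ) = n) (hn : n % 2 = 1) :
    symQ S P2 b a = 1 ↔ n % 8 = 1 ∨ n % 8 = 7 := by
  obtain ⟨i, j, y, h, -, hj⟩ := exists_two_rep ha hn
  rw [symQ_P2, h, iv2_two hb, HSym.two_apply, pow_eq_one_iff_even (HSym.five_two _), hj]

/-- `(m, n)₂` for odd integers. -/
lemma symQ_two_unit {a b : ℚˣ} {m n : ℤ} (ha : (a : ℚ) = m) (hb : (b : ℚ) = n)
    (hm : m % 2 = 1) (hn : n % 2 = 1) :
    symQ S P2 a b = 1 ↔ m % 4 = 1 ∨ n % 4 = 1 := by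
  obtain ⟨i, j, y, h, hi, -⟩ := exists_two_rep ha hm
  obtain ⟨i', j', y', h', hi', -⟩ := exists_two_rep hb hn
  rw [symQ_P2, h, h', HSym.unit_unit, ← hi, ← hi',
    pow_eq_one_iff_even (HSym.neg_one_neg_one _), ← Nat.dvd_iff_mod_eq_zero,
    ← Nat.dvd_iff_mod_eq_zero, ← Nat.dvd_iff_mod_eq_zero, Nat.prime_two.dvd_mul]

end

section base

variable {S : ∀ v : Nat.Primes, HSym (v : ℕ)}

lemma not_dvd_one {v : Nat.Primes} : ¬ ((v : ℕ) : ℤ) ∣ (-1 : ℤ) := by
  rw [Int.dvd_neg]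
  intro h
  have := Int.le_of_dvd one_pos h
  have h2 := v.2.two_le
  omega

lemma not_dvd_prime {v l : Nat.Primes} (h : v ≠ l) : ¬ ((v : ℕ) : ℤ) ∣ ((l : ℕ) : ℤ) := by
  rw [Int.natCast_dvd_natCast, Nat.prime_dvd_prime_iff_eq v.2 l.2]
  exact fun h' => h (Subtype.ext h')

lemma coe_neg_one' : (((-1 : ℚˣ)) : ℚ) = ((-1 : ℤ) : ℚ) := by
  push_cast
  rfl

/-- A prime as a unit of `ℚ`. -/
def pu (l : Nat.Primes) : ℚˣ := nu l l.2.ne_zero

lemma coe_pu (l : Nat.Primes) : ((pu l : ℚˣ) : ℚ) = (l : ℕ) := rfl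

lemma coe_pu' (l : Nat.Primes) : ((pu l : ℚˣ) : ℚ) = (((l : ℕ) : ℤ) : ℚ) := by
  rw [coe_pu, Int.cast_natCast]

lemma ng_pu (l : Nat.Primes) : ng (pu l) = 0 :=
  if_neg (not_lt.mpr (by rw [coe_pu]; exact Nat.cast_nonneg _))

lemma ng_neg_one : ng (-1) = 1 := if_pos (by norm_num)

lemma symInf_pu (l : Nat.Primes) (a : ℚˣ) : symInf (pu l) a = 1 := by
  rw [symInf_apply, ng_pu, zero_mul, ofAdd_zero]

lemma pf_neg_one_neg_one : PF S (-1) (-1) := by
  refine PF.of_finset {P2} (fun v hv => ?_) ?_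
  · exact symQ_unit (by simpa using hv) coe_neg_one' coe_neg_one' not_dvd_one not_dvd_one
  · rw [Finset.prod_singleton, mul_ne_one_iff]
    · rw [symInf_apply, ng_neg_one]
      decide
    · rw [symQ_P2, iv2_neg_one]
      exact HSym.neg_one_neg_one _

lemma pf_neg_one_two : PF S (-1) (pu P2) := by
  refine PF.of_finset {P2} (fun v hv => ?_) ?_
  · have hv' : v ≠ P2 := by simpa using hv
    exact symQ_unit hv' coe_neg_one' (coe_pu' P2) not_dvd_one (not_dvd_prime hv')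
  · rw [Finset.prod_singleton, symInf_comm, symInf_pu, mul_one, symQ_P2, iv2_neg_one,
      iv2_two (a := pu P2) (by rw [coe_pu]; norm_num [P2])]
    exact HSym.neg_one_two _

lemma odd_of_ne {l : Nat.Primes} (hl : l ≠ P2) : ((l : ℕ) : ℤ) % 2 = 1 := by
  have h := l.2.eq_two_or_odd
  rcases h with h | h
  · exact absurd (Subtype.ext h) hl
  · omega

lemma pf_neg_one_prime {l : Nat.Primes} (hl : l ≠ P2) : PF S (-1) (pu l) := by
  refine PF.of_finset {P2, l} (fun v hv => ?_) ?_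
  · rw [Finset.mem_insert, Finset.mem_singleton, not_or] at hv
    exact symQ_unit hv.1 coe_neg_one' (coe_pu' l) not_dvd_one (not_dvd_prime hv.2)
  · rw [Finset.prod_pair hl.symm, symInf_comm, symInf_pu, mul_one, mul_eq_one_iff_iff,
      symQ_two_neg_one (coe_pu' l) (odd_of_ne hl), symQ_comm,
      symQ_prime hl (coe_pu l) coe_neg_one' not_dvd_one]
    push_cast
    rw [ZMod.exists_sq_eq_neg_one_iff]
    have := odd_of_ne hl
    omega

lemma pf_two_prime {l : Nat.Primes} (hl : l ≠ P2) : PF S (pu P2) (pu l) := by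
  refine PF.of_finset {P2, l} (fun v hv => ?_) ?_
  · rw [Finset.mem_insert, Finset.mem_singleton, not_or] at hv
    exact symQ_unit hv.1 (coe_pu' P2) (coe_pu' l) (not_dvd_prime hv.1) (not_dvd_prime hv.2)
  · rw [Finset.prod_pair hl.symm, symInf_pu, mul_one, mul_eq_one_iff_iff,
      symQ_two_two (by rw [coe_pu]; norm_num [P2]) (coe_pu' l) (odd_of_ne hl), symQ_comm,
      symQ_prime hl (coe_pu l) (coe_pu' P2) (not_dvd_prime hl)]
    have h2 : (((P2 : ℕ) : ℤ) : ZMod (l : ℕ)) = 2 := by norm_num [P2]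
    rw [h2, ZMod.exists_sq_eq_two_iff (fun h => hl (Subtype.ext h))]
    omega

lemma pf_prime_prime {l m : Nat.Primes} (hl : l ≠ P2) (hm : m ≠ P2) (hlm : l ≠ m) :
    PF S (pu l) (pu m) := by
  refine PF.of_finset {P2, l, m} (fun v hv => ?_) ?_
  · rw [Finset.mem_insert, Finset.mem_insert, Finset.mem_singleton, not_or, not_or] at hv
    exact symQ_unit hv.1 (coe_pu' l) (coe_pu' m) (not_dvd_prime hv.2.1) (not_dvd_prime hv.2.2)
  · have hP : P2 ∉ ({l, m} : Finset Nat.Primes) := by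
      rw [Finset.mem_insert, Finset.mem_singleton, not_or]
      exact ⟨hl.symm, hm.symm⟩
    have h1 : symQ S l (pu l) (pu m) = 1 ↔ IsSquare ((m : ℕ) : ZMod (l : ℕ)) := by
      rw [symQ_prime hl (coe_pu l) (coe_pu' m) (not_dvd_prime hlm), Int.cast_natCast]
    have h2 : symQ S m (pu l) (pu m) = 1 ↔ IsSquare ((l : ℕ) : ZMod (m : ℕ)) := by
      rw [symQ_comm, symQ_prime hm (coe_pu m) (coe_pu' l) (not_dvd_prime hlm.symm),
        Int.cast_natCast]
    have h3 := symQ_two_unit (S := S) (coe_pu' l) (coe_pu' m) (odd_of_ne hl) (odd_of_ne hm)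
    rw [Finset.prod_insert hP, Finset.prod_pair hlm, symInf_pu, mul_one, mul_eq_one_iff_iff,
      mul_eq_one_iff_iff, h1, h2, h3]
    have ol := odd_of_ne hl
    have om := odd_of_ne hm
    have hl2 : (l : ℕ) ≠ 2 := fun h => hl (Subtype.ext h)
    have hm2 : (m : ℕ) ≠ 2 := fun h => hm (Subtype.ext h)
    by_cases h4 : (l : ℕ) % 4 = 1
    · rw [ZMod.exists_sq_eq_prime_iff_of_mod_four_eq_one h4 hm2]
      simp only [iff_true, iff_self]
      left
      omega
    · by_cases h5 : (m : ℕ) % 4 = 1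
      · rw [ZMod.exists_sq_eq_prime_iff_of_mod_four_eq_one h5 hl2]
        simp only [iff_true, iff_self]
        right
        omega
      · have h6 : (l : ℕ) % 4 = 3 := by omega
        have h7 : (m : ℕ) % 4 = 3 := by omega
        rw [ZMod.exists_sq_eq_prime_iff_of_mod_four_eq_three h6 h7
          (fun h => hlm (Subtype.ext h))]
        have h8 : ¬ (((l : ℕ) : ℤ) % 4 = 1 ∨ ((m : ℕ) : ℤ) % 4 = 1) := by omega
        simp only [h8, false_iff]
        tauto

variable (S)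

/-- **The product formula for quadratic Hilbert symbols over `ℚ`.** -/
theorem product_formula (a b : ℚˣ) : PF S a b := by
  have key1 : ∀ a, PF S a (-1) := by
    intro a
    refine eq_top_of_primes (pfSub (S := S) (-1)) pf_neg_one_neg_one (fun l hl => ?_) a
    by_cases h2 : (⟨l, hl⟩ : Nat.Primes) = P2
    · have h := (pf_neg_one_two (S := S)).comm
      rw [← h2] at h
      exact h
    · exact (pf_neg_one_prime (S := S) h2).comm
  have hself : ∀ l : Nat.Primes, PF S (pu l) (pu l) := by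
    intro l
    have h := key1 (pu l)
    unfold PF at h ⊢
    have he : (fun v => symQ S v (pu l) (pu l)) = fun v => symQ S v (pu l) (-1) := by
      funext v
      exact symQ_self S v (pu l)
    rw [he, symInf_pu]
    rw [symInf_pu] at h
    exact h
  have key2 : ∀ (l : ℕ) (hl : l.Prime) (a : ℚˣ), PF S a (nu l hl.ne_zero) := by
    intro l hl a
    refine eq_top_of_primes (pfSub (S := S) (nu l hl.ne_zero)) (key1 _).comm (fun m hm => ?_) a
    change PF S (pu ⟨m, hm⟩) (pu ⟨l, hl⟩)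
    by_cases hml : (⟨m, hm⟩ : Nat.Primes) = ⟨l, hl⟩
    · rw [hml]
      exact hself _
    by_cases hm2 : (⟨m, hm⟩ : Nat.Primes) = P2
    · rw [hm2]
      exact pf_two_prime (fun h => hml (hm2.trans h.symm))
    by_cases hl2 : (⟨l, hl⟩ : Nat.Primes) = P2
    · rw [hl2]
      exact (pf_two_prime hm2).comm
    exact pf_prime_prime hm2 hl2 hml
  exact (eq_top_of_primes (pfSub (S := S) a) (key1 a).comm
    (fun l hl => (key2 l hl a).comm) b).comm

end base

end Fermat.Agent.LTF.Sel
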