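import Fermat.Agent.LTF.Sel.Local
import Fermat.Agent.LTF.Gal.Defs

set_option autoImplicit false

/-!
# Elementary Selmer groups (6): the reciprocity step

`V = 𝔽₂²` with its natural action of `GL₂(𝔽₂)`.
-/

namespace Fermat.Agent.LTF.Sel

open Matrix
open scoped Pointwise
open Fermat.Agent.S53norm (GQ M2)

/-- Weak reciprocity for sums of rational symbols. -/
def WR : Prop :=
  ∀ (n : ℕ) (α β : Fin n → AlgebraicClosure ℚ), (∀ i, RatSq (α i)) → (∀ i, RatSq (β i)) →
    ∀ q : ℕ, q.Prime → q ≠ 2 →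
    (∀ v : ℕ, v.Prime → v ≠ q → ∃ A : ValuationSubring (AlgebraicClosure ℚ),
      A.LiesOverPrime v ∧
      Spl (A.decompositionSubgroup ℚ) (fun g h => ∑ i, kum (α i) g * kum (β i) h)) →
    Spl (Subgroup.zpowers complexConjugation) (fun g h => ∑ i, kum (α i) g * kum (β i) h) →
    ∀ A : ValuationSubring (AlgebraicClosure ℚ), A.LiesOverPrime q →
      Spl (A.decompositionSubgroup ℚ) (fun g h => ∑ i, kum (α i) g * kum (β i) h)

/-- `WR` for classes in `ratSub`. -/
lemma WR.of_ratSub (hWR : WR) {c : GQ → GQ → ZMod 2} (hc : c ∈ ratSub) {q : ℕ} (hq : q.Prime)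
    (hq2 : q ≠ 2)
    (h : ∀ v : ℕ, v.Prime → v ≠ q → ∃ A : ValuationSubring (AlgebraicClosure ℚ),
      A.LiesOverPrime v ∧ Spl (A.decompositionSubgroup ℚ) c)
    (hoo : Spl (Subgroup.zpowers complexConjugation) c)
    {A : ValuationSubring (AlgebraicClosure ℚ)} (hA : A.LiesOverPrime q) :
    Spl (A.decompositionSubgroup ℚ) c := by
  obtain ⟨n, α, β, hα, hβ, h1⟩ := exists_of_mem_ratSub hc
  have h2 : ∀ D : Subgroup GQ, Spl D c ↔ Spl D (fun g h => ∑ i, kum (α i) g * kum (β i) h) := by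
    intro D
    have h3 : Spl D (fun g h => c g h + ∑ i, kum (α i) g * kum (β i) h) := h1.mono le_top
    constructor
    · intro h4
      have h5 := (splSub D).sub_mem (show _ ∈ splSub D from h3) (show _ ∈ splSub D from h4)
      refine (?_ : (fun g h => ∑ i, kum (α i) g * kum (β i) h) ∈ splSub D)
      convert h5 using 1
      funext g h
      simp
    · intro h4
      have h5 := (splSub D).sub_mem (show _ ∈ splSub D from h3) (show _ ∈ splSub D from h4)
      refine (?_ : c ∈ splSub D)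
      convert h5 using 1
      funext g h
      simp
  rw [h2] at hoo ⊢
  refine hWR n α β hα hβ q hq hq2 (fun v hv hvq => ?_) hoo A hA
  obtain ⟨B, hB, hc'⟩ := h v hv hvq
  exact ⟨B, hB, (h2 _).1 hc'⟩

/-- The alternating form on `V`. -/
def det2 (a b : Fin 2 → ZMod 2) : ZMod 2 := a 0 * b 1 + a 1 * b 0

lemma det2_add_right (a b c : Fin 2 → ZMod 2) : det2 a (b + c) = det2 a b + det2 a c := by
  simp only [det2, Pi.add_apply]; ring

lemma det2_add_left (a b c : Fin 2 → ZMod 2) : det2 (a + b) c = det2 a c + det2 b c := by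
  simp only [det2, Pi.add_apply]; ring

lemma det2_mulVec (M : M2 (ZMod 2)) (hM : M.det = 1) (a b : Fin 2 → ZMod 2) :
    det2 (M *ᵥ a) (M *ᵥ b) = det2 a b := by
  have h1 : det2 (M *ᵥ a) (M *ᵥ b) = M.det * det2 a b +
      (2 : ZMod 2) * (M 0 0 * M 1 0 * a 0 * b 0 + M 0 1 * M 1 1 * a 1 * b 1 +
        M 0 1 * M 1 0 * (a 0 * b 1 + a 1 * b 0)) := by
    simp only [det2, Matrix.mulVec, dotProduct, Fin.sum_univ_two, Matrix.det_fin_two]
    ring
  rw [h1, hM, one_mul, show (2 : ZMod 2) = 0 from rfl, zero_mul, add_zero]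

/-- The non zero vectors of `V`. -/
abbrev NZ : Type := {u : Fin 2 → ZMod 2 // u ≠ 0}

lemma card_NZ : Nat.card NZ = 3 := by
  rw [Nat.card_eq_fintype_card]
  decide

lemma sum_det2 (a b : Fin 2 → ZMod 2) : ∑ u : NZ, det2 u.1 a * det2 u.1 b = det2 a b := by
  revert a b
  decide

variable {rbar : GQ →* M2 (ZMod 2)}

lemma mulVec_inv (g : GQ) (u : Fin 2 → ZMod 2) : rbar g *ᵥ (rbar g⁻¹ *ᵥ u) = u := by
  rw [Matrix.mulVec_mulVec, ← map_mul, mul_inv_cancel, map_one, Matrix.one_mulVec]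

lemma inv_mulVec (g : GQ) (u : Fin 2 → ZMod 2) : rbar g⁻¹ *ᵥ (rbar g *ᵥ u) = u := by
  rw [Matrix.mulVec_mulVec, ← map_mul, inv_mul_cancel, map_one, Matrix.one_mulVec]

lemma det_eq_one (g : GQ) : (rbar g).det = 1 := by
  have h1 : (rbar g).det * (rbar g⁻¹).det = 1 := by
    rw [← Matrix.det_mul, ← map_mul, mul_inv_cancel, map_one, Matrix.det_one]
  generalize (rbar g).det = a at *
  generalize (rbar g⁻¹).det = b at *
  revert a b
  decide

variable (rbar) in
/-- The permutation action on the non zero vectors. -/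
noncomputable def permV : GQ →* Equiv.Perm NZ where
  toFun g :=
    { toFun := fun u => ⟨rbar g *ᵥ u.1, fun h => u.2 (by
        rw [← inv_mulVec (rbar := rbar) g u.1, h, Matrix.mulVec_zero])⟩
      invFun := fun u => ⟨rbar g⁻¹ *ᵥ u.1, fun h => u.2 (by
        rw [← mulVec_inv (rbar := rbar) g u.1, h, Matrix.mulVec_zero])⟩
      left_inv := fun u => Subtype.ext (inv_mulVec g u.1)
      right_inv := fun u => Subtype.ext (mulVec_inv g u.1) }
  map_one' := by
    ext u
    simp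
  map_mul' g h := by
    ext u : 2
    show rbar (g * h) *ᵥ u.1 = rbar g *ᵥ (rbar h *ᵥ u.1)
    rw [map_mul, Matrix.mulVec_mulVec]

lemma permV_apply (g : GQ) (u : NZ) : ((permV rbar g u : NZ) : Fin 2 → ZMod 2) = rbar g *ᵥ u.1 :=
  rfl

lemma permV_inv_apply (g : GQ) (u : NZ) :
    (((permV rbar g)⁻¹ u : NZ) : Fin 2 → ZMod 2) = rbar g⁻¹ *ᵥ u.1 := rfl

lemma permV_eq_one {g : GQ} (h : rbar g = 1) : permV rbar g = 1 := by
  ext u : 2
  show rbar g *ᵥ u.1 = u.1
  rw [h, Matrix.one_mulVec]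

/-- The components of a `V`-valued function. -/
def comp (e : GQ → Fin 2 → ZMod 2) (g : GQ) (u : NZ) : ZMod 2 := det2 u.1 (e g)

/-- `e` is a cocycle. -/
def IsVCoc (rbar : GQ →* M2 (ZMod 2)) (e : GQ → Fin 2 → ZMod 2) : Prop :=
  ∀ g h, e (g * h) = e g + rbar g *ᵥ e h

lemma IsVCoc.comp {e : GQ → Fin 2 → ZMod 2} (he : IsVCoc rbar e) :
    IsCoc (permV rbar) (Sel.comp e) := by
  intro g h u
  show det2 u.1 (e (g * h)) = det2 u.1 (e g) + det2 (((permV rbar g)⁻¹ u : NZ) : Fin 2 → ZMod 2) (e h)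
  rw [he, det2_add_right, permV_inv_apply, ← det2_mulVec (rbar g) (det_eq_one g) (rbar g⁻¹ *ᵥ u.1),
    mulVec_inv]

lemma IsVCoc.one {e : GQ → Fin 2 → ZMod 2} (he : IsVCoc rbar e) : e 1 = 0 := by
  have := he 1 1
  rw [mul_one, map_one, Matrix.one_mulVec] at this
  exact left_eq_add.1 this

lemma cup_comp (e e' : GQ → Fin 2 → ZMod 2) (g h : GQ) :
    cup (permV rbar) (Sel.comp e) (Sel.comp e') g h = det2 (e g) (rbar g *ᵥ e' h) := by
  rw [← sum_det2]
  refine Finset.sum_congr rfl fun u _ => ?_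
  show det2 u.1 (e g) * det2 (((permV rbar g)⁻¹ u : NZ) : Fin 2 → ZMod 2) (e' h) = _
  rw [permV_inv_apply, ← det2_mulVec (rbar g) (det_eq_one g) (rbar g⁻¹ *ᵥ u.1), mulVec_inv]

/-- Two vectors fixed by a non trivial matrix are orthogonal. -/
lemma det2_eq_zero {M : M2 (ZMod 2)} (hM : M ≠ 1) {a b : Fin 2 → ZMod 2} (ha : M *ᵥ a = a)
    (hb : M *ᵥ b = b) : det2 a b = 0 := by
  by_contra hne
  apply hM
  have hdet : det2 a b = 1 := (zmod2_cases _).resolve_left hne
  have e0 : M 0 0 * a 0 + M 0 1 * a 1 = a 0 := by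
    have := congrFun ha 0
    simpa [Matrix.mulVec, dotProduct, Fin.sum_univ_two] using this
  have e1 : M 1 0 * a 0 + M 1 1 * a 1 = a 1 := by
    have := congrFun ha 1
    simpa [Matrix.mulVec, dotProduct, Fin.sum_univ_two] using this
  have e2 : M 0 0 * b 0 + M 0 1 * b 1 = b 0 := by
    have := congrFun hb 0
    simpa [Matrix.mulVec, dotProduct, Fin.sum_univ_two] using this
  have e3 : M 1 0 * b 0 + M 1 1 * b 1 = b 1 := by
    have := congrFun hb 1
    simpa [Matrix.mulVec, dotProduct, Fin.sum_univ_two] using this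
  have hd : a 0 * b 1 + a 1 * b 0 = 1 := hdet
  have key : ∀ m0 m1 m2 m3 a0 a1 b0 b1 : ZMod 2, m0 * a0 + m1 * a1 = a0 → m2 * a0 + m3 * a1 = a1 →
      m0 * b0 + m1 * b1 = b0 → m2 * b0 + m3 * b1 = b1 → a0 * b1 + a1 * b0 = 1 →
      m0 = 1 ∧ m1 = 0 ∧ m2 = 0 ∧ m3 = 1 := by decide
  obtain ⟨k0, k1, k2, k3⟩ := key _ _ _ _ _ _ _ _ e0 e1 e2 e3 hd
  ext i j
  fin_cases i <;> fin_cases j
  · exact k0
  · exact k1
  · exact k2
  · exact k3

/-- Selmer cocycles: unramified outside `T`, with values in the line fixed by the decomposition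
group at the places above `T`. -/
structure SelCoc (T : Finset ℕ) (rbar : GQ →* M2 (ZMod 2)) (e : GQ → Fin 2 → ZMod 2) : Prop where
  coc : ∀ g h, e (g * h) = e g + rbar g *ᵥ e h
  smooth : SmoothFn e
  unr : ∀ q : ℕ, q.Prime → q ∉ T → ∀ A : ValuationSubring (AlgebraicClosure ℚ),
    A.LiesOverPrime q → ∀ σ ∈ A.inertiaSubgroupIn ℚ, e σ = 0
  loc : ∀ v ∈ T, ∀ A : ValuationSubring (AlgebraicClosure ℚ), A.LiesOverPrime v →
    ∀ g ∈ A.decompositionSubgroup ℚ, ∀ g' ∈ A.decompositionSubgroup ℚ, rbar g' *ᵥ e g = e g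

/-- What we need about the residual representation at the primes of `T`. -/
structure ResT (T : Finset ℕ) (rbar : GQ →* M2 (ZMod 2)) : Prop where
  two : 2 ∈ T
  lev : ∃ L : IntermediateField ℚ (AlgebraicClosure ℚ), FiniteDimensional ℚ L ∧
    ∀ σ : GQ, Fixes L σ → rbar σ = 1
  surj : ∀ g : M2 (ZMod 2), g.det = 1 → ∃ σ, rbar σ = g
  unr : ∀ q : ℕ, q.Prime → q ∉ T → ∀ A : ValuationSubring (AlgebraicClosure ℚ),
    A.LiesOverPrime q → ∀ σ ∈ A.inertiaSubgroupIn ℚ, rbar σ = 1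
  ne : ∀ v ∈ T, ∀ A : ValuationSubring (AlgebraicClosure ℚ), A.LiesOverPrime v →
    ∃ σ ∈ A.decompositionSubgroup ℚ, rbar σ ≠ 1
  cc : rbar complexConjugation ≠ 1

lemma ResT.permSmooth {T : Finset ℕ} (h : ResT T rbar) : PermSmooth (permV rbar) := by
  obtain ⟨L, hL, h1⟩ := h.lev
  exact ⟨L, hL, fun u hu => permV_eq_one (h1 u hu)⟩

lemma exists_mat (u w : Fin 2 → ZMod 2) (hu : u ≠ 0) (hw : w ≠ 0) :
    ∃ M : M2 (ZMod 2), M.det = 1 ∧ M *ᵥ u = w := by
  have key : ∀ u0 u1 w0 w1 : ZMod 2, (u0 ≠ 0 ∨ u1 ≠ 0) → (w0 ≠ 0 ∨ w1 ≠ 0) →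
      ∃ m0 m1 m2 m3 : ZMod 2, m0 * m3 - m1 * m2 = 1 ∧ m0 * u0 + m1 * u1 = w0 ∧
        m2 * u0 + m3 * u1 = w1 := by decide
  have h1 : ∀ u : Fin 2 → ZMod 2, u ≠ 0 → u 0 ≠ 0 ∨ u 1 ≠ 0 := by
    intro u hu
    by_contra hcon
    push Not at hcon
    exact hu (by
      funext i
      fin_cases i
      · exact hcon.1
      · exact hcon.2)
  obtain ⟨m0, m1, m2, m3, e1, e2, e3⟩ := key (u 0) (u 1) (w 0) (w 1) (h1 u hu) (h1 w hw)
  refine ⟨!![m0, m1; m2, m3], by rw [Matrix.det_fin_two_of]; exact e1, ?_⟩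
  funext i
  fin_cases i
  · simpa [Matrix.mulVec, dotProduct, Fin.sum_univ_two] using e2
  · simpa [Matrix.mulVec, dotProduct, Fin.sum_univ_two] using e3

lemma ResT.transitive {T : Finset ℕ} (h : ResT T rbar) (x y : NZ) :
    ∃ g, permV rbar g x = y := by
  obtain ⟨M, hM, h1⟩ := exists_mat x.1 y.1 x.2 y.2
  obtain ⟨σ, hσ⟩ := h.surj M hM
  refine ⟨σ, Subtype.ext ?_⟩
  rw [permV_apply, hσ, h1]

lemma SelCoc.lev {T : Finset ℕ} {e : GQ → Fin 2 → ZMod 2} (he : SelCoc T rbar e) :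
    ∃ L : IntermediateField ℚ (AlgebraicClosure ℚ), FiniteDimensional ℚ L ∧
      ∀ u : GQ, Fixes L u → e u = 0 := by
  obtain ⟨L, hL, h⟩ := he.smooth
  refine ⟨L, hL, fun u hu => ?_⟩
  have h1 := h 1 u hu
  rw [one_mul, IsVCoc.one he.coc] at h1
  exact h1

/-- The cup product of two Selmer cocycles is a sum of rational symbols. -/
lemma cup_mem_ratSub {T T₁ T₂ : Finset ℕ} (h : ResT T rbar) {e e' : GQ → Fin 2 → ZMod 2}
    (he : SelCoc T₁ rbar e) (he' : SelCoc T₂ rbar e') :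
    cup (permV rbar) (Sel.comp e) (Sel.comp e') ∈ ratSub := by
  have hlev : ∀ {T₃ : Finset ℕ} {f : GQ → Fin 2 → ZMod 2}, SelCoc T₃ rbar f →
      ∃ L : IntermediateField ℚ (AlgebraicClosure ℚ), FiniteDimensional ℚ L ∧
        ∀ u, Fixes L u → ∀ x, Sel.comp f u x = 0 := by
    intro T₃ f hf
    obtain ⟨L, hL, h1⟩ := hf.lev
    exact ⟨L, hL, fun u hu x => by rw [Sel.comp, h1 u hu]; simp [det2]⟩
  obtain ⟨α, hα, hα'⟩ := exists_datum_of_coc h.permSmooth h.transitive
    (IsVCoc.comp he.coc) (hlev he)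
  obtain ⟨β, hβ, hβ'⟩ := exists_datum_of_coc h.permSmooth h.transitive
    (IsVCoc.comp he'.coc) (hlev he')
  have := good_of_card card_NZ h.permSmooth h.transitive hα hβ
  rwa [Good, hα', hβ'] at this

/-- **The reciprocity step.** -/
theorem SelCoc.unr_of_insert (hWR : WR) {T : Finset ℕ} (h : ResT T rbar)
    {e e' : GQ → Fin 2 → ZMod 2} (he : SelCoc T rbar e) {q : ℕ} (hq : q.Prime) (hqT : q ∉ T)
    (he' : SelCoc (insert q T) rbar e') {A : ValuationSubring (AlgebraicClosure ℚ)}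
    (hA : A.LiesOverPrime q) {φ : GQ} (hφ : φ ∈ A.decompositionSubgroup ℚ)
    (hφe : rbar φ *ᵥ e φ ≠ e φ) (hφ1 : rbar φ ≠ 1) :
    ∀ σ ∈ A.inertiaSubgroupIn ℚ, e' σ = 0 := by
  have hq2 : q ≠ 2 := by
    rintro rfl
    exact hqT h.two
  set c := cup (permV rbar) (Sel.comp e) (Sel.comp e') with hc
  have hcdef : ∀ g k, c g k = det2 (e g) (rbar g *ᵥ e' k) := fun g k => cup_comp e e' g k
  have hzero : ∀ {D : Subgroup GQ}, (∀ g ∈ D, ∀ k ∈ D, c g k = 0) → Spl D c := by
    intro D h1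
    exact ⟨fun _ => 0, smoothFn_const 0, fun g hg k hk => by rw [h1 g hg k hk]; simp⟩
  have hspl : Spl (A.decompositionSubgroup ℚ) c := by
    refine hWR.of_ratSub (cup_mem_ratSub h he he') hq hq2 (fun v hv hvq => ?_) ?_ hA
    · obtain ⟨B, hB⟩ := Fermat.Agent.Frob.exists_liesOverPrime v hv
      refine ⟨B, hB, ?_⟩
      by_cases hvT : v ∈ T
      · obtain ⟨g₀, hg₀, hg₀1⟩ := h.ne v hvT B hB
        refine hzero fun g hg k hk => ?_
        rw [hcdef, he'.loc v (Finset.mem_insert_of_mem hvT) B hB k hk g hg]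
        exact det2_eq_zero hg₀1 (he.loc v hvT B hB g hg g₀ hg₀)
          (he'.loc v (Finset.mem_insert_of_mem hvT) B hB k hk g₀ hg₀)
      · have hvT' : v ∉ insert q T := by
          rw [Finset.mem_insert, not_or]
          exact ⟨hvq, hvT⟩
        obtain ⟨L, hL, h1⟩ := h.lev
        obtain ⟨L₁, hL₁, h2⟩ := he.lev
        obtain ⟨L₂, hL₂, h3⟩ := he'.lev
        refine spl_of_unram hv hB (IsVCoc.comp he.coc) (IsVCoc.comp he'.coc)
          ⟨L ⊔ (L₁ ⊔ L₂), ?_, fun u hu => ⟨?_, fun x => ⟨?_, ?_⟩⟩⟩ (fun σ hσ => ⟨?_, fun x => ⟨?_, ?_⟩⟩)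
        · have := IntermediateField.finiteDimensional_sup L₁ L₂
          exact IntermediateField.finiteDimensional_sup L (L₁ ⊔ L₂)
        · exact permV_eq_one (h1 u (hu.mono le_sup_left))
        · rw [Sel.comp, h2 u (hu.mono (le_sup_left.trans le_sup_right))]
          simp [det2]
        · rw [Sel.comp, h3 u (hu.mono (le_sup_right.trans le_sup_right))]
          simp [det2]
        · exact permV_eq_one (h.unr v hv hvT B hB σ hσ)
        · rw [Sel.comp, he.unr v hv hvT B hB σ hσ]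
          simp [det2]
        · rw [Sel.comp, he'.unr v hv hvT' B hB σ hσ]
          simp [det2]
    · -- complex conjugation
      have hcc : ∀ g ∈ Subgroup.zpowers complexConjugation, g = 1 ∨ g = complexConjugation := by
        rintro _ ⟨n, rfl⟩
        have h2 : complexConjugation ^ (2 : ℤ) = 1 := by
          rw [show (2 : ℤ) = ((2 : ℕ) : ℤ) from rfl, zpow_natCast, sq]
          exact complexConjugation_mul_self
        rcases Int.even_or_odd' n with ⟨m, rfl | rfl⟩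
        · left
          show complexConjugation ^ (2 * m) = 1
          rw [_root_.zpow_mul, h2, _root_.one_zpow]
        · right
          show complexConjugation ^ (2 * m + 1) = _
          rw [_root_.zpow_add, _root_.zpow_mul, h2, _root_.one_zpow, one_mul, zpow_one]
      have hfix : ∀ {f : GQ → Fin 2 → ZMod 2}, IsVCoc rbar f →
          ∀ g ∈ Subgroup.zpowers complexConjugation,
            rbar complexConjugation *ᵥ f g = f g := by
        intro f hf g hg
        rcases hcc g hg with rfl | rfl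
        · rw [hf.one, Matrix.mulVec_zero]
        · have h1 := hf complexConjugation complexConjugation
          have h2 : complexConjugation * complexConjugation = (1 : GQ) := complexConjugation_mul_self
          rw [h2, hf.one] at h1
          have h3 : ∀ a b : Fin 2 → ZMod 2, 0 = a + b → b = a := by decide
          exact h3 _ _ h1
      refine hzero fun g hg k hk => ?_
      rw [hcdef]
      have h1 : rbar complexConjugation *ᵥ (rbar g *ᵥ e' k) = rbar g *ᵥ e' k := by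
        rcases hcc g hg with rfl | rfl
        · rw [map_one, Matrix.one_mulVec]
          exact hfix he'.coc k hk
        · rw [hfix he'.coc k hk, hfix he'.coc k hk]
      exact det2_eq_zero h.cc (hfix he.coc g hg) h1
  -- now the place `A`
  have hloc := he'.loc q (Finset.mem_insert_self q T) A hA
  by_cases htriv : ∀ k ∈ A.decompositionSubgroup ℚ, e' k = 0
  · exact fun σ hσ => htriv σ (Fermat.Agent.TW.inertia_le_decomp hσ)
  push Not at htriv
  obtain ⟨k₀, hk₀, hk₀0⟩ := htriv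
  set w := e' k₀ with hw
  have hwfix : ∀ g ∈ A.decompositionSubgroup ℚ, rbar g *ᵥ w = w := fun g hg => hloc k₀ hk₀ g hg
  obtain ⟨w', hw'⟩ : ∃ w' : Fin 2 → ZMod 2, det2 w' w = 1 := by
    have key : ∀ w : Fin 2 → ZMod 2, w ≠ 0 → ∃ w', det2 w' w = 1 := by decide
    exact key w hk₀0
  have hline : ∀ k ∈ A.decompositionSubgroup ℚ, e' k = det2 w' (e' k) • w := by
    intro k hk
    have h1 : det2 (e' k) w = 0 := det2_eq_zero hφ1 (hloc k hk φ hφ) (hwfix φ hφ)
    have key : ∀ w w' a : Fin 2 → ZMod 2, det2 w' w = 1 → det2 a w = 0 → a = det2 w' a • w := by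
      decide
    exact key w w' _ hw' h1
  have h0 := unram_of_spl hq hq2 hA (n := fun g => det2 (e g) w) (x' := fun g => det2 w' (e' g))
    (fun g hg k hk => by
      show det2 (e (g * k)) w = det2 (e g) w + det2 (e k) w
      rw [he.coc, det2_add_left, ← det2_mulVec (rbar g) (det_eq_one g) (e k) w, hwfix g hg])
    (by
      obtain ⟨L, hL, h1⟩ := he.smooth
      exact ⟨L, hL, fun g u hu => by simp only [h1 g u hu]⟩)
    (fun σ hσ => by
      show det2 (e σ) w = 0
      rw [he.unr q hq hqT A hA σ hσ]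
      simp [det2]) hφ
    (by
      show det2 (e φ) w = 1
      have key : ∀ a w : Fin 2 → ZMod 2, w ≠ 0 → det2 a w ≠ 1 → a = 0 ∨ a = w := by decide
      by_contra hne
      rcases key _ _ hk₀0 hne with h1 | h1
      · apply hφe
        rw [h1, Matrix.mulVec_zero]
      · apply hφe
        rw [h1]
        exact hwfix φ hφ)
    (fun g hg k hk => by
      show det2 w' (e' (g * k)) = det2 w' (e' g) + det2 w' (e' k)
      rw [he'.coc, det2_add_right, hloc k hk g hg])
    (by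
      obtain ⟨s, hs, h1⟩ := hspl
      refine ⟨s, hs, fun g hg k hk => ?_⟩
      rw [← h1 g hg k hk, hcdef]
      show det2 (e g) w * det2 w' (e' k) = det2 (e g) (rbar g *ᵥ e' k)
      rw [hloc k hk g hg]
      conv_rhs => rw [hline k hk]
      simp only [det2, Pi.smul_apply, smul_eq_mul]
      ring)
  intro σ hσ
  rw [hline σ (Fermat.Agent.TW.inertia_le_decomp hσ)]
  have h1 : det2 w' (e' σ) = 0 := h0 σ hσ
  rw [h1, zero_smul]

end Fermat.Agent.LTF.Sel
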