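import Fermat.Agent.LTF.Sel.Defs
import Fermat.Agent.Frob.Density

set_option autoImplicit false

/-!
# Elementary Selmer groups (2): the trick of Rosset and Tate

Let `X` be a finite transitive `G_ℚ`-set with three elements.  For two "Kummer data" `α, β` on
`X` (equivariant up to signs) the cup product of the associated cocycles with values in
`Maps(X, ℤ/2)`, followed by the sum over `X`, is a sum of rational symbols.
-/

namespace Fermat.Agent.LTF.Sel

open Fermat.Agent.S53norm (GQ M2)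

lemma perm_inv {X : Type} (σ : Equiv.Perm X) (x : X) : σ (σ⁻¹ x) = x := by simp

section Data

variable {X : Type} (π : GQ →* Equiv.Perm X)

/-- `α²` is an equivariant function `X → ℚbarˣ`. -/
def IsDatum (α : X → AlgebraicClosure ℚ) : Prop :=
  (∀ x, α x ≠ 0) ∧ ∀ (g : GQ) x, g (α x ^ 2) = α (π g x) ^ 2

/-- Cocycles with values in `Maps(X, ℤ/2)`. -/
def IsCoc (f : GQ → X → ZMod 2) : Prop :=
  ∀ g h x, f (g * h) x = f g x + f h ((π g)⁻¹ x)

/-- The cocycle of a Kummer datum. -/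
noncomputable def kap (α : X → AlgebraicClosure ℚ) (g : GQ) (x : X) : ZMod 2 :=
  open Classical in if g (α ((π g)⁻¹ x)) = α x then 0 else 1

/-- The cup product of two cocycles with values in `Maps(X, ℤ/2)`, followed by the sum. -/
noncomputable def cup [Fintype X] (f f' : GQ → X → ZMod 2) (g h : GQ) : ZMod 2 :=
  ∑ x, f g x * f' h ((π g)⁻¹ x)

variable {π}

lemma IsDatum.sq_eq {α : X → AlgebraicClosure ℚ} (hα : IsDatum π α) (g : GQ) (x : X) :
    (g (α ((π g)⁻¹ x))) ^ 2 = α x ^ 2 := by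
  rw [← map_pow, hα.2, perm_inv]

lemma IsDatum.kap_spec {α : X → AlgebraicClosure ℚ} (hα : IsDatum π α) (g : GQ) (x : X) :
    g (α ((π g)⁻¹ x)) = sg (kap π α g x) * α x := by
  classical
  unfold kap
  split_ifs with h1
  · rw [h1, sg_zero, one_mul]
  · rw [sg_one]
    rcases sq_eq_sq_iff_eq_or_eq_neg.1 (hα.sq_eq g x) with h | h
    · exact absurd h h1
    · rw [h]; ring

lemma kap_unique {α : X → AlgebraicClosure ℚ} {g : GQ} {x : X} (hx : α x ≠ 0) {a : ZMod 2}
    (h : g (α ((π g)⁻¹ x)) = sg a * α x) : kap π α g x = a := by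
  classical
  unfold kap
  rcases zmod2_cases a with rfl | rfl
  · rw [if_pos (by rw [h]; simp)]
  · rw [if_neg]
    intro h1
    rw [h1, sg_one, neg_one_mul] at h
    exact hx (self_eq_neg.1 h)

lemma IsDatum.isCoc {α : X → AlgebraicClosure ℚ} (hα : IsDatum π α) : IsCoc π (kap π α) := by
  intro g h x
  apply kap_unique (hα.1 x)
  rw [map_mul, mul_inv_rev, Equiv.Perm.mul_apply, AlgEquiv.mul_apply, hα.kap_spec, map_mul,
    map_sg, hα.kap_spec, ← mul_assoc, ← sg_add, add_comm]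

lemma IsDatum.mul {α β : X → AlgebraicClosure ℚ} (hα : IsDatum π α) (hβ : IsDatum π β) :
    IsDatum π (α * β) :=
  ⟨fun x => mul_ne_zero (hα.1 x) (hβ.1 x), fun g x => by
    simp only [Pi.mul_apply, mul_pow, map_mul, hα.2, hβ.2]⟩

lemma IsDatum.inv {α : X → AlgebraicClosure ℚ} (hα : IsDatum π α) : IsDatum π (α⁻¹) :=
  ⟨fun x => inv_ne_zero (hα.1 x), fun g x => by
    simp only [Pi.inv_apply, inv_pow, map_inv₀, hα.2]⟩

lemma kap_mul {α β : X → AlgebraicClosure ℚ} (hα : IsDatum π α) (hβ : IsDatum π β) (g : GQ)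
    (x : X) : kap π (α * β) g x = kap π α g x + kap π β g x := by
  apply kap_unique ((hα.mul hβ).1 x)
  rw [Pi.mul_apply, Pi.mul_apply, map_mul, hα.kap_spec, hβ.kap_spec, sg_add]
  ring

lemma kap_inv {α : X → AlgebraicClosure ℚ} (hα : IsDatum π α) (g : GQ) (x : X) :
    kap π (α⁻¹) g x = kap π α g x := by
  apply kap_unique (hα.inv.1 x)
  rw [Pi.inv_apply, Pi.inv_apply, map_inv₀, hα.kap_spec, mul_inv, sg_inv]

lemma IsDatum.const {c : AlgebraicClosure ℚ} (hc : RatSq c) : IsDatum π (fun _ : X => c) :=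
  ⟨fun _ => hc.1, fun g x => by rw [map_pow, hc.map_sq]⟩

lemma kap_const {c : AlgebraicClosure ℚ} (hc : RatSq c) (g : GQ) (x : X) :
    kap π (fun _ => c) g x = kum c g := by
  apply kap_unique hc.1
  exact kum_spec (hc.map_sq g)

lemma IsDatum.of_sq_eq {α β : X → AlgebraicClosure ℚ} (hα : IsDatum π α)
    (h : ∀ x, β x ^ 2 = α x ^ 2) : IsDatum π β :=
  ⟨fun x h1 => by
    have h2 := h x
    rw [h1, zero_pow two_ne_zero] at h2
    exact hα.1 x (pow_eq_zero_iff two_ne_zero |>.1 h2.symm),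
   fun g x => by rw [h, h, hα.2]⟩

lemma exists_datum_sq {z : X → AlgebraicClosure ℚ} (hz : ∀ x, z x ≠ 0)
    (hz' : ∀ (g : GQ) x, g (z x) = z (π g x)) :
    ∃ α : X → AlgebraicClosure ℚ, IsDatum π α ∧ ∀ x, α x ^ 2 = z x := by
  choose α hα using fun x => IsAlgClosed.exists_pow_nat_eq (z x) (n := 2) two_pos
  refine ⟨α, ⟨fun x h => hz x ?_, fun g x => ?_⟩, hα⟩
  · rw [← hα, h, zero_pow two_ne_zero]
  · rw [hα, hα, hz']

lemma IsCoc.one {f : GQ → X → ZMod 2} (hf : IsCoc π f) (x : X) : f 1 x = 0 := by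
  have := hf 1 1 x
  rw [mul_one, map_one, inv_one, Equiv.Perm.one_apply] at this
  exact left_eq_add.1 this

lemma smoothFn_of_isCoc {f : GQ → X → ZMod 2} (hf : IsCoc π f)
    (h : ∃ L : IntermediateField ℚ (AlgebraicClosure ℚ), FiniteDimensional ℚ L ∧
      ∀ u, Fixes L u → ∀ x, f u x = 0) : SmoothFn f := by
  obtain ⟨L, hL, h⟩ := h
  refine ⟨L, hL, fun g u hu => ?_⟩
  funext x
  rw [hf, h u hu, add_zero]

/-- A finite set of elements is contained in a finite extension. -/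
lemma exists_finite_level {ι : Type} [Finite ι] (a : ι → AlgebraicClosure ℚ) :
    ∃ L : IntermediateField ℚ (AlgebraicClosure ℚ), FiniteDimensional ℚ L ∧ ∀ i, a i ∈ L := by
  refine ⟨IntermediateField.adjoin ℚ (Set.range a), ?_, fun i =>
    IntermediateField.subset_adjoin ℚ _ ⟨i, rfl⟩⟩
  have : Finite (Set.range a) := Set.finite_range a
  exact IntermediateField.finiteDimensional_adjoin fun x _ => Algebra.IsIntegral.isIntegral x

variable (π) in
/-- `π` is smooth. -/
def PermSmooth : Prop :=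
  ∃ L : IntermediateField ℚ (AlgebraicClosure ℚ), FiniteDimensional ℚ L ∧
    ∀ u : GQ, Fixes L u → π u = 1

lemma IsDatum.smooth [Finite X] (hπ : PermSmooth π) {α : X → AlgebraicClosure ℚ}
    (hα : IsDatum π α) : SmoothFn (kap π α) := by
  obtain ⟨L, hL, h⟩ := hπ
  obtain ⟨L', hL', h'⟩ := exists_finite_level α
  refine smoothFn_of_isCoc hα.isCoc ⟨L ⊔ L', IntermediateField.finiteDimensional_sup L L',
    fun u hu x => ?_⟩
  apply kap_unique (hα.1 x)
  rw [h u (hu.mono le_sup_left), inv_one, Equiv.Perm.one_apply, sg_zero, one_mul]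
  exact hu _ ((le_sup_right : L' ≤ L ⊔ L') (h' x))

end Data

section Cup

variable {X : Type} [Fintype X] {π : GQ →* Equiv.Perm X}

lemma sum_perm (σ : Equiv.Perm X) (F : X → ZMod 2) : ∑ x, F (σ⁻¹ x) = ∑ x, F x :=
  Equiv.sum_comp (σ⁻¹) F

lemma cup_add_left (f₁ f₂ f' : GQ → X → ZMod 2) :
    cup π (f₁ + f₂) f' = cup π f₁ f' + cup π f₂ f' := by
  funext g h
  simp only [cup, Pi.add_apply, add_mul, Finset.sum_add_distrib]

lemma cup_add_right (f f₁ f₂ : GQ → X → ZMod 2) :
    cup π f (f₁ + f₂) = cup π f f₁ + cup π f f₂ := by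
  funext g h
  simp only [cup, Pi.add_apply, mul_add, Finset.sum_add_distrib]

lemma smoothFn_sum {f : GQ → X → ZMod 2} (hf : SmoothFn f) (F : X → ZMod 2 → ZMod 2) :
    SmoothFn (fun g => ∑ x, F x (f g x)) := by
  obtain ⟨L, hL, h⟩ := hf
  exact ⟨L, hL, fun g u hu => by simp only [h g u hu]⟩

/-- The cup product is symmetric up to split cochains. -/
lemma cup_symm {f f' : GQ → X → ZMod 2} (hf : IsCoc π f) (hf' : IsCoc π f')
    (hs : SmoothFn f) (hs' : SmoothFn f') : cup π f f' + cup π f' f ∈ splSub ⊤ := by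
  refine ⟨fun g => ∑ x, f g x * f' g x, ?_, fun g _ h _ => ?_⟩
  · have := smoothFn_comp2 hs hs' (fun a b : X → ZMod 2 => ∑ x, a x * b x)
    exact this
  · have h1 : ∑ x, f h x * f' h x = ∑ x, f h ((π g)⁻¹ x) * f' h ((π g)⁻¹ x) :=
      (sum_perm (π g) (fun x => f h x * f' h x)).symm
    show (∑ x, f g x * f' h ((π g)⁻¹ x)) + (∑ x, f' g x * f h ((π g)⁻¹ x)) =
      (∑ x, f g x * f' g x) + (∑ x, f h x * f' h x) + ∑ x, f (g * h) x * f' (g * h) x
    rw [h1, ← Finset.sum_add_distrib, ← Finset.sum_add_distrib, ← Finset.sum_add_distrib]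
    refine Finset.sum_congr rfl fun x _ => ?_
    rw [hf g h, hf' g h]
    generalize f g x = a
    generalize f' g x = b
    generalize f h ((π g)⁻¹ x) = c
    generalize f' h ((π g)⁻¹ x) = d
    revert a b c d
    decide

/-- Changing the signs of a Kummer datum changes the cup product by a split cochain. -/
lemma cup_sign {α α' : X → AlgebraicClosure ℚ} (hα : IsDatum π α) (hα' : IsDatum π α')
    (h : ∀ x, α x ^ 2 = α' x ^ 2) {f : GQ → X → ZMod 2} (hf : IsCoc π f) (hs : SmoothFn f) :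
    cup π (kap π α) f + cup π (kap π α') f ∈ splSub ⊤ := by
  choose ε hε using fun x => exists_sg_of_sq_eq (h x)
  have h1 : ∀ g x, kap π α g x = kap π α' g x + (ε x + ε ((π g)⁻¹ x)) := by
    intro g x
    apply kap_unique (hα.1 x)
    rw [hε ((π g)⁻¹ x), map_mul, map_sg, hα'.kap_spec, hε x, sg_add, sg_add]
    have h2 := sg_mul_self (ε x)
    linear_combination (-(sg (ε ((π g)⁻¹ x)) * sg (kap π α' g x) * α' x)) * h2
  refine ⟨fun g => ∑ x, ε x * f g x, smoothFn_sum hs (fun x a => ε x * a), fun g _ k _ => ?_⟩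
  have h2 : ∑ x, ε x * f k x = ∑ x, ε ((π g)⁻¹ x) * f k ((π g)⁻¹ x) :=
    (sum_perm (π g) (fun x => ε x * f k x)).symm
  show (∑ x, kap π α g x * f k ((π g)⁻¹ x)) + (∑ x, kap π α' g x * f k ((π g)⁻¹ x)) =
    (∑ x, ε x * f g x) + (∑ x, ε x * f k x) + ∑ x, ε x * f (g * k) x
  rw [h2, ← Finset.sum_add_distrib, ← Finset.sum_add_distrib, ← Finset.sum_add_distrib]
  refine Finset.sum_congr rfl fun x _ => ?_
  rw [h1, hf g k]
  generalize f g x = a
  generalize kap π α' g x = b
  generalize f k ((π g)⁻¹ x) = c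
  generalize ε x = d
  generalize ε ((π g)⁻¹ x) = e
  revert a b c d e
  decide

lemma prod_sq_fixed {α : X → AlgebraicClosure ℚ} (hα : IsDatum π α) : RatSq (∏ x, α x) := by
  refine ⟨Finset.prod_ne_zero_iff.2 fun x _ => hα.1 x, ?_⟩
  have h1 : ∀ g : GQ, g ((∏ x, α x) ^ 2) = (∏ x, α x) ^ 2 := by
    intro g
    rw [← Finset.prod_pow, map_prod]
    simp only [hα.2]
    exact Equiv.prod_comp (π g) (fun x => α x ^ 2)
  have h2 : (∏ x, α x) ^ 2 ∈ (⊥ : IntermediateField ℚ (AlgebraicClosure ℚ)) :=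
    (InfiniteGalois.mem_bot_iff_fixed _).2 h1
  obtain ⟨a, ha⟩ := IntermediateField.mem_bot.1 h2
  exact ⟨a, ha.symm⟩

/-- The projection formula. -/
lemma cup_const {c : AlgebraicClosure ℚ} (hc : RatSq c) {β : X → AlgebraicClosure ℚ}
    (hβ : IsDatum π β) :
    cup π (kap π (fun _ => c)) (kap π β) = fun g h => kum c g * kum (∏ x, β x) h := by
  funext g h
  show ∑ x, kap π (fun _ => c) g x * kap π β h ((π g)⁻¹ x) = _
  simp only [kap_const hc]
  rw [← Finset.mul_sum, sum_perm (π g) (fun x => kap π β h x)]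
  congr 1
  refine (kum_unique (prod_sq_fixed hβ).1 ?_).symm
  rw [sg_sum, ← Finset.prod_mul_distrib, map_prod]
  rw [← Equiv.prod_comp (π h)⁻¹ (fun x => h (β x))]
  exact Finset.prod_congr rfl fun x _ => hβ.kap_spec h x

lemma cup_const_mem {c : AlgebraicClosure ℚ} (hc : RatSq c) {β : X → AlgebraicClosure ℚ}
    (hβ : IsDatum π β) : cup π (kap π (fun _ => c)) (kap π β) ∈ ratSub := by
  rw [cup_const hc hβ]
  exact symb_mem_ratSub hc (prod_sq_fixed hβ)

/-- The Steinberg relation. -/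
lemma cup_steinberg' (hπ : PermSmooth π) {α β : X → AlgebraicClosure ℚ} (hα : IsDatum π α)
    (hβ : IsDatum π β) (h : ∀ x, α x ^ 2 + β x ^ 2 = 1) :
    cup π (kap π β) (kap π α) ∈ splSub ⊤ := by
  classical
  choose γ hγ using fun x => IsAlgClosed.exists_pow_nat_eq (1 - α x) (n := 2) two_pos
  have hγ0 : ∀ x, γ x ≠ 0 := by
    intro x hx
    have h1 := hγ x
    rw [hx, zero_pow two_ne_zero] at h1
    have h2 := h x
    rw [← sub_eq_zero.1 h1.symm, one_pow] at h2
    exact hβ.1 x (pow_eq_zero_iff two_ne_zero |>.1 (by linear_combination h2))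
  set γ' : X → AlgebraicClosure ℚ := fun x => β x / γ x with hγ'
  have hγ'2 : ∀ x, γ' x ^ 2 = 1 + α x := by
    intro x
    have h1 : γ x ^ 2 ≠ 0 := pow_ne_zero 2 (hγ0 x)
    rw [hγ', div_pow, div_eq_iff h1, hγ]
    linear_combination h x
  have hγ'0 : ∀ x, γ' x ≠ 0 := fun x => div_ne_zero (hβ.1 x) (hγ0 x)
  let δ : ZMod 2 → X → AlgebraicClosure ℚ := fun a x => if a = 0 then γ x else γ' x
  have hδ0 : ∀ a x, δ a x ≠ 0 := by
    intro a x
    show (if a = 0 then γ x else γ' x) ≠ 0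
    split_ifs
    · exact hγ0 x
    · exact hγ'0 x
  have hex : ∀ g x, ∃ b : ZMod 2, g (γ ((π g)⁻¹ x)) = sg b * δ (kap π α g x) x := by
    intro g x
    apply exists_sg_of_sq_eq
    rw [← map_pow, hγ, map_sub, map_one, hα.kap_spec]
    rcases zmod2_cases (kap π α g x) with h1 | h1
    · rw [h1]
      show _ = (if (0 : ZMod 2) = 0 then γ x else γ' x) ^ 2
      rw [if_pos rfl, sg_zero, hγ]
      ring
    · rw [h1]
      show _ = (if (1 : ZMod 2) = 0 then γ x else γ' x) ^ 2
      rw [if_neg (by decide), sg_one, hγ'2]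
      ring
  choose b hb using hex
  have hb' : ∀ g x, g (γ' ((π g)⁻¹ x)) = sg (b g x + kap π β g x) * δ (kap π α g x + 1) x := by
    intro g x
    show g (β ((π g)⁻¹ x) / γ ((π g)⁻¹ x)) = _
    rw [map_div₀, hβ.kap_spec, hb, sg_add]
    have h3 : β x = γ x * γ' x := by
      rw [hγ', mul_div_cancel₀ _ (hγ0 x)]
    have h4 : δ (kap π α g x) x * δ (kap π α g x + 1) x = β x := by
      rcases zmod2_cases (kap π α g x) with h1 | h1
      · rw [h1]
        show (if (0 : ZMod 2) = 0 then γ x else γ' x) * (if (0 + 1 : ZMod 2) = 0 then γ x else γ' x)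
          = _
        rw [if_pos rfl, if_neg (by decide), h3]
      · rw [h1]
        show (if (1 : ZMod 2) = 0 then γ x else γ' x) * (if (1 + 1 : ZMod 2) = 0 then γ x else γ' x)
          = _
        rw [if_neg (by decide), if_pos (by decide), h3, mul_comm]
    rw [div_eq_iff (mul_ne_zero (sg_ne_zero _) (hδ0 _ _)), ← h4]
    have h5 := sg_mul_self (b g x)
    linear_combination (-(sg (kap π β g x) * δ (kap π α g x) x * δ (kap π α g x + 1) x)) * h5
  have key : ∀ g k x, b (g * k) x =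
      b g x + b k ((π g)⁻¹ x) + kap π β g x * kap π α k ((π g)⁻¹ x) := by
    intro g k x
    have h1 : (g * k) (γ ((π (g * k))⁻¹ x)) = sg (b (g * k) x) * δ (kap π α (g * k) x) x :=
      hb (g * k) x
    rw [map_mul, mul_inv_rev, Equiv.Perm.mul_apply, AlgEquiv.mul_apply, hb k, map_mul, map_sg,
      hα.isCoc g k x] at h1
    rcases zmod2_cases (kap π α k ((π g)⁻¹ x)) with h2 | h2
    · rw [h2, add_zero] at h1
      have h3 : g (δ 0 ((π g)⁻¹ x)) = sg (b g x) * δ (kap π α g x) x := hb g x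
      rw [h3, ← mul_assoc, ← sg_add] at h1
      have h4 := eq_of_sg_mul_eq (hδ0 _ _) h1
      rw [h2, mul_zero, add_zero, ← h4, add_comm]
    · rw [h2] at h1
      have h3 : g (δ 1 ((π g)⁻¹ x)) = sg (b g x + kap π β g x) * δ (kap π α g x + 1) x := hb' g x
      rw [h3, ← mul_assoc, ← sg_add] at h1
      have h4 := eq_of_sg_mul_eq (hδ0 _ _) h1
      rw [h2, mul_one, ← h4]
      ring
  refine ⟨fun g => ∑ x, b g x, ?_, fun g _ k _ => ?_⟩
  · obtain ⟨L, hL, h1⟩ := hπ
    obtain ⟨L₁, hL₁, h2⟩ := exists_finite_level α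
    obtain ⟨L₂, hL₂, h3⟩ := exists_finite_level γ
    refine ⟨L ⊔ (L₁ ⊔ L₂), ?_, fun g u hu => ?_⟩
    · have := IntermediateField.finiteDimensional_sup L₁ L₂
      exact IntermediateField.finiteDimensional_sup L (L₁ ⊔ L₂)
    · have hπu : π u = 1 := h1 u (hu.mono le_sup_left)
      have hαu : ∀ x, kap π α u x = 0 := by
        intro x
        apply kap_unique (hα.1 x)
        rw [hπu, inv_one, Equiv.Perm.one_apply, sg_zero, one_mul]
        exact hu _ ((le_sup_left.trans le_sup_right : L₁ ≤ L ⊔ (L₁ ⊔ L₂)) (h2 x))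
      have hbu : ∀ x, b u x = 0 := by
        intro x
        have h4 := hb u x
        rw [hπu, inv_one, Equiv.Perm.one_apply, hαu] at h4
        have h5 : u (γ x) = γ x :=
          hu _ ((le_sup_right.trans le_sup_right : L₂ ≤ L ⊔ (L₁ ⊔ L₂)) (h3 x))
        rw [h5] at h4
        have h6 : γ x = sg (b u x) * γ x := h4
        exact (eq_of_sg_mul_eq (hγ0 x) (by rw [sg_zero, one_mul]; exact h6)).symm
      refine Finset.sum_congr rfl fun x _ => ?_
      rw [key, hbu, hαu]
      simp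
  · show ∑ x, kap π β g x * kap π α k ((π g)⁻¹ x) = _
    have h2 : ∑ x, b k x = ∑ x, b k ((π g)⁻¹ x) := (sum_perm (π g) (fun x => b k x)).symm
    show _ = (∑ x, b g x) + (∑ x, b k x) + ∑ x, b (g * k) x
    rw [h2, ← Finset.sum_add_distrib, ← Finset.sum_add_distrib]
    refine Finset.sum_congr rfl fun x _ => ?_
    rw [key]
    generalize b g x = a
    generalize b k ((π g)⁻¹ x) = a'
    generalize kap π β g x * kap π α k ((π g)⁻¹ x) = a''
    revert a a' a''
    decide

lemma cup_steinberg (hπ : PermSmooth π) {α β : X → AlgebraicClosure ℚ} (hα : IsDatum π α)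
    (hβ : IsDatum π β) (h : ∀ x, α x ^ 2 + β x ^ 2 = 1) :
    cup π (kap π α) (kap π β) ∈ splSub ⊤ :=
  cup_steinberg' hπ hβ hα fun x => by rw [add_comm, h]

end Cup

end Fermat.Agent.LTF.Sel
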