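import Fermat.Agent.LTF.Sel.Rosset

set_option autoImplicit false

/-!
# Elementary Selmer groups (3): the trick of Rosset and Tate, conclusion
-/

namespace Fermat.Agent.LTF.Sel

open Fermat.Agent.S53norm (GQ M2)

variable {X : Type} {π : GQ →* Equiv.Perm X}

/-- Equivariant functions. -/
def IsEquiv (π : GQ →* Equiv.Perm X) (z : X → AlgebraicClosure ℚ) : Prop :=
  ∀ (g : GQ) x, g (z x) = z (π g x)

lemma IsEquiv.eq_of_eq (htr : ∀ x y : X, ∃ g, π g x = y) {z w : X → AlgebraicClosure ℚ}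
    (hz : IsEquiv π z) (hw : IsEquiv π w) {x : X} (h : z x = w x) : z = w := by
  funext y
  obtain ⟨g, rfl⟩ := htr x y
  rw [← hz g x, ← hw g x, h]

/-- The `ℚ`-space of equivariant functions. -/
def EqSub (π : GQ →* Equiv.Perm X) : Submodule ℚ (X → AlgebraicClosure ℚ) where
  carrier := {z | IsEquiv π z}
  add_mem' := fun {z w} hz hw g x => by
    rw [Pi.add_apply, map_add, hz, hw]; rfl
  zero_mem' := fun g x => by simp
  smul_mem' := fun a z hz g x => by
    rw [Pi.smul_apply, Pi.smul_apply, map_rat_smul, hz g x]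

lemma mem_EqSub {z : X → AlgebraicClosure ℚ} : z ∈ EqSub π ↔ IsEquiv π z := Iff.rfl

/-- The stabiliser of a point. -/
def stab (π : GQ →* Equiv.Perm X) (x : X) : Subgroup GQ where
  carrier := {g | π g x = x}
  mul_mem' := fun {g h} hg hh => by
    show π (g * h) x = x
    rw [map_mul, Equiv.Perm.mul_apply, show π h x = x from hh, show π g x = x from hg]
  one_mem' := by simp
  inv_mem' := fun {g} hg => by
    show π g⁻¹ x = x
    rw [map_inv, Equiv.Perm.inv_eq_iff_eq]
    exact (show π g x = x from hg).symm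

lemma mem_stab {x : X} {g : GQ} : g ∈ stab π x ↔ π g x = x := Iff.rfl

lemma isOpen_of_level {D : Subgroup GQ} (h : ∃ L : IntermediateField ℚ (AlgebraicClosure ℚ),
    FiniteDimensional ℚ L ∧ ∀ u : GQ, Fixes L u → u ∈ D) : IsOpen (D : Set GQ) := by
  obtain ⟨L, hL, h⟩ := h
  exact Subgroup.isOpen_mono (H₁ := L.fixingSubgroup) (fun u hu => h u fun x hx => hu ⟨x, hx⟩)
    (IntermediateField.fixingSubgroup_isOpen L)

lemma fixingSubgroup_fixedField_of_level {D : Subgroup GQ}
    (h : ∃ L : IntermediateField ℚ (AlgebraicClosure ℚ),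
      FiniteDimensional ℚ L ∧ ∀ u : GQ, Fixes L u → u ∈ D) :
    (IntermediateField.fixedField D).fixingSubgroup = D := by
  have h1 : IsClosed (D : Set GQ) := Subgroup.isClosed_of_isOpen D (isOpen_of_level h)
  exact InfiniteGalois.fixingSubgroup_fixedField (⟨D, h1⟩ : ClosedSubgroup GQ)

lemma index_stab (htr : ∀ x y : X, ∃ g, π g x = y) (x : X) : (stab π x).index = Nat.card X := by
  let _ : MulAction GQ X := MulAction.compHom X π
  have h1 : stab π x = MulAction.stabilizer GQ x := by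
    ext g
    exact Iff.rfl
  have : MulAction.IsPretransitive GQ X := ⟨fun x y => htr x y⟩
  rw [h1, MulAction.index_stabilizer_of_transitive]

lemma finrank_EqSub_le [Finite X] (hπ : PermSmooth π) (htr : ∀ x y : X, ∃ g, π g x = y) (x : X) :
    Module.Finite ℚ (EqSub π) ∧ Module.finrank ℚ (EqSub π) ≤ Nat.card X := by
  set F := IntermediateField.fixedField (stab π x) with hF
  have hlev : ∃ L : IntermediateField ℚ (AlgebraicClosure ℚ),
      FiniteDimensional ℚ L ∧ ∀ u : GQ, Fixes L u → u ∈ stab π x := by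
    obtain ⟨L, hL, h⟩ := hπ
    exact ⟨L, hL, fun u hu => by rw [mem_stab, h u hu]; rfl⟩
  have h1 : Module.finrank ℚ F = Nat.card X := by
    rw [IntermediateField.finrank_eq_fixingSubgroup_index, hF,
      fixingSubgroup_fixedField_of_level hlev, index_stab htr]
  have hX : 0 < Nat.card X := Nat.card_pos_iff.2 ⟨⟨x⟩, inferInstance⟩
  have hfin : FiniteDimensional ℚ F := FiniteDimensional.of_finrank_pos (by omega)
  let ev : EqSub π →ₗ[ℚ] F :=
    { toFun := fun z => ⟨z.1 x, fun g => by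
        have h2 : (g : GQ) (z.1 x) = z.1 (π g x) := z.2 g x
        have h3 : π (g : GQ) x = x := g.2
        show (g : GQ) (z.1 x) = z.1 x
        rw [h2, h3]⟩
      map_add' := fun z w => rfl
      map_smul' := fun a z => rfl }
  have hinj : Function.Injective ev := fun z w h =>
    Subtype.ext (z.2.eq_of_eq htr w.2 (x := x) (congrArg Subtype.val h))
  have h2 : Module.Finite ℚ (EqSub π) := Module.Finite.of_injective ev hinj
  exact ⟨h2, h1 ▸ LinearMap.finrank_le_finrank_of_injective hinj⟩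

lemma isEquiv_const (a : ℚ) : IsEquiv π (fun _ : X => algebraMap ℚ (AlgebraicClosure ℚ) a) :=
  fun g x => AlgEquiv.commutes g a

lemma IsEquiv.mul {z w : X → AlgebraicClosure ℚ} (hz : IsEquiv π z) (hw : IsEquiv π w) :
    IsEquiv π (fun x => z x * w x) := fun g x => by rw [map_mul, hz, hw]

lemma IsDatum.isEquiv {α : X → AlgebraicClosure ℚ} (hα : IsDatum π α) :
    IsEquiv π (fun x => α x ^ 2) := hα.2

/-- Any two equivariant functions on a set with three elements are related by a homography. -/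
lemma exists_relation (hcard : Nat.card X = 3) (hπ : PermSmooth π)
    (htr : ∀ x y : X, ∃ g, π g x = y) {z w : X → AlgebraicClosure ℚ} (hz : IsEquiv π z)
    (hw : IsEquiv π w) : ∃ r : Fin 4 → ℚ, r ≠ 0 ∧ ∀ x,
      (r 0 : AlgebraicClosure ℚ) + r 1 * z x + r 2 * w x + r 3 * (z x * w x) = 0 := by
  have hfin : Finite X := Nat.finite_of_card_ne_zero (by omega)
  obtain ⟨x₀⟩ : Nonempty X := by
    rw [← Finite.card_pos_iff]; omega
  obtain ⟨h1, h2⟩ := finrank_EqSub_le hπ htr x₀
  let v : Fin 4 → EqSub π := ![⟨_, isEquiv_const (π := π) 1⟩, ⟨z, hz⟩, ⟨w, hw⟩, ⟨_, hz.mul hw⟩]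
  have h3 : ¬ LinearIndependent ℚ v := by
    intro h
    have := h.fintype_card_le_finrank
    rw [Fintype.card_fin] at this
    omega
  rw [Fintype.not_linearIndependent_iff] at h3
  obtain ⟨r, hr, i, hi⟩ := h3
  refine ⟨r, fun h => hi (by rw [h]; rfl), fun x => ?_⟩
  have h4 := congrArg (fun f : EqSub π => f.1 x) hr
  simp only [Fin.sum_univ_four] at h4
  have h5 : (r 0 • (v 0).1 x + r 1 • (v 1).1 x + r 2 • (v 2).1 x + r 3 • (v 3).1 x :
    AlgebraicClosure ℚ) = 0 := h4
  have e0 : (v 0).1 x = 1 := by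
    show algebraMap ℚ (AlgebraicClosure ℚ) 1 = 1
    rw [map_one]
  have e1 : (v 1).1 x = z x := rfl
  have e2 : (v 2).1 x = w x := rfl
  have e3 : (v 3).1 x = z x * w x := rfl
  rw [e0, e1, e2, e3] at h5
  simp only [Rat.smul_def, mul_one] at h5
  exact h5

lemma exists_ratSq {a : ℚ} (ha : a ≠ 0) :
    ∃ c : AlgebraicClosure ℚ, RatSq c ∧ c ^ 2 = (a : AlgebraicClosure ℚ) := by
  obtain ⟨c, hc⟩ := IsAlgClosed.exists_pow_nat_eq (a : AlgebraicClosure ℚ) (n := 2) two_pos
  refine ⟨c, ⟨?_, a, hc⟩, hc⟩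
  rintro rfl
  rw [zero_pow two_ne_zero] at hc
  exact ha (by exact_mod_cast hc.symm)

section Symbols

variable [Fintype X]

/-- The relation "the cup product of the two data is a sum of rational symbols". -/
def Good (π : GQ →* Equiv.Perm X) (α β : X → AlgebraicClosure ℚ) : Prop :=
  cup π (kap π α) (kap π β) ∈ ratSub

lemma Good.symm (hπ : PermSmooth π) {α β : X → AlgebraicClosure ℚ} (hα : IsDatum π α)
    (hβ : IsDatum π β) (h : Good π α β) : Good π β α := by
  have h1 := splSub_le_ratSub (cup_symm hβ.isCoc hα.isCoc (hβ.smooth hπ) (hα.smooth hπ))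
  have h2 := ratSub.sub_mem h1 h
  rwa [add_sub_cancel_right] at h2

lemma Good.of_sq_left (hπ : PermSmooth π) {α α' β : X → AlgebraicClosure ℚ} (hα : IsDatum π α)
    (hα' : IsDatum π α') (hβ : IsDatum π β) (h : ∀ x, α x ^ 2 = α' x ^ 2) (h' : Good π α' β) :
    Good π α β := by
  have h1 := splSub_le_ratSub (cup_sign hα hα' h hβ.isCoc (hβ.smooth hπ))
  have h2 := ratSub.sub_mem h1 h'
  rwa [add_sub_cancel_right] at h2

lemma Good.of_sq_right (hπ : PermSmooth π) {α β β' : X → AlgebraicClosure ℚ} (hα : IsDatum π α)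
    (hβ : IsDatum π β) (hβ' : IsDatum π β') (h : ∀ x, β x ^ 2 = β' x ^ 2) (h' : Good π α β') :
    Good π α β :=
  (Good.of_sq_left hπ hβ hβ' hα h (h'.symm hπ hα hβ')).symm hπ hβ hα

omit [Fintype X] in
lemma kap_mul_fun {α β : X → AlgebraicClosure ℚ} (hα : IsDatum π α) (hβ : IsDatum π β) :
    kap π (α * β) = kap π α + kap π β := by
  funext g x
  exact kap_mul hα hβ g x

omit [Fintype X] in
lemma kap_inv_fun {α : X → AlgebraicClosure ℚ} (hα : IsDatum π α) :
    kap π (α⁻¹) = kap π α := by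
  funext g x
  exact kap_inv hα g x

lemma Good.mul_left {α α' β : X → AlgebraicClosure ℚ} (hα : IsDatum π α)
    (hα' : IsDatum π α') (h : Good π α β) (h' : Good π α' β) : Good π (α * α') β := by
  rw [Good, kap_mul_fun hα hα', cup_add_left]
  exact ratSub.add_mem h h'

lemma Good.mul_right {α β β' : X → AlgebraicClosure ℚ} (hβ : IsDatum π β)
    (hβ' : IsDatum π β') (h : Good π α β) (h' : Good π α β') : Good π α (β * β') := by
  rw [Good, kap_mul_fun hβ hβ', cup_add_right]
  exact ratSub.add_mem h h'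

lemma Good.of_mul_left {α α' β : X → AlgebraicClosure ℚ} (hα : IsDatum π α)
    (hα' : IsDatum π α') (h : Good π (α * α') β) (h' : Good π α β) : Good π α' β := by
  rw [Good, kap_mul_fun hα hα', cup_add_left] at h
  have := ratSub.sub_mem h h'
  rwa [add_sub_cancel_left] at this

lemma Good.inv_left {α β : X → AlgebraicClosure ℚ} (hα : IsDatum π α) (h : Good π (α⁻¹) β) :
    Good π α β := by
  rwa [Good, kap_inv_fun hα] at h

lemma Good.inv_right {α β : X → AlgebraicClosure ℚ} (hβ : IsDatum π β) (h : Good π α β) :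
    Good π α (β⁻¹) := by
  rwa [Good, kap_inv_fun hβ]

lemma Good.const_left {c : AlgebraicClosure ℚ} (hc : RatSq c) {β : X → AlgebraicClosure ℚ}
    (hβ : IsDatum π β) : Good π (fun _ => c) β := cup_const_mem hc hβ

lemma Good.const_right (hπ : PermSmooth π) {c : AlgebraicClosure ℚ} (hc : RatSq c)
    {β : X → AlgebraicClosure ℚ} (hβ : IsDatum π β) : Good π β (fun _ => c) :=
  (Good.const_left hc hβ).symm hπ (IsDatum.const hc) hβ

lemma Good.steinberg (hπ : PermSmooth π) {α β : X → AlgebraicClosure ℚ} (hα : IsDatum π α)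
    (hβ : IsDatum π β) (h : ∀ x, α x ^ 2 + β x ^ 2 = 1) : Good π α β :=
  splSub_le_ratSub (cup_steinberg hπ hα hβ h)

/-- `{z, -z}` is good. -/
lemma Good.neg_self (hπ : PermSmooth π) {α β : X → AlgebraicClosure ℚ} (hα : IsDatum π α)
    (hβ : IsDatum π β) (h : ∀ x, β x ^ 2 = - α x ^ 2) (h1 : ∀ x, α x ^ 2 ≠ 1) : Good π α β := by
  have hz := hα.isEquiv
  have hz0 : ∀ x, α x ^ 2 ≠ 0 := fun x => pow_ne_zero 2 (hα.1 x)
  obtain ⟨μ, hμ, hμ2⟩ := exists_datum_sq (π := π) (z := fun x => 1 - α x ^ 2)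
    (fun x h2 => h1 x (by linear_combination -h2)) (fun g x => by rw [map_sub, map_one, hz])
  obtain ⟨ν, hν, hν2⟩ := exists_datum_sq (π := π) (z := fun x => 1 - (α x ^ 2)⁻¹)
    (fun x h2 => h1 x (inv_eq_one.1 (sub_eq_zero.1 h2).symm)) (fun g x => by rw [map_sub, map_one, map_inv₀, hz])
  have e1 : Good π α μ := Good.steinberg hπ hα hμ fun x => by rw [hμ2]; ring
  have e2 : Good π (α⁻¹) ν := Good.steinberg hπ hα.inv hν fun x => by
    rw [hν2, Pi.inv_apply, inv_pow]; ring
  have e3 : Good π α (μ * ν⁻¹) :=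
    e1.mul_right hμ hν.inv ((e2.inv_left hα).inv_right hν)
  refine Good.of_sq_right hπ hα hβ (hμ.mul hν.inv) (fun x => ?_) e3
  have h3 : (1 : AlgebraicClosure ℚ) - (α x ^ 2)⁻¹ ≠ 0 := by
    rw [← hν2 x]
    exact pow_ne_zero 2 (hν.1 x)
  rw [Pi.mul_apply, Pi.inv_apply, mul_pow, inv_pow, hμ2, hν2, h, ← div_eq_mul_inv, eq_div_iff h3]
  have h4 := mul_inv_cancel₀ (hz0 x)
  linear_combination h4

/-- `{z, r + s z}` is good. -/
lemma Good.affine (hπ : PermSmooth π) {α δ : X → AlgebraicClosure ℚ} (hα : IsDatum π α)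
    (hδ : IsDatum π δ) {r s : ℚ} (h : ∀ x, δ x ^ 2 = (r : AlgebraicClosure ℚ) + s * α x ^ 2)
    (h1 : ∀ x, α x ^ 2 ≠ 1) : Good π α δ := by
  by_cases hs : s = 0
  · subst hs
    by_cases hX : Nonempty X
    · obtain ⟨x⟩ := hX
      have hr : r ≠ 0 := by
        rintro rfl
        have h2 := h x
        push_cast at h2
        rw [zero_mul, add_zero] at h2
        exact hδ.1 x (pow_eq_zero_iff two_ne_zero |>.1 h2)
      obtain ⟨c, hc, hc2⟩ := exists_ratSq hr
      refine Good.of_sq_right hπ hα hδ (IsDatum.const hc) (fun x => ?_)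
        (Good.const_right hπ hc hα)
      rw [h, hc2]
      push_cast
      ring
    · have : IsEmpty X := not_nonempty_iff.1 hX
      have h2 : cup π (kap π α) (kap π δ) = 0 := by
        funext g h
        simp [cup]
      rw [Good, h2]
      exact ratSub.zero_mem
  by_cases hr : r = 0
  · subst hr
    obtain ⟨c, hc, hc2⟩ := exists_ratSq (neg_ne_zero.2 hs)
    obtain ⟨η, hη, hη2⟩ := exists_datum_sq (π := π) (z := fun x => - α x ^ 2)
      (fun x => neg_ne_zero.2 (pow_ne_zero 2 (hα.1 x))) (fun g x => by rw [map_neg, hα.2])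
    have e1 : Good π α η := Good.neg_self hπ hα hη hη2 h1
    refine Good.of_sq_right hπ hα hδ ((IsDatum.const hc).mul hη) (fun x => ?_)
      ((Good.const_right hπ hc hα).mul_right (IsDatum.const hc) hη e1)
    rw [Pi.mul_apply, mul_pow, hη2, hc2, h]
    push_cast
    ring
  · have hr' : (r : AlgebraicClosure ℚ) ≠ 0 := by exact_mod_cast hr
    obtain ⟨c, hc, hc2⟩ := exists_ratSq hr
    obtain ⟨e, he, he2⟩ := exists_ratSq (a := -s / r) (div_ne_zero (neg_ne_zero.2 hs) hr)
    obtain ⟨κ, hκ, hκ2⟩ := exists_datum_sq (π := π)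
      (z := fun x => ((r : AlgebraicClosure ℚ) + s * α x ^ 2) / r)
      (fun x => div_ne_zero (by rw [← h x]; exact pow_ne_zero 2 (hδ.1 x)) hr')
      (fun g x => by
        rw [map_div₀, map_add, map_mul, hα.2]
        simp only [map_ratCast])
    have e1 : Good π ((fun _ => e) * α) κ := Good.steinberg hπ ((IsDatum.const he).mul hα) hκ
      fun x => by
        rw [Pi.mul_apply, mul_pow, he2, hκ2]
        push_cast
        field_simp
        ring
    have e2 : Good π α κ := e1.of_mul_left (IsDatum.const he) hα (Good.const_left he hκ)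
    refine Good.of_sq_right hπ hα hδ ((IsDatum.const hc).mul hκ) (fun x => ?_)
      ((Good.const_right hπ hc hα).mul_right (IsDatum.const hc) hκ e2)
    rw [Pi.mul_apply, mul_pow, hκ2, hc2, h]
    field_simp

/-- **The trick of Rosset and Tate**: on a transitive set with three elements all cup products are
sums of rational symbols. -/
theorem good_of_card (hcard : Nat.card X = 3) (hπ : PermSmooth π)
    (htr : ∀ x y : X, ∃ g, π g x = y) {α β : X → AlgebraicClosure ℚ} (hα : IsDatum π α)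
    (hβ : IsDatum π β) : Good π α β := by
  obtain ⟨x₀⟩ : Nonempty X := by
    have hfin : Finite X := Nat.finite_of_card_ne_zero (by omega)
    rw [← Finite.card_pos_iff]; omega
  by_cases hconst : ∃ a : ℚ, α x₀ ^ 2 = (a : AlgebraicClosure ℚ)
  · obtain ⟨a, ha⟩ := hconst
    have h1 : (fun x => α x ^ 2) = fun _ => algebraMap ℚ (AlgebraicClosure ℚ) a :=
      hα.isEquiv.eq_of_eq htr (isEquiv_const a) (x := x₀) ha
    have ha0 : a ≠ 0 := by
      rintro rfl
      push_cast at ha
      exact hα.1 x₀ (pow_eq_zero_iff two_ne_zero |>.1 ha)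
    obtain ⟨c, hc, hc2⟩ := exists_ratSq ha0
    refine Good.of_sq_left hπ hα (IsDatum.const hc) hβ (fun x => ?_) (Good.const_left hc hβ)
    rw [hc2]
    exact congrFun h1 x
  · have hnc : ∀ x, ∀ a : ℚ, α x ^ 2 ≠ (a : AlgebraicClosure ℚ) := by
      intro x a h
      apply hconst
      have h1 : (fun x => α x ^ 2) = fun _ => algebraMap ℚ (AlgebraicClosure ℚ) a :=
        hα.isEquiv.eq_of_eq htr (isEquiv_const a) (x := x) h
      exact ⟨a, congrFun h1 x₀⟩
    have hne1 : ∀ x, α x ^ 2 ≠ 1 := fun x h => hnc x 1 (by rw [h]; norm_num)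
    have haff : ∀ r s : ℚ, (r ≠ 0 ∨ s ≠ 0) → ∀ x, (r : AlgebraicClosure ℚ) + s * α x ^ 2 ≠ 0 := by
      intro r s hrs x h
      by_cases hs : s = 0
      · subst hs
        rw [Rat.cast_zero, zero_mul, add_zero] at h
        have : r = 0 := by exact_mod_cast h
        simp [this] at hrs
      · have hs' : (s : AlgebraicClosure ℚ) ≠ 0 := by exact_mod_cast hs
        apply hnc x (-r / s)
        push_cast
        rw [eq_div_iff hs']
        linear_combination h
    obtain ⟨r, hr, hrel⟩ := exists_relation hcard hπ htr hα.isEquiv hβ.isEquiv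
    have h23 : r 2 ≠ 0 ∨ r 3 ≠ 0 := by
      by_contra hcon
      push Not at hcon
      obtain ⟨h2, h3⟩ := hcon
      have h01 : r 0 ≠ 0 ∨ r 1 ≠ 0 := by
        by_contra hcon'
        push Not at hcon'
        exact hr (by
          funext i
          fin_cases i
          · exact hcon'.1
          · exact hcon'.2
          · exact h2
          · exact h3)
      apply haff (r 0) (r 1) h01 x₀
      have h4 := hrel x₀
      rw [h2, h3] at h4
      push_cast at h4
      linear_combination h4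
    have hden : ∀ x, (r 2 : AlgebraicClosure ℚ) + r 3 * α x ^ 2 ≠ 0 := haff _ _ h23
    have hnum : ∀ x, ((-r 0 : ℚ) : AlgebraicClosure ℚ) + (-r 1 : ℚ) * α x ^ 2 ≠ 0 := by
      intro x h
      have h1 := hrel x
      push_cast at h
      have h2 : ((r 2 : AlgebraicClosure ℚ) + r 3 * α x ^ 2) * β x ^ 2 = 0 := by
        linear_combination h1 + h
      rcases mul_eq_zero.1 h2 with h3 | h3
      · exact hden x h3
      · exact hβ.1 x (pow_eq_zero_iff two_ne_zero |>.1 h3)
    obtain ⟨δ₁, hδ₁, hδ₁2⟩ := exists_datum_sq (π := π) hnum (fun g x => by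
      rw [map_add, map_mul, hα.2]
      simp only [map_ratCast])
    obtain ⟨δ₂, hδ₂, hδ₂2⟩ := exists_datum_sq (π := π) hden (fun g x => by
      rw [map_add, map_mul, hα.2]
      simp only [map_ratCast])
    have e1 : Good π α δ₁ := Good.affine hπ hα hδ₁ hδ₁2 hne1
    have e2 : Good π α δ₂ := Good.affine hπ hα hδ₂ hδ₂2 hne1
    refine Good.of_sq_right hπ hα hβ (hδ₁.mul hδ₂.inv) (fun x => ?_)
      (e1.mul_right hδ₁ hδ₂.inv (e2.inv_right hδ₂))
    rw [Pi.mul_apply, Pi.inv_apply, mul_pow, inv_pow, hδ₁2, hδ₂2, ← div_eq_mul_inv,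
      eq_div_iff (hden x)]
    push_cast
    linear_combination hrel x

end Symbols

end Fermat.Agent.LTF.Sel
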