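import Fermat.Agent.CFT.Local2.Symbols
import Fermat.Agent.CFT.Bridge.Decomp
import Fermat.Agent.LTF.Sel.ProdForm
import Fermat.Agent.LTF.Sel.Defs

/-!
# Weak reciprocity (1): the local symbols and split cochains on decomposition groups
-/

set_option autoImplicit false

open Fermat.Agent.PT Fermat.Agent.CFT Fermat.Agent.CFT.Kum Fermat.Agent.CFT.Kum.KumSet
open Fermat.Agent.CFT.Bridge Fermat.Agent.CFT.Global

namespace Fermat.Agent.LTF.Sel

open Fermat.Agent.S53norm (GQ M2)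

section hsym

variable (v : ℕ) [hv : Fact v.Prime]

/-- The field `ℚ_v` inside `PadicAlgCl v`. -/
noncomputable abbrev bl : IntermediateField ℚ_[v] (PadicAlgCl v) := ⊥

lemma prim_bl : IsPrimitiveRoot (-1 : bl v) 2 := IsPrimitiveRoot.neg_one 0 (by norm_num)

/-- `ℚ_vˣ → (ℚ_v inside PadicAlgCl v)ˣ` -/
noncomputable def bu : ℚ_[v]ˣ →* (bl v)ˣ := Units.map (algebraMap ℚ_[v] (bl v)).toMonoidHom

@[simp] lemma coe_bu (a : ℚ_[v]ˣ) : ((bu v a : (bl v)ˣ) : bl v) = algebraMap ℚ_[v] (bl v) a := rfl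

lemma exists_algebraMap_bl (x : bl v) : ∃ a : ℚ_[v], algebraMap ℚ_[v] (bl v) a = x := by
  obtain ⟨a, ha⟩ := IntermediateField.mem_bot.mp x.2
  exact ⟨a, Subtype.ext ha⟩

lemma bu_surjective : Function.Surjective (bu v) := by
  intro x
  obtain ⟨a, ha⟩ := exists_algebraMap_bl v (x : bl v)
  have ha0 : a ≠ 0 := by
    rintro rfl
    rw [map_zero] at ha
    exact x.ne_zero ha.symm
  exact ⟨Units.mk0 a ha0, Units.ext ha⟩

lemma norm_bu (a : ℚ_[v]ˣ) : ‖((bu v a : (bl v)ˣ) : bl v)‖ = ‖(a : ℚ_[v])‖ := by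
  change ‖algebraMap ℚ_[v] (PadicAlgCl v) (a : ℚ_[v])‖ = _
  exact PadicAlgCl.norm_extends v _

/-- The local invariant of `ℚ_v`. -/
noncomputable def binv :
    H2 (lev (bl v)) (Bridge.triv 2 (bl v).fixingSubgroup) →+ ZMod 2 :=
  ((CFTLocal.locH2_all (p := 2)).exists_inv v (bl v) (prim_bl v)).choose

lemma binv_bijective : Function.Bijective (binv v) :=
  ((CFTLocal.locH2_all (p := 2)).exists_inv v (bl v) (prim_bl v)).choose_spec

/-- The local symbol of `ℚ_v`. -/
noncomputable def bsym : LocSym 2 v (bl v) :=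
  locSymOfAll (bl v) (prim_bl v) (binv v) (binv_bijective v).1

lemma bsym_sym : (bsym v).sym =
    symF (kumOf (bl v) (prim_bl v)) (isFixed_fixingSubgroup (bl v)) (binv v) := rfl

lemma eq_of_mul_eq_one_two {x y : Multiplicative (ZMod 2)} (h : x * y = 1) : x = y := by
  revert x y
  decide

/-- The local symbol of `ℚ_v` as an `HSym`. -/
noncomputable def hsym : HSym v where
  sym := MonoidHom.mk' (fun a => ((bsym v).sym (bu v a)).comp (bu v)) (by
    intro a b
    ext x
    simp)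
  nondeg := by
    intro a h
    have h1 : ∃ b : bl v, b ^ 2 = ((bu v a : (bl v)ˣ) : bl v) := by
      rw [(bsym v).mem_pow_iff]
      intro x
      obtain ⟨x, rfl⟩ := bu_surjective v x
      exact h x
    obtain ⟨b, hb⟩ := h1
    obtain ⟨c, rfl⟩ := exists_algebraMap_bl v b
    have h2 : c ^ 2 = (a : ℚ_[v]) := (algebraMap ℚ_[v] (bl v)).injective (by
      rw [map_pow, hb, coe_bu])
    have hc : c ≠ 0 := by
      rintro rfl
      exact a.ne_zero (by rw [← h2, zero_pow two_ne_zero])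
    exact ⟨Units.mk0 c hc, Units.ext h2⟩
  comm := fun a b => eq_of_mul_eq_one_two ((bsym v).skew (bu v a) (bu v b))
  norm := fun a x s t h => (bsym v).norm_mem _ _
    (isNormFrom_two_of (s := algebraMap ℚ_[v] (bl v) s) (t := algebraMap ℚ_[v] (bl v) t) (by
      rw [coe_bu, coe_bu, h]
      simp))
  unit := fun h a x ha hx => (bsym v).unit_mem h _ _ (by rw [norm_bu, ha]) (by rw [norm_bu, hx])

lemma hsym_apply (a b : ℚ_[v]ˣ) : (hsym v).sym a b = Multiplicative.ofAdd (binv v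
    (cupX (kumF (kumOf (bl v) (prim_bl v)) (isFixed_fixingSubgroup (bl v)) (bu v a)).toAdd
      (kumF (kumOf (bl v) (prim_bl v)) (isFixed_fixingSubgroup (bl v)) (bu v b)).toAdd)) := rfl

/-- The Kummer characters of `ℚ_v`. -/
noncomputable abbrev bkum (a : ℚ_[v]ˣ) : Xp (lev (bl v)) 2 :=
  (kumF (kumOf (bl v) (prim_bl v)) (isFixed_fixingSubgroup (bl v)) (bu v a)).toAdd

/-- A product of local symbols is trivial iff the sum of the cup products of the Kummer characters is
a coboundary. -/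
theorem prod_hsym_eq_one_iff {ι : Type*} [Fintype ι] (a b : ι → ℚ_[v]ˣ) :
    ∏ i, (hsym v).sym (a i) (b i) = 1 ↔
      IsCob (p := 2) (lev (bl v)) (fun q => ∑ i, (bkum v (a i)).1 q.1 * (bkum v (b i)).1 q.2) := by
  have h1 : ∏ i, (hsym v).sym (a i) (b i) = Multiplicative.ofAdd (binv v (H2mk (lev (bl v))
      (Bridge.triv 2 (bl v).fixingSubgroup) (∑ i, cupZ2 (bkum v (a i)) (bkum v (b i))))) := by
    rw [map_sum, map_sum, ofAdd_sum]
    rfl
  rw [h1, ← ofAdd_zero, Multiplicative.ofAdd.injective.eq_iff, ← map_zero (binv v),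
    (binv_bijective v).1.eq_iff, H2mk_triv_eq_zero_iff]
  have h2 : ((∑ i, cupZ2 (bkum v (a i)) (bkum v (b i)) :
      ↥(Z2 (lev (bl v)) (Bridge.triv 2 (bl v).fixingSubgroup))) :
      (bl v).fixingSubgroup × (bl v).fixingSubgroup → ZMod 2) =
      fun q => ∑ i, (bkum v (a i)).1 q.1 * (bkum v (b i)).1 q.2 := by
    rw [AddSubmonoidClass.coe_finsetSum]
    funext q
    rw [Finset.sum_apply]
    rfl
  rw [h2]

end hsym

end Fermat.Agent.LTF.Sel
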