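import Fermat.Agent.LTF.Sel.WRLoc

/-!
# Weak reciprocity (2): split cochains on decomposition groups and the local symbols
-/

set_option autoImplicit false

open Fermat.Agent.PT Fermat.Agent.CFT Fermat.Agent.CFT.Kum Fermat.Agent.CFT.Kum.KumSet
open Fermat.Agent.CFT.Bridge Fermat.Agent.CFT.Global

namespace Fermat.Agent.LTF.Sel

open Fermat.Agent.S53norm (GQ M2)

section kumcomp

variable (v : ℕ) [hv : Fact v.Prime]

/-- An element of the local Galois group as an element of the fixing subgroup of the bottom field. -/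
def gb (g : PadicAlgCl v ≃ₐ[ℚ_[v]] PadicAlgCl v) : (bl v).fixingSubgroup :=
  ⟨g, by rw [IntermediateField.fixingSubgroup_bot]; trivial⟩

lemma gb_mul (g h : PadicAlgCl v ≃ₐ[ℚ_[v]] PadicAlgCl v) : gb v (g * h) = gb v g * gb v h := rfl

/-- The global Kummer character restricted to the local Galois group. -/
theorem kum_localGaloisToGlobal {x : AlgebraicClosure ℚ} (hx : x ≠ 0) {a : ℚ_[v]ˣ}
    (ha : (padicEmbedding v x) ^ 2 = algebraMap ℚ_[v] (PadicAlgCl v) a)
    (g : PadicAlgCl v ≃ₐ[ℚ_[v]] PadicAlgCl v) :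
    kum x (localGaloisToGlobal v g) = (bkum v a).1 (gb v g) := by
  have hinj : Function.Injective (padicEmbedding v) := (padicEmbedding v).toRingHom.injective
  have hx' : padicEmbedding v x ≠ 0 := (map_ne_zero_iff _ hinj).mpr hx
  let α : (PadicAlgCl v)ˣ := Units.mk0 (padicEmbedding v x) hx'
  have hα : ((α : (PadicAlgCl v)ˣ) : PadicAlgCl v) ^ 2 =
      algebraMap (bl v) (PadicAlgCl v) ((bu v a : (bl v)ˣ) : bl v) := by
    rw [coe_bu]
    exact ha
  have h1 := smul_eq_kumF (kumOf (bl v) (prim_bl v)) (isFixed_fixingSubgroup (bl v)) hα (gb v g)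
  have h2 : g (padicEmbedding v x) =
      (((kumOf (bl v) (prim_bl v)).zp ((bkum v a).1 (gb v g)) : (PadicAlgCl v)ˣ) :
        PadicAlgCl v) * padicEmbedding v x := congrArg Units.val h1
  apply kum_unique hx
  apply hinj
  rw [padicEmbedding_localGaloisToGlobal, h2, map_mul]
  congr 1
  rcases zmod2_cases ((bkum v a).1 (gb v g)) with h | h
  · rw [h, zp_zero, Units.val_one, sg_zero, map_one]
  · rw [h, sg_one, map_neg, map_one]
    have h3 : (kumOf (bl v) (prim_bl v)).zp 1 = (kumOf (bl v) (prim_bl v)).ζ := by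
      have := (kumOf (bl v) (prim_bl v)).zp_natCast 1
      rw [Nat.cast_one, pow_one] at this
      exact this
    rw [h3, coe_kumOf_ζ]
    rfl

end kumcomp

section spl

variable (v : ℕ) [hv : Fact v.Prime]

lemma fixes_iff {L : IntermediateField ℚ (AlgebraicClosure ℚ)} {u : GQ} :
    Fixes L u ↔ u ∈ L.fixingSubgroup := (IntermediateField.mem_fixingSubgroup_iff _ _).symm

/-- A cochain is split on the decomposition group iff its pull back to the local Galois group is a
coboundary. -/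
theorem spl_padicPlace_iff (c : GQ → GQ → ZMod 2) :
    Spl ((padicPlace v).decompositionSubgroup ℚ) c ↔
      IsCob (p := 2) (lev (bl v))
        (fun q => c (localGaloisToGlobal v q.1.1) (localGaloisToGlobal v q.2.1)) := by
  classical
  constructor
  · rintro ⟨s, ⟨L, hL, hs⟩, h⟩
    refine ⟨fun g => s (localGaloisToGlobal v g.1), ⟨(locField (iotaRes (q := v) L)).fixingSubgroup.comap
      (bl v).fixingSubgroup.subtype, ⟨_, fixingSubgroup_mem_galLevels _, le_rfl⟩, ?_⟩, ?_⟩
    · intro g u hu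
      have hu' : u.1 ∈ (locField (iotaRes (q := v) L)).fixingSubgroup := hu
      rw [← comap_fixingSubgroup_eq] at hu'
      change s (localGaloisToGlobal v (g.1 * u.1)) = _
      rw [map_mul]
      exact hs _ _ (fixes_iff.mpr hu')
    · intro g k
      have h1 := h _ (localGaloisToGlobal_mem_decompositionSubgroup v g.1) _
        (localGaloisToGlobal_mem_decompositionSubgroup v k.1)
      change c _ _ = s _ - s (localGaloisToGlobal v (g.1 * k.1)) + s _
      rw [map_mul, CharTwo.sub_eq_add]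
      rw [h1]
      ring
  · rintro ⟨e, ⟨V, ⟨W, ⟨E, hE, hEW⟩, hWV⟩, he⟩, h⟩
    obtain ⟨F, hF, hEF⟩ := exists_le_locField (q := v) E
    have key : ∀ (g : PadicAlgCl v ≃ₐ[ℚ_[v]] PadicAlgCl v) (u : PadicAlgCl v ≃ₐ[ℚ_[v]] PadicAlgCl v),
        localGaloisToGlobal v u ∈ F.fixingSubgroup → e (gb v (g * u)) = e (gb v g) := by
      intro g u hu
      rw [gb_mul]
      apply he
      apply hWV
      rw [Subgroup.mem_comap]
      apply hEW
      apply IntermediateField.fixingSubgroup_antitone hEF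
      rw [← comap_fixingSubgroup_eq]
      exact hu
    let s : GQ → ZMod 2 := fun g =>
      if hg : ∃ δ : PadicAlgCl v ≃ₐ[ℚ_[v]] PadicAlgCl v,
        (localGaloisToGlobal v δ)⁻¹ * g ∈ F.fixingSubgroup then e (gb v hg.choose) else 0
    have hs : ∀ (δ : PadicAlgCl v ≃ₐ[ℚ_[v]] PadicAlgCl v) (g : GQ),
        (localGaloisToGlobal v δ)⁻¹ * g ∈ F.fixingSubgroup → s g = e (gb v δ) := by
      intro δ g hg
      have hex : ∃ δ : PadicAlgCl v ≃ₐ[ℚ_[v]] PadicAlgCl v,
        (localGaloisToGlobal v δ)⁻¹ * g ∈ F.fixingSubgroup := ⟨δ, hg⟩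
      have h1 : s g = e (gb v hex.choose) := dif_pos hex
      have h2 := hex.choose_spec
      have h3 := key δ (δ⁻¹ * hex.choose) (by
        rw [map_mul, map_inv]
        have h4 := mul_mem hg (inv_mem h2)
        have h5 : (localGaloisToGlobal v δ)⁻¹ * g * ((localGaloisToGlobal v hex.choose)⁻¹ * g)⁻¹ =
          (localGaloisToGlobal v δ)⁻¹ * localGaloisToGlobal v hex.choose := by group
        rwa [h5] at h4)
      rw [mul_inv_cancel_left] at h3
      rw [h1, h3]
    refine ⟨s, ⟨F, hF, ?_⟩, ?_⟩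
    · intro g u hu
      rw [fixes_iff] at hu
      by_cases hg : ∃ δ : PadicAlgCl v ≃ₐ[ℚ_[v]] PadicAlgCl v,
        (localGaloisToGlobal v δ)⁻¹ * g ∈ F.fixingSubgroup
      · obtain ⟨δ, hδ⟩ := hg
        rw [hs δ g hδ, hs δ (g * u) (by rw [← mul_assoc]; exact mul_mem hδ hu)]
      · have hg' : ¬ ∃ δ : PadicAlgCl v ≃ₐ[ℚ_[v]] PadicAlgCl v,
          (localGaloisToGlobal v δ)⁻¹ * (g * u) ∈ F.fixingSubgroup := by
          rintro ⟨δ, hδ⟩
          refine hg ⟨δ, ?_⟩
          have := mul_mem hδ (inv_mem hu)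
          rwa [mul_assoc, mul_inv_cancel_right] at this
        change (if hg : _ then _ else _) = (if hg : _ then _ else _)
        rw [dif_neg hg', dif_neg hg]
    · intro g hg k hk
      rw [← range_localGaloisToGlobal] at hg hk
      obtain ⟨g, rfl⟩ := hg
      obtain ⟨k, rfl⟩ := hk
      have h1 := h (gb v g) (gb v k)
      change c (localGaloisToGlobal v g) (localGaloisToGlobal v k) =
        e (gb v k) - e (gb v (g * k)) + e (gb v g) at h1
      rw [h1, hs g _ (by rw [inv_mul_cancel]; exact one_mem _),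
        hs k _ (by rw [inv_mul_cancel]; exact one_mem _),
        hs (g * k) _ (by rw [map_mul, inv_mul_cancel]; exact one_mem _), CharTwo.sub_eq_add]
      ring

/-- Conjugation. -/
theorem spl_conj {D : Subgroup GQ} {c : GQ → GQ → ZMod 2} (τ : GQ)
    (hc : ∀ g h, c (τ * g * τ⁻¹) (τ * h * τ⁻¹) = c g h) {D' : Subgroup GQ}
    (hD : ∀ g ∈ D', τ * g * τ⁻¹ ∈ D) (h : Spl D c) : Spl D' c := by
  obtain ⟨s, ⟨L, hL, hs⟩, h⟩ := h
  refine ⟨fun g => s (τ * g * τ⁻¹), ⟨L.map (τ⁻¹ : GQ).toAlgHom, ?_, ?_⟩, ?_⟩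
  · exact inferInstance
  · intro g u hu
    have h1 : τ * (g * u) * τ⁻¹ = (τ * g * τ⁻¹) * (τ * u * τ⁻¹) := by group
    change s (τ * (g * u) * τ⁻¹) = _
    rw [h1]
    apply hs
    intro x hx
    have h2 := hu ((τ⁻¹ : GQ) x) ⟨x, hx, rfl⟩
    change τ (u ((τ⁻¹ : GQ) x)) = x
    rw [h2]
    exact τ.apply_symm_apply x
  · intro g hg k hk
    have h1 := h _ (hD g hg) _ (hD k hk)
    rw [hc] at h1
    rw [h1]
    congr 2
    group

lemma kum_mul_fun {x : AlgebraicClosure ℚ} (hx : RatSq x) (g h : GQ) :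
    kum x (g * h) = kum x g + kum x h := by
  apply kum_unique hx.1
  change g (h x) = _
  rw [kum_spec (hx.map_sq h), map_mul, map_sg, kum_spec (hx.map_sq g), ← mul_assoc, sg_add,
    mul_comm (sg (kum x g))]

lemma kum_one {x : AlgebraicClosure ℚ} : kum x 1 = 0 := if_pos rfl

lemma kum_conj {x : AlgebraicClosure ℚ} (hx : RatSq x) (τ g : GQ) :
    kum x (τ * g * τ⁻¹) = kum x g := by
  have h1 : kum x τ + kum x τ⁻¹ = 0 := by
    rw [← kum_mul_fun hx, mul_inv_cancel, kum_one]
  rw [kum_mul_fun hx, kum_mul_fun hx, add_right_comm, h1, zero_add]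

end spl

end Fermat.Agent.LTF.Sel
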